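import Fermat.Agent.ML.AtP.EmbAll
import Fermat.Agent.ML.Rho.TraceRing
import Fermat.Agent.ML.ESide.Any

/-!
# ML / AtP / StepP / Emb : **(EMB)** of the raising step at `q = p`, ring form

The ring `R` lives at the UPPER level `Nq = N p`; `c_p := tr ρ(s₁) - ε (1 + a₁)` (`s₁` a Frobenius lift at `p`, `s₁ = (·)^a₁` on `μ_m`).

* `Lift.IsTraceRing.rel_of_smul_eq_zero` : `(tr s₁ - n) • f v = 0` (`f` equivariant, injective on the stable subgroup `U ∋ v`)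
  ⟹ `s₁ g v + a₁ s₁⁻¹ g v = n g v` for ALL `g`   (= the hypothesis `hc` of `tp_of_rel`, [P1]).
* `Rho.IsRhoK.chi_smul_of_pow` : `χ(s₁) x = a₁ x` on `X`.
* `dnE_embE_p`, `dnE_embE_p_rhoK` : `c_p • α^* v = 0` ⟹ `e_p v ∈ ker Π_p`;  [P1] enters as the hypothesis `htp`.
-/

set_option autoImplicit false
set_option linter.unusedSectionVars false

noncomputable section

open AlgebraicCurve ModularCurve

namespace Fermat.Agent.ML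

open Fermat.Agent.RIB Fermat.Agent.RIB.Rho Fermat.Agent.GAL Fermat.Agent.ML.TWFree Fermat.Agent.ML.Lift

local notation "Qbar" => AlgebraicClosure ℚ
local notation "GQ" => (AlgebraicClosure ℚ ≃ₐ[ℚ] AlgebraicClosure ℚ)
local notation "M₂" => Matrix (Fin 2) (Fin 2)

section Abs

variable {Γ : Type*} [Group Γ] {J : Type*} [AddCommGroup J] [DistribMulAction Γ J]
  {V : AddSubgroup J} {R : Type*} [CommRing R] [Module R V] {tr : Γ → R} {χ : Γ → ℤ}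
  {M : Type*} [AddCommGroup M] [DistribMulAction Γ M]

/-- a relation `(tr s₁ - n) • f v = 0` in the trace ring of the upper level is a Galois relation on the whole `Γ`-orbit of `v`. -/
theorem Lift.IsTraceRing.rel_of_smul_eq_zero (H : IsTraceRing V R tr χ)
    (hcomm : ∀ (g : Γ) (s : R) (x : V),
      ((s • (⟨g • (x : J), H.stable g x x.2⟩ : V) : V) : J) = g • ((s • x : V) : J))
    (U : AddSubgroup M) (hU : ∀ (g : Γ), ∀ v ∈ U, g • v ∈ U)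
    (f : M →+ J) (hf : ∀ (g : Γ) v, f (g • v) = g • f v) (hfV : ∀ v ∈ U, f v ∈ V)
    (hi : ∀ v ∈ U, f v = 0 → v = 0) (s₁ : Γ) (a₁ : ℕ) (hχ : ∀ x ∈ V, χ s₁ • x = a₁ • x) (n : ℤ)
    {v : M} (hv : v ∈ U) (hc : (tr s₁ - (n : R)) • (⟨f v, hfV v hv⟩ : V) = 0) (g : Γ) :
    s₁ • g • v + a₁ • s₁⁻¹ • g • v = n • g • v := by
  have h1 := hcomm g (tr s₁ - (n : R)) ⟨f v, hfV v hv⟩
  rw [hc, ZeroMemClass.coe_zero, smul_zero, H.tr_sub_smul] at h1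
  have h2 : ((⟨g • ((⟨f v, hfV v hv⟩ : V) : J), H.stable g _ (hfV v hv)⟩ : V) : J) = f (g • v) :=
    (hf g v).symm
  rw [h2, hχ _ (H.stable s₁⁻¹ _ (hfV _ (hU g v hv))), ← hf, ← hf, ← map_nsmul, ← map_zsmul, ← map_add,
    ← map_sub] at h1
  have h3 := hi _ (U.sub_mem (U.add_mem (hU s₁ _ (hU g v hv))
    (U.nsmul_mem (hU s₁⁻¹ _ (hU g v hv)) a₁)) (U.zsmul_mem (hU g v hv) n)) h1
  exact sub_eq_zero.1 h3

end Abs

section RhoK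

variable {L m : ℕ} [NeZero L] [NeZero m] {X : AddSubgroup (JZero L)} {rE : GQ →* M₂ (ZMod m)}
  {R : Type} [CommRing R] [Algebra (ZMod m) R] [Module R ↥X] {πE : R →ₐ[ZMod m] ZMod m}
  {ρ : GQ →* M₂ R} {Φ : M₂ R →ₐ[R] Module.End R ↥X}

/-- `χ(s) x = a x` on `X` when `s = (·)^a` on `μ_m`. -/
theorem Rho.IsRhoK.chi_smul_of_pow (H : Rho.IsRhoK L m X rE πE ρ Φ) {s : GQ} {a : ℕ}
    (ha : ∀ μ : Qbar, μ ^ m = 1 → s μ = μ ^ a) (x : JZero L) (hx : x ∈ X) :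
    (((chiM m s).val : ℕ) : ℤ) • x = a • x := by
  have h1 := Rho.zsmul_eq_val_nsmul (H.m_nsmul_eq_zero ⟨x, hx⟩) (a : ℤ) (chiM m s)
    (by rw [ESide.chiM_eq_of_pow m s a ha, Int.cast_natCast])
  rw [natCast_zsmul, ← h1, natCast_zsmul]

end RhoK

section Emb

variable {N p Nq : ℕ} [NeZero N] [NeZero p] [NeZero Nq]

/-- **(EMB) at `q = p`**, trace ring form.   `htp` = [P1] `tp_of_rel`. -/
theorem dnE_embE_p {V : AddSubgroup (JZero Nq)} {R : Type*} [CommRing R] [Module R V] {tr : GQ → R}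
    {χ : GQ → ℤ} (H : IsTraceRing V R tr χ)
    (hcomm : ∀ (g : GQ) (s : R) (x : V),
      ((s • (⟨g • (x : JZero Nq), H.stable g x x.2⟩ : V) : V) : JZero Nq) =
        g • ((s • x : V) : JZero Nq))
    (hp : p.Prime) (hpN : ¬ p ∣ N) (h : Nq = N * p) {ε : ℤ} (hε : ε * ε = 1)
    (U : AddSubgroup (JZero N)) (hU : ∀ (g : GQ), ∀ v ∈ U, g • v ∈ U)
    (hAV : ∀ v ∈ U, upE h 0 v ∈ V) (hAi : ∀ v ∈ U, upE h 0 v = 0 → v = 0)
    (s₁ : GQ) (a₁ : ℕ) (hχ : ∀ x ∈ V, χ s₁ • x = a₁ • x)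
    (htp : ∀ v ∈ U, (∀ g : GQ, s₁ • g • v + a₁ • s₁⁻¹ • g • v = (ε * (1 + (a₁ : ℤ))) • g • v) →
      heckeOperatorBar N ⟨p, hp⟩ v = (ε * ((p : ℤ) + 1)) • v)
    {v : JZero N} (hv : v ∈ U)
    (hc : (tr s₁ - ((ε * (1 + (a₁ : ℤ)) : ℤ) : R)) • (⟨upE h 0 v, hAV v hv⟩ : V) = 0) (k : Fin 2) :
    dnE h k (upE h 0 v - ε • upE h 1 v) = 0 :=
  dnE_embE_of_hecke_all hp hpN hε h (htp v hv fun g =>
    H.rel_of_smul_eq_zero hcomm U hU (upE h 0) (fun g v => upE_smul h 0 g v) hAV hAi s₁ a₁ hχ _ hv hc g) k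

/-- **(EMB) at `q = p`**, `IsRhoK` form : `c_p = tr ρ(s₁) - ε (1 + a₁)`. -/
theorem dnE_embE_p_rhoK {m : ℕ} [NeZero m] {X : AddSubgroup (JZero Nq)} {rE : GQ →* M₂ (ZMod m)}
    {R : Type} [CommRing R] [Algebra (ZMod m) R] [Module R ↥X] {πE : R →ₐ[ZMod m] ZMod m}
    {ρ : GQ →* M₂ R} {Φ : M₂ R →ₐ[R] Module.End R ↥X} (H : Rho.IsRhoK Nq m X rE πE ρ Φ)
    (hp : p.Prime) (hpN : ¬ p ∣ N) (h : Nq = N * p) {ε : ℤ} (hε : ε * ε = 1)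
    (U : AddSubgroup (JZero N)) (hU : ∀ (g : GQ), ∀ v ∈ U, g • v ∈ U)
    (hAV : ∀ v ∈ U, upE h 0 v ∈ X) (hAi : ∀ v ∈ U, upE h 0 v = 0 → v = 0)
    (s₁ : GQ) (a₁ : ℕ) (ha₁ : ∀ μ : Qbar, μ ^ m = 1 → s₁ μ = μ ^ a₁)
    (htp : ∀ v ∈ U, (∀ g : GQ, s₁ • g • v + a₁ • s₁⁻¹ • g • v = (ε * (1 + (a₁ : ℤ))) • g • v) →
      heckeOperatorBar N ⟨p, hp⟩ v = (ε * ((p : ℤ) + 1)) • v)
    {v : JZero N} (hv : v ∈ U)
    (hc : ((ρ s₁).trace - ((ε * (1 + (a₁ : ℤ)) : ℤ) : R)) • (⟨upE h 0 v, hAV v hv⟩ : ↥X) = 0)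
    (k : Fin 2) : dnE h k (upE h 0 v - ε • upE h 1 v) = 0 :=
  dnE_embE_p H.isTraceRing H.hcomm hp hpN h hε U hU hAV hAi s₁ a₁ (H.chi_smul_of_pow ha₁) htp hv hc k

end Emb

end Fermat.Agent.ML
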