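import Fermat.Agent.ML.AtP.MaAtp
import Fermat.Agent.ML.AtP.S1K
import Fermat.Agent.ML.Main.StepSplit
import Fermat.Agent.ML.Lift.Inst.New

/-!
# ML / AtP / StepP / Num : [P6b] the numerics and the bookkeeping of the raising step at `q = p`   (case (Mb))

`c_p := tr ρ(s₁) - ε (1 + a₁)`.

* `pi0_cP` : `π0 c_p = 0` for ANY `π0 : R →+* ZMod p` with `ρ mod π0 = rbar0`, `tr rbar0 s₁ = n`;
  `Rho.IsRhoK.castK_cP`, `Rho.IsRhoK.isNilpotent_cP` : the same for the joint ring (`π0 = castHom ∘ πE`), and `c_p` is nilpotent;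
* `cellLevel_insert` : `cellLevel L₀ (insert q P) = cellLevel L₀ P * q` (`q ≠ 2`, `q ∉ P`);  `cellLevel_insert_two`;
* `LCtx.not_dvd_cellLevel` : `q ∈ Pfin`, `q ≠ 2`, `q ∉ P ⊆ Pfin` ⟹ `q ∤ cellLevel L₀ P`;
* `LCtx.mtw_cell_frm` : `MTW` at every cell level, from a frame;  `LCtx.ne_qv`, `LCtx.mem_T_of_mem_Pfin`;
* `LCtx.not_dvd_lvl_cell` : `q ∤ lvl (cellLevel L₀ P) (extP qv) t`;
* `LCtx.stepP_num` : everything for `q = p`, `P = Pfin.erase p`, in one statement.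
-/

set_option autoImplicit false

noncomputable section

open AlgebraicCurve ModularCurve

namespace Fermat.Agent.ML

open Fermat.Agent.RIB Fermat.Agent.ML.ESide

local notation "Qbar" => AlgebraicClosure ℚ
local notation "GQ" => (AlgebraicClosure ℚ ≃ₐ[ℚ] AlgebraicClosure ℚ)
local notation "M₂" => Matrix (Fin 2) (Fin 2)

/-! ### `c_p` lies in the maximal ideal -/

/-- `π0 (tr ρ(s) - n) = 0` if `tr rbar0 s = n`. -/
theorem pi0_cP {p : ℕ} {rbar0 : GQ →* M₂ (ZMod p)} {R : Type*} [CommRing R] (π0 : R →+* ZMod p)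
    (ρ : GQ →* M₂ R) (hlift : ∀ g, (ρ g).map π0 = rbar0 g) {s : GQ} {n : ℤ}
    (htr : (rbar0 s).trace = (n : ZMod p)) : π0 ((ρ s).trace - (n : R)) = 0 := by
  rw [map_sub, map_intCast, ← htr, ← hlift s, Matrix.trace_fin_two, Matrix.trace_fin_two, map_add]
  simp

section RhoK

variable {L m p : ℕ} [NeZero L] [NeZero m] {X : AddSubgroup (JZero L)} {rE : GQ →* M₂ (ZMod m)}
  {R : Type} [CommRing R] [Algebra (ZMod m) R] [Module R ↥X] {πE : R →ₐ[ZMod m] ZMod m}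
  {ρ : GQ →* M₂ R} {Φ : M₂ R →ₐ[R] Module.End R ↥X}

/-- `c_p` is `0` in the residue field of the joint ring. -/
theorem Rho.IsRhoK.castHom_cP (H : Rho.IsRhoK L m X rE πE ρ Φ) (hpm : p ∣ m)
    {rbar0 : GQ →* M₂ (ZMod p)} (hred : ∀ g, (rE g).map (ZMod.castHom hpm (ZMod p)) = rbar0 g)
    {s : GQ} {n : ℤ} (htr : (rbar0 s).trace = (n : ZMod p)) :
    ZMod.castHom hpm (ZMod p) (πE ((ρ s).trace - (n : R))) = 0 := by
  refine pi0_cP ((ZMod.castHom hpm (ZMod p)).comp (πE : R →+* ZMod m)) ρ (fun g => ?_) htr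
  rw [← hred g, ← H.toE g]
  ext i j
  rfl

/-- `c_p` is nilpotent in the joint ring. -/
theorem Rho.IsRhoK.isNilpotent_cP (H : Rho.IsRhoK L m X rE πE ρ Φ) {k : ℕ} (hm : m = p ^ k)
    (hpm : p ∣ m) {rbar0 : GQ →* M₂ (ZMod p)}
    (hred : ∀ g, (rE g).map (ZMod.castHom hpm (ZMod p)) = rbar0 g)
    {s : GQ} {n : ℤ} (htr : (rbar0 s).trace = (n : ZMod p)) :
    IsNilpotent ((ρ s).trace - (n : R)) := by
  obtain ⟨j, hj⟩ := Rho.isNilpotent_of_castHom_eq_zero hm hpm _ (H.castHom_cP hpm hred htr)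
  rw [← map_pow] at hj
  obtain ⟨i, hi⟩ := H.nil _ hj
  exact ⟨j * i, by rw [pow_mul, hi]⟩

end RhoK

/-! ### levels -/

theorem cellLevel_insert (L₀ : ℕ) {P : Finset ℕ} {q : ℕ} (hq2 : q ≠ 2) (hqP : q ∉ P) :
    cellLevel L₀ (insert q P) = cellLevel L₀ P * q := by
  unfold cellLevel
  rw [Finset.erase_insert_of_ne hq2,
    Finset.prod_insert (fun h => hqP (Finset.mem_of_mem_erase h))]
  ring

theorem cellLevel_insert_two (L₀ : ℕ) (P : Finset ℕ) :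
    cellLevel L₀ (insert 2 P) = cellLevel L₀ P := by
  unfold cellLevel
  congr 2
  ext x
  simp only [Finset.mem_erase, Finset.mem_insert]
  tauto

section LCtx

variable {W : WeierstrassCurve ℤ} {p : ℕ} [Fact p.Prime] {T : Finset ℕ}
  {b : Module.Basis (Fin 2) (ZMod p) (TorsW W p)} {L₀ : ℕ} [NeZero L₀] {eps : ℕ → ℤ} {eP : GQ → ℤ}

theorem LCtx.mem_T_of_mem_Pfin (X : LCtx W p T b L₀ eps eP) {q : ℕ}
    (hq : q ∈ Pfin W (rbarB b) L₀) : q ∈ T :=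
  X.hbadT q (X.prime_of_mem_Pfin hq) (X.dvd_of_mem_Pfin hq)

/-- an odd raising prime which is not yet raised does not divide the level of the cell. -/
theorem LCtx.not_dvd_cellLevel (X : LCtx W p T b L₀ eps eP) {P : Finset ℕ}
    (hP : P ⊆ Pfin W (rbarB b) L₀) {q : ℕ} (hq : q ∈ Pfin W (rbarB b) L₀) (hq2 : q ≠ 2)
    (hqP : q ∉ P) : ¬ q ∣ cellLevel L₀ P := by
  intro hd
  rcases dvd_cellLevel_cases (fun r hr => X.prime_of_mem_Pfin (hP hr)) (X.prime_of_mem_Pfin hq)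
    hd with h | h
  · exact X.not_dvd_of_mem_Pfin hq hq2 h
  · exact hqP (Finset.mem_of_mem_erase h)

theorem LCtx.cellLevel_ne_zero (X : LCtx W p T b L₀ eps eP) {P : Finset ℕ}
    (hP : P ⊆ Pfin W (rbarB b) L₀) : cellLevel L₀ P ≠ 0 :=
  Nat.mul_ne_zero (NeZero.ne L₀) (Finset.prod_ne_zero_iff.2 fun _ hq =>
    (X.prime_of_mem_Pfin (hP (Finset.mem_of_mem_erase hq))).ne_zero)

variable {t F C₀ a m n K : ℕ} {qv : Fin t → Nat.Primes}

/-- the Taylor-Wiles data at every cell level. -/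
theorem LCtx.mtw_cell_frm (X : LCtx W p T b L₀ eps eP)
    (hF : Frm p X.C.hp2 T W.apOfModel (rbarB b) t F C₀ a m n K qv) {P : Finset ℕ}
    (hP : P ⊆ Pfin W (rbarB b) L₀) {Lc : ℕ} (hLc : Lc = cellLevel L₀ P) :
    MTW p T W.apOfModel Lc t n qv := by
  subst hLc
  exact hF.tw _ (X.cellLevel_spec hP).1 (X.cellLevel_spec hP).2

/-- the elements of `T` are not Taylor-Wiles primes. -/
theorem LCtx.ne_qv (X : LCtx W p T b L₀ eps eP)
    (hF : Frm p X.C.hp2 T W.apOfModel (rbarB b) t F C₀ a m n K qv) {q : ℕ} (hq : q ∈ T)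
    (i : Fin t) : q ≠ ((qv i : Nat.Primes) : ℕ) := fun h =>
  (X.mtw_cell_frm hF (Finset.empty_subset _) rfl).notT i (h ▸ hq)

/-- an odd raising prime which is not yet raised does not divide the level of the tower. -/
theorem LCtx.not_dvd_lvl_cell (X : LCtx W p T b L₀ eps eP)
    (hF : Frm p X.C.hp2 T W.apOfModel (rbarB b) t F C₀ a m n K qv) {P : Finset ℕ}
    (hP : P ⊆ Pfin W (rbarB b) L₀) {q : ℕ} (hq : q ∈ Pfin W (rbarB b) L₀) (hq2 : q ≠ 2)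
    (hqP : q ∉ P) {Lc : ℕ} (hLc : Lc = cellLevel L₀ P) : ¬ q ∣ lvl Lc (extP qv) t := by
  subst hLc
  intro hd
  rcases dvd_lvl_cases_lt t (X.prime_of_mem_Pfin hq) hd with h | ⟨j, -, hj⟩
  · exact X.not_dvd_cellLevel hP hq hq2 hqP h
  · exact X.ne_qv hF (X.mem_T_of_mem_Pfin hq) j hj

/-- **[P6b]** : the bookkeeping of the step at `q = p`. -/
theorem LCtx.stepP_num (X : LCtx W p T b L₀ eps eP) (hp : p ∈ Pfin W (rbarB b) L₀)
    (hF : Frm p X.C.hp2 T W.apOfModel (rbarB b) t F C₀ a m n K qv) :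
    insert p ((Pfin W (rbarB b) L₀).erase p) = Pfin W (rbarB b) L₀ ∧
    cellLevel L₀ (insert p ((Pfin W (rbarB b) L₀).erase p)) =
      cellLevel L₀ ((Pfin W (rbarB b) L₀).erase p) * p ∧
    ¬ p ∣ L₀ ∧ (p : ℤ) ∣ W.Δ ∧ p ∈ T ∧ (∀ i, p ≠ ((qv i : Nat.Primes) : ℕ)) ∧
    ¬ p ∣ cellLevel L₀ ((Pfin W (rbarB b) L₀).erase p) ∧
    ¬ p ∣ lvl (cellLevel L₀ ((Pfin W (rbarB b) L₀).erase p)) (extP qv) t ∧
    MTW p T W.apOfModel (cellLevel L₀ ((Pfin W (rbarB b) L₀).erase p)) t n qv ∧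
    MTW p T W.apOfModel (cellLevel L₀ (insert p ((Pfin W (rbarB b) L₀).erase p))) t n qv :=
  ⟨Finset.insert_erase hp, cellLevel_insert L₀ X.C.hp2 (Finset.notMem_erase _ _),
    X.not_dvd_of_mem_Pfin hp X.C.hp2, X.dvd_of_mem_Pfin hp, X.C.p_mem, X.ne_qv hF X.C.p_mem,
    X.not_dvd_cellLevel (Finset.erase_subset _ _) hp X.C.hp2 (Finset.notMem_erase _ _),
    X.not_dvd_lvl_cell hF (Finset.erase_subset _ _) hp X.C.hp2 (Finset.notMem_erase _ _) rfl,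
    X.mtw_cell_frm hF (Finset.erase_subset _ _) rfl,
    X.mtw_cell_frm hF (by rw [Finset.insert_erase hp]) rfl⟩

/-- **[P6b]** : the elements `s₁`, `δ` and `c_p`, from the context : `tr rbar0 s₁ = ε (1 + a₁)`. -/
theorem LCtx.exists_s1_delta (X : LCtx W p T b L₀ eps eP) (hpΔ : (p : ℤ) ∣ W.Δ) :
    ∃ s₁ δ : GQ, (S56.Flat.Ap p).IsFrobeniusAt s₁ p ∧ δ ∈ (S56.Flat.Ap p).inertiaSubgroupIn ℚ ∧
      eP s₁ * eP s₁ = 1 ∧ (rbarB b s₁).trace ^ 2 ≠ 4 * (rbarB b s₁).det ∧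
      ∀ K : ℕ, ∃ a₁ aδ : ℕ, (∀ μ : Qbar, μ ^ (p ^ K) = 1 → s₁ μ = μ ^ a₁) ∧
        (∀ μ : Qbar, μ ^ (p ^ K) = 1 → δ μ = μ ^ aδ) ∧ ¬ a₁ ≡ 1 [MOD p] ∧ ¬ aδ ≡ 1 [MOD p] ∧
        (rbarB b s₁).trace = ((eP s₁ * (1 + a₁) : ℤ) : ZMod p) ∧
        rbarB b δ - (aδ : ZMod p) • (1 : M₂ (ZMod p)) ≠ 0 ∧
        (∀ t ∈ (S56.Flat.Ap p).inertiaSubgroupIn ℚ,
          (rbarB b δ - (aδ : ZMod p) • (1 : M₂ (ZMod p))) * (rbarB b t - 1) = 0) ∧
        (rbarB b δ - (aδ : ZMod p) • (1 : M₂ (ZMod p))) *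
          (rbarB b s₁ - ((eP s₁ : ℤ) : ZMod p) • (1 : M₂ (ZMod p))) = 0 :=
  (X.sgnP hpΔ).exists_s1_delta X.C.hp2 b X.C.det

end LCtx

end Fermat.Agent.ML
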