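import Fermat.Agent.ML.Hard.MidSpec
import Fermat.Agent.ML.AtP.StepP.Num
import Fermat.Agent.ML.AtP.Cell
import Fermat.Agent.ML.Rho.CellRho

/-!
# ML / AtP / StepP / AtpF : the contract `Hard.AtpFStmt` (field `atp` of the new cell) at `q = p`

`atpF_p : AtpFStmt X t (Pfin.erase p) p` : the classes of `cellK` are `p`-new, so `LCtx.locPSt_of_new` applies.
-/

set_option autoImplicit false
set_option linter.unusedSectionVars false
set_option linter.unusedVariables false

noncomputable section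

open AlgebraicCurve ModularCurve

namespace Fermat.Agent.ML.StepP

open Fermat.Agent.RIB Fermat.Agent.RIB.Rho Fermat.Agent.GAL Fermat.Agent.ML.ESide
  Fermat.Agent.ML.TWFree Fermat.Agent.ML.Lift

local notation "Qbar" => AlgebraicClosure ℚ
local notation "GQ" => (AlgebraicClosure ℚ ≃ₐ[ℚ] AlgebraicClosure ℚ)
local notation "M₂" => Matrix (Fin 2) (Fin 2)

variable {W : WeierstrassCurve ℤ} {p : ℕ} [Fact p.Prime] {T : Finset ℕ}
  {b : Module.Basis (Fin 2) (ZMod p) (TorsW W p)} {L₀ : ℕ} [NeZero L₀] {eps : ℕ → ℤ} {eP : GQ → ℤ}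

/-- **the field `atp` of the new cell of the step at `q = p`.** -/
theorem atpF_p (X : LCtx W p T b L₀ eps eP) (hpP : p ∈ Pfin W (rbarB b) L₀) (t : ℕ) :
    Hard.AtpFStmt X t ((Pfin W (rbarB b) L₀).erase p) p := by
  intro a m n K qv hF Lc Lc' _ _ _ hLc hL G' hgal hle _
  have hp : p.Prime := Fact.out
  have hins : insert p ((Pfin W (rbarB b) L₀).erase p) = Pfin W (rbarB b) L₀ :=
    Finset.insert_erase hpP
  have hsub : insert p ((Pfin W (rbarB b) L₀).erase p) ⊆ Pfin W (rbarB b) L₀ := by rw [hins]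
  have hLc' : Lc' = cellLevel L₀ (insert p ((Pfin W (rbarB b) L₀).erase p)) := by
    rw [cellLevel_insert L₀ X.C.hp2 (Finset.notMem_erase _ _), hL, hLc]
  have le : G' ≤ thetaPart (lvl Lc' (extP qv) t) p (↑(cutS T qv) : Set ℕ) W.apOfModel :=
    fun x hx => (hle hx).1.1.1
  have hpa : ∀ x ∈ G', p ^ a • x = 0 := fun x hx => (hle hx).1.1.2
  have hpM : ¬ p ∣ lvl Lc (extP qv) t :=
    X.not_dvd_lvl_cell hF (Finset.erase_subset _ _) hpP X.C.hp2 (Finset.notMem_erase _ _) hLc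
  have h4 : 4 ∣ lvl Lc (extP qv) t := by
    refine Dvd.dvd.trans ?_ (dvd_lvl _ _ _)
    rw [hLc]
    exact (X.cellLevel_spec (Finset.erase_subset _ _)).2
  exact X.locPSt_of_new (X.dvd_of_mem_Pfin hpP) (lvl_mul_q hL qv) hpM (Or.inl h4)
    (subset_cutS T qv)
    (fun r hr hd => Fermat.Agent.ML.Rho.mem_cutS_of_dvd_lvl
      (fun r' hr' hd' => (X.cellLevel_spec hsub).1 r' hr' (hLc' ▸ hd')) t hr hd)
    le hgal hpa fun x hx => ⟨(hle hx).2 0, (hle hx).2 1⟩

end Fermat.Agent.ML.StepP
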