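import Fermat.Agent.ML.AtP.StepP.Defs
import Fermat.Agent.ML.AtP.StepP.Emb
import Fermat.Agent.ML.AtP.TP.Up
import Fermat.Agent.ML.AtP.Cell
import Fermat.Agent.ML.Main.LiftRho

/-!
# ML / AtP / StepP / Cp : **P03** of the skeleton of `StepPStmt` : the element `c_p` and (EMB)

`cpP'` = the stub `cpP` of `ML/AtP/StepP/Main.lean`, VERBATIM.   `c := ψ(s₁) + p ψ(s₁)⁻¹ - ε (p + 1)` of `TP.exists_cp`
(`YE := W[p^(K+1)]`, `StrictMod` and the sign from `SignP`);  `c • α^* v = α^* (T_p v - ε (p + 1) v)`, `α^*` is injective on the `θ`-part,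
and `T_p v = ε (p + 1) v ⟹ e_p v ∈ ker Π_p` (`dnE_embE_of_hecke_all`).
-/

set_option autoImplicit false
set_option linter.unusedSectionVars false
set_option linter.unusedVariables false

noncomputable section

open AlgebraicCurve ModularCurve

namespace Fermat.Agent.ML.StepP

open Fermat.Agent.RIB Fermat.Agent.RIB.Rho Fermat.Agent.GAL Fermat.Agent.ML.ESide Fermat.Agent.S56
  Fermat.Agent.S56.Flat Fermat.Agent.ML.TWFree Fermat.Agent.ML.Lift Fermat.Agent.ML.AtP ExtCitation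

local notation "Qbar" => AlgebraicClosure ℚ
local notation "GQ" => (AlgebraicClosure ℚ ≃ₐ[ℚ] AlgebraicClosure ℚ)
local notation "M₂" => Matrix (Fin 2) (Fin 2)

variable {W : WeierstrassCurve ℤ} {p : ℕ} [Fact p.Prime] {T : Finset ℕ}
  {b : Module.Basis (Fin 2) (ZMod p) (TorsW W p)} {L₀ : ℕ} [NeZero L₀] {eps : ℕ → ℤ} {eP : GQ → ℤ}

/-- the `θ`-part killed by `p^k` is stable under the Hecke operators. -/
theorem tV_hecke {p : ℕ} {S : Set ℕ} {θ : ℕ → ℤ} {N : ℕ} [NeZero N] {k : ℕ} (r : Nat.Primes)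
    (x : JZero N) (hx : x ∈ tV p S θ N k) : heckeOperatorBar N r x ∈ tV p S θ N k :=
  ⟨hecke_mem_thetaPart r hx.1, by rw [← map_nsmul, hx.2, map_zero]⟩

/-- **P03** : the element `c_p` and (EMB). -/
theorem cpP' (X : LCtx W p T b L₀ eps eP) (hpΔ : (p : ℤ) ∣ W.Δ) {t a K : ℕ} (haK : a ≤ K)
    {qv : Fin t → Nat.Primes} (hnotT : ∀ i, ((qv i : Nat.Primes) : ℕ) ∉ T)
    {N N' : ℕ} [NeZero N] [NeZero N'] (h : N' = N * p) (hpN : ¬ p ∣ N)
    (hS : ∀ r : ℕ, r.Prime → r ∣ N' * p → r ∈ cutS T qv)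
    {B : Module.Basis (Fin 2) (ZMod (p ^ (K + 1))) (TorsW W (p ^ (K + 1)))}
    (hTop : TopCtx W p b K B N' (tV p (↑(cutS T qv) : Set ℕ) W.apOfModel N' (K + 1)))
    (E : Fermat.Agent.ML.Rho.EK (p ^ (K + 1)) (cutS T qv) W.apOfModel (rEB B))
    {R : Type} [CommRing R] [IsLocalRing R] [Finite R] [Algebra (ZMod (p ^ (K + 1))) R]
    [Module R ↥(tV p (↑(cutS T qv) : Set ℕ) W.apOfModel N' (K + 1))]
    {πE : R →ₐ[ZMod (p ^ (K + 1))] ZMod (p ^ (K + 1))} {ρ : GQ →* M₂ R}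
    {Φ : M₂ R →ₐ[R] Module.End R ↥(tV p (↑(cutS T qv) : Set ℕ) W.apOfModel N' (K + 1))}
    (H : Fermat.Agent.ML.Rho.IsRhoK N' (p ^ (K + 1))
      (tV p (↑(cutS T qv) : Set ℕ) W.apOfModel N' (K + 1)) (rEB B) πE ρ Φ)
    {s₁ : GQ} (hs₁ : (Ap p).IsFrobeniusAt s₁ p) :
    ∃ c : R, πE c = 0 ∧ (∀ J : Ideal R, c ∈ J → ∃ c₀ : ℤ, (ρ s₁).trace - (c₀ : R) ∈ J) ∧
      ∀ v ∈ tU p (↑(cutS T qv) : Set ℕ) W.apOfModel N qv a,
        ∀ x : ↥(tV p (↑(cutS T qv) : Set ℕ) W.apOfModel N' (K + 1)), (x : JZero N') = upE h 0 v →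
          c • x = 0 → embE h (eP s₁) v ∈ tK p (↑(cutS T qv) : Set ℕ) W.apOfModel qv a h := by
  have hp : p.Prime := Fact.out
  have hp2 := X.C.hp2
  have hAp : (Ap p).LiesOverPrime p := S56.liesOverPrime_primeLocalPlace (pPrime p)
  obtain ⟨hP1, hP2, -, hP4⟩ := X.sgnP hpΔ
  haveI : Finite (TorsW W (p ^ (K + 1))) := finite_torsW W (hp.odd_of_ne_two hp2).pow
  have hε : eP s₁ * eP s₁ = 1 := by rcases hP1 s₁ with h | h <;> rw [h] <;> norm_num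
  have hN'2 : ¬ p ^ 2 ∣ N' := by
    rw [h, pow_two]
    exact fun hd => hpN (Nat.dvd_of_mul_dvd_mul_right hp.pos hd)
  have hXm : ∀ x ∈ tV p (↑(cutS T qv) : Set ℕ) W.apOfModel N' (K + 1), p ^ (K + 1) • x = 0 :=
    fun x hx => hx.2
  have hS' : ∀ r : ℕ, r.Prime → r ∉ (↑(cutS T qv) : Set ℕ) → ¬ r ∣ N' * p := fun r hr hrS hd =>
    hrS (Finset.mem_coe.2 (hS r hr hd))
  obtain ⟨c, hc1, hc2, hc3⟩ := TP.exists_cp H E hp hp2 hN'2 rfl hXm
    (H.rhoAct.cont (H.level hXm E.cont)) (ann_torsW B)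
    (fun y => Subtype.ext (nsmul_coe_torsW W y))
    (fun A hA => strictMod_torsW W X.H.hΔ hp hp2 X.H.hirr hpΔ (X.H.hss p hp hpΔ) (K + 1) A hA)
    hAp hs₁ hε (by
      intro δ hδ y b' hb
      have h1 := hP4 (K + 1) δ (inertia_le_decomposition (Ap p) hδ) s₁
        hs₁.mem_decompositionSubgroup y.1 (nsmul_coe_torsW W y) b' hb
      rw [hP2 δ hδ, mul_one] at h1
      exact Subtype.ext h1)
  refine ⟨c, hc1, hc2, fun v hv x hx hcx => ?_⟩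
  have hvV : v ∈ tV p (↑(cutS T qv) : Set ℕ) W.apOfModel N (K + 1) :=
    tU_le_tV (haK.trans (Nat.le_succ K)) hv
  have hUX : ∀ w ∈ tV p (↑(cutS T qv) : Set ℕ) W.apOfModel N (K + 1),
      upE h 0 w ∈ tV p (↑(cutS T qv) : Set ℕ) W.apOfModel N' (K + 1) := fun w hw =>
    ⟨upE_mem_thetaPart h hS' 0 hw.1, by rw [← map_nsmul, hw.2, map_zero]⟩
  have h1 := hc3 N hpN (upE h 0) (fun g w => upE_smul h 0 g w)
    (tV p (↑(cutS T qv) : Set ℕ) W.apOfModel N (K + 1)) (fun g w hw => tV_gal g w hw)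
    (fun w hw => hw.2) (fun w hw => tV_hecke _ w hw) hUX v hvV
  have hx' : x = ⟨upE h 0 v, hUX v hvV⟩ := Subtype.ext hx
  rw [← hx', hcx, ZeroMemClass.coe_zero] at h1
  have hpS : p ∈ (↑(cutS T qv) : Set ℕ) :=
    Finset.mem_coe.2 (hS p hp (Dvd.intro_left _ rfl))
  have h2 := upE_injOn hp hp hpN (X.C.nonEis (cutS T qv)) hpS h 0
    ((thetaPart N p (↑(cutS T qv) : Set ℕ) W.apOfModel).sub_mem (hecke_mem_thetaPart ⟨p, hp⟩ hvV.1)
      ((thetaPart N p (↑(cutS T qv) : Set ℕ) W.apOfModel).zsmul_mem hvV.1 _)) h1.symm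
  have h3 := dnE_embE_of_hecke_all hp hpN hε h (sub_eq_zero.1 h2)
  obtain ⟨hv1, hv2, hv3⟩ := mem_tU.1 hv
  refine mem_tK.2 ⟨embE_mem_thetaPart h hS' _ hv1, by rw [← map_nsmul, hv2, map_zero], fun i => ?_,
    h3⟩
  refine isNewAt_embE hp (qv i).2 (fun hqp => hnotT i ?_) h _ (hv3 i)
  rw [hqp]
  exact X.C.p_mem

end Fermat.Agent.ML.StepP
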