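import Fermat.Agent.ML.AtP.StepP.AtpF
import Fermat.Agent.ML.AtP.StepP.Cp
import Fermat.Agent.ML.AtP.S1K
import Fermat.Agent.ML.Main.CellMk

/-!
# ML / AtP / StepP / Bridge : the middle block of (C-STEP-P) in the shape of `ML/AtP/StepP/Main.lean`  ⟹  the contract `Hard.MidFStmt` at `q = p`

* `MidPHyp X t` : the conclusion of the stub `midP` (P04), verbatim, with the harmless extra hypothesis `G ≠ ⊥`;
* `midF_of_midP : MidPHyp X t → Hard.MidFStmt X t (Pfin.erase p) p`   (`tV/tU/tK = cellV/cellU/cellK` definitionally; `c`, (EMB) : `cpP'`);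
* `stepP_of_outer` : the outer assembly (`stepF_outer`-shape) + `MidPHyp`  ⟹  `StepPStmt`.
-/

set_option autoImplicit false
set_option linter.unusedSectionVars false
set_option linter.unusedVariables false

noncomputable section

open AlgebraicCurve ModularCurve MvPolynomial

namespace Fermat.Agent.ML.StepP

open Fermat.Agent.RIB Fermat.Agent.RIB.Rho Fermat.Agent.GAL Fermat.Agent.ML.ESide Fermat.Agent.S56
  Fermat.Agent.S56.Flat Fermat.Agent.ML.TWFree Fermat.Agent.ML.Lift Fermat.Agent.ML.Hard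

local notation "Qbar" => AlgebraicClosure ℚ
local notation "GQ" => (AlgebraicClosure ℚ ≃ₐ[ℚ] AlgebraicClosure ℚ)
local notation "M₂" => Matrix (Fin 2) (Fin 2)

theorem tV_eq_cellV (p : ℕ) (S : Set ℕ) (θ : ℕ → ℤ) (N : ℕ) [NeZero N] (k : ℕ) :
    tV p S θ N k = cellV p S θ N k := rfl

theorem tU_eq_cellU (p : ℕ) (S : Set ℕ) (θ : ℕ → ℤ) (N : ℕ) [NeZero N] {t : ℕ}
    (qv : Fin t → Nat.Primes) (a : ℕ) : tU p S θ N qv a = cellU p S θ N qv a := rfl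

theorem tK_eq_cellK (p : ℕ) (S : Set ℕ) (θ : ℕ → ℤ) {N q Nq : ℕ} [NeZero N] [NeZero q] [NeZero Nq]
    {t : ℕ} (qv : Fin t → Nat.Primes) (a : ℕ) (h : Nq = N * q) :
    tK p S θ qv a h = cellK p S θ qv a h := rfl

variable {W : WeierstrassCurve ℤ} {p : ℕ} [Fact p.Prime] {T : Finset ℕ}
  {b : Module.Basis (Fin 2) (ZMod p) (TorsW W p)} {L₀ : ℕ} [NeZero L₀] {eps : ℕ → ℤ} {eP : GQ → ℤ}

/-- the conclusion of the stub `midP` (P04 of `ML/AtP/StepP/Main.lean`), with the extra hypothesis `G ≠ ⊥`. -/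
def MidPHyp (X : LCtx W p T b L₀ eps eP) (t : ℕ) : Prop :=
    ∃ f₁ : ℕ, ∀ (F C₀ a m n K : ℕ) (qv : Fin t → Nat.Primes),
      Frm p X.C.hp2 T W.apOfModel (rbarB b) t F C₀ a m n K qv → 1 ≤ a →
      ∀ (Lc Lc' : ℕ) [NeZero Lc] [NeZero Lc'],
      Lc = cellLevel L₀ ((Pfin W (rbarB b) L₀).erase p) → ∀ hL : Lc' = Lc * p,
      ∀ G : AddSubgroup (JZero (lvl Lc (extP qv) t)),
      IsCell p T W.apOfModel (rbarB b) eps eP Lc qv a ((Pfin W (rbarB b) L₀).erase p) G →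
      G ≠ ⊥ →
      ∀ (B : Module.Basis (Fin 2) (ZMod (p ^ (K + 1))) (TorsW W (p ^ (K + 1)))),
      TopCtx W p b K B (lvl Lc' (extP qv) t)
        (tV p (↑(cutS T qv) : Set ℕ) W.apOfModel (lvl Lc' (extP qv) t) (K + 1)) →
      Fermat.Agent.ML.Rho.EK (p ^ (K + 1)) (cutS T qv) W.apOfModel (rEB B) →
      ∀ (R : Type) [CommRing R] [IsLocalRing R] [Finite R] [Algebra (ZMod (p ^ (K + 1))) R]
        [Module R ↥(tV p (↑(cutS T qv) : Set ℕ) W.apOfModel (lvl Lc' (extP qv) t) (K + 1))]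
        (πE : R →ₐ[ZMod (p ^ (K + 1))] ZMod (p ^ (K + 1))) (ρ : GQ →* M₂ R)
        (Φ : M₂ R →ₐ[R] Module.End R
          ↥(tV p (↑(cutS T qv) : Set ℕ) W.apOfModel (lvl Lc' (extP qv) t) (K + 1))),
      Fermat.Agent.ML.Rho.IsRhoK (lvl Lc' (extP qv) t) (p ^ (K + 1))
        (tV p (↑(cutS T qv) : Set ℕ) W.apOfModel (lvl Lc' (extP qv) t) (K + 1)) (rEB B) πE ρ Φ →
      ∀ (Gt : Submodule R
          ↥(tV p (↑(cutS T qv) : Set ℕ) W.apOfModel (lvl Lc' (extP qv) t) (K + 1))),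
      (∀ x, x ∈ Gt ↔ ∃ v ∈ G, upE (lvl_mul_q hL qv) 0 v = (x : JZero (lvl Lc' (extP qv) t))) →
      ∀ (s₁ : GQ), (Ap p).IsFrobeniusAt s₁ p → (rbarB b s₁).trace ^ 2 ≠ 4 * (rbarB b s₁).det →
      ∀ c : R, πE c = 0 → (∀ J : Ideal R, c ∈ J → ∃ c₀ : ℤ, (ρ s₁).trace - (c₀ : R) ∈ J) →
      ∃ (Hr σ : Type) (_ : Fintype Hr) (_ : Fintype σ) (D : Hr → ℤ) (val : PV Hr σ → R)
        (pt : σ → ℤ) (β' : R) (Pc Pβ : MvPolynomial (PV Hr σ) ℤ),
        3 * Fintype.card Hr + Fintype.card σ ≤ t ∧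
        Fintype.card Hr ≤ (Pfin W (rbarB b) L₀).card ∧
        (∀ q, Scroll (fun j => Ideal.Quotient.mk Gt.annihilator (val (Sum.inl (q, j))))
          ((((p : ℤ) * D q : ℤ)) : R ⧸ Gt.annihilator)) ∧
        (∀ x, pi0 πE (val x) = 0) ∧
        RingHom.ker (pi0 πE) ≤ Gt.annihilator ⊔ Ideal.span (Set.range val) ⊔
          Ideal.span {(p : R)} ∧
        (∀ s, (p : ℤ) ∣ pt s) ∧
        c - aeval val Pc ∈ Gt.annihilator ∧ β' - aeval val Pβ ∈ Gt.annihilator ∧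
        aeval (auxVal p Hr σ pt) Pc = 0 ∧ ¬ (p : ℤ) ^ (f₁ + 1) ∣ aeval (auxVal p Hr σ pt) Pβ ∧
        -- (OUT) : the local conditions at the primes `≠ p` on `β' V`
        ∀ G' : AddSubgroup (JZero (lvl Lc' (extP qv) t)), (∀ g : GQ, ∀ x ∈ G', g • x ∈ G') →
          (∀ x ∈ G', ∃ x₁ : ↥(tV p (↑(cutS T qv) : Set ℕ) W.apOfModel (lvl Lc' (extP qv) t) (K + 1)),
            (x₁ : JZero (lvl Lc' (extP qv) t)) ∈
              tK p (↑(cutS T qv) : Set ℕ) W.apOfModel qv a (lvl_mul_q hL qv) ∧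
            ((β' • x₁ : ↥(tV p (↑(cutS T qv) : Set ℕ) W.apOfModel (lvl Lc' (extP qv) t) (K + 1))) :
              JZero (lvl Lc' (extP qv) t)) = x) →
          (∀ q ∈ Pfin W (rbarB b) L₀, q ≠ p →
            LocSt q (eps q) (G' : Set (JZero (lvl Lc' (extP qv) t)))) ∧
          (¬ Ram (rbarB b) 2 → 2 ∉ Pfin W (rbarB b) L₀ →
            LocUr 2 (G' : Set (JZero (lvl Lc' (extP qv) t)))) ∧
          ((Ram (rbarB b) 2 ∨ 2 ∈ Pfin W (rbarB b) L₀) →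
            LocUnip 2 (G' : Set (JZero (lvl Lc' (extP qv) t))))

set_option maxHeartbeats 1000000 in
/-- **the bridge** : the middle block in the shape of `StepP/Main.lean` gives the contract `Hard.MidFStmt` at `q = p`. -/
theorem midF_of_midP (X : LCtx W p T b L₀ eps eP) (hpP : p ∈ Pfin W (rbarB b) L₀) (t : ℕ)
    (hmid : MidPHyp X t) : Hard.MidFStmt X t ((Pfin W (rbarB b) L₀).erase p) p := by
  have hp : p.Prime := Fact.out
  obtain ⟨f₁, hmid⟩ := hmid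
  have hpΔ : (p : ℤ) ∣ W.Δ := X.dvd_of_mem_Pfin hpP
  obtain ⟨s₁, δ, hs₁, -, hεε, hdisc, -⟩ := (X.sgnP hpΔ).exists_s1_delta X.C.hp2 b X.C.det
  have hins : insert p ((Pfin W (rbarB b) L₀).erase p) = Pfin W (rbarB b) L₀ :=
    Finset.insert_erase hpP
  have hsub : insert p ((Pfin W (rbarB b) L₀).erase p) ⊆ Pfin W (rbarB b) L₀ := by rw [hins]
  refine ⟨f₁, fun a m n K qv hF ha Lc Lc' _ _ _ hLc hL G hG hG0 B hTop E R _ _ _ _ iM πE ρ Φ H
    Gt hGt => ?_⟩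
  letI iM' : Module R ↥(tV p (↑(cutS T qv) : Set ℕ) W.apOfModel (lvl Lc' (extP qv) t) (K + 1)) := iM
  have hLc' : Lc' = cellLevel L₀ (insert p ((Pfin W (rbarB b) L₀).erase p)) := by
    rw [cellLevel_insert L₀ X.C.hp2 (Finset.notMem_erase _ _), hL, hLc]
  have hnotT : ∀ i, ((qv i : Nat.Primes) : ℕ) ∉ T := (X.mtw_cell_frm hF hsub hLc').notT
  have hpN : ¬ p ∣ lvl Lc (extP qv) t :=
    X.not_dvd_lvl_cell hF (Finset.erase_subset _ _) hpP X.C.hp2 (Finset.notMem_erase _ _) hLc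
  have hS : ∀ r : ℕ, r.Prime → r ∣ lvl Lc' (extP qv) t * p → r ∈ cutS T qv := fun r hr hd =>
    Fermat.Agent.ML.Rho.mem_cutS_of_dvd_lvl
      (fun r' hr' hd' => (X.cellLevel_spec hsub).1 r' hr' (hLc' ▸ hd')) t hr hd
  obtain ⟨c, hc0, hcJ, hemb⟩ := cpP' (a := a) X hpΔ hF.hK hnotT (lvl_mul_q hL qv) hpN hS hTop E H hs₁
  obtain ⟨Hr, σ, iH, iσ, D, val, pt, β', Pc, Pβ, h1, -, h3, h4, h5, h6, h7, h8, h9, h10, hout⟩ :=
    hmid 0 0 a m n K qv hF ha Lc Lc' hLc hL G hG hG0 B hTop E R πE ρ Φ H Gt hGt s₁ hs₁ hdisc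
      c hc0 hcJ
  refine ⟨eP s₁, Hr, σ, iH, iσ, D, val, pt, c, β', Pc, Pβ, ⟨h1, h3, h4, h5, h6, h7, h8, h9, h10,
    fun v hv hv' hcv k => ?_, fun G' hgal hle hx => ?_⟩⟩
  · exact (hemb v hv ⟨_, hv'⟩ rfl hcv).2 k
  · obtain ⟨o1, o2, o3⟩ := hout G' hgal hx
    have hsubG : (G' : Set (JZero (lvl Lc' (extP qv) t))) ⊆ {x | ∃ n : ℕ, p ^ n • x = 0} :=
      fun x hx => ⟨a, (hle hx).1.1.2⟩
    refine ⟨fun q' hq' hq'p => ⟨o1 q' (hsub hq') hq'p, ?_⟩, fun h2 hram => o2 hram (hins ▸ h2),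
      fun hram => o3 (Or.inl hram)⟩
    by_cases hq2 : q' = 2
    · subst hq2
      exact o3 (Or.inr (hsub hq'))
    · have hq'pr := X.prime_of_mem_Pfin (hsub hq')
      have hq'T := X.mem_T_of_mem_Pfin (hsub hq')
      refine (cellMk_locUnip hq'pr hp hq'p ?_ ?_).mono hsubG
      · rw [hLc']
        exact (X.cellMk_dvd_lvl_iff hsub hnotT hq'pr hq'T hq2).2 (Or.inr hq')
      · rw [hLc']
        exact X.cellMk_not_sq_dvd_lvl hsub hnotT hq'pr hq'T hq2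

/-- **(C-STEP-P)** from the outer assembly (the statement of `Hard.stepF_outer`) and the middle block. -/
theorem stepP_of_outer
    (houter : ∀ (W : WeierstrassCurve ℤ) (p : ℕ) [Fact p.Prime] (T : Finset ℕ)
      (b : Module.Basis (Fin 2) (ZMod p) (TorsW W p)) (L₀ : ℕ) [NeZero L₀] (eps : ℕ → ℤ)
      (eP : GQ → ℤ) (X : LCtx W p T b L₀ eps eP) (t : ℕ) (P : Finset ℕ) (q : ℕ),
      P ⊆ Pfin W (rbarB b) L₀ → q ∈ Pfin W (rbarB b) L₀ → q ∉ P → q ≠ 2 →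
      Hard.MidFStmt X t P q → Hard.AtpFStmt X t P q →
      StepConcl W p X.C.hp2 T b L₀ eps eP t P q)
    (hmid : ∀ (W : WeierstrassCurve ℤ) (p : ℕ) [Fact p.Prime] (T : Finset ℕ)
      (b : Module.Basis (Fin 2) (ZMod p) (TorsW W p)) (L₀ : ℕ) [NeZero L₀] (eps : ℕ → ℤ)
      (eP : GQ → ℤ) (X : LCtx W p T b L₀ eps eP) (t : ℕ),
      p ∈ Pfin W (rbarB b) L₀ → MidPHyp X t) : StepPStmt :=
  fun W p _ T b L₀ _ eps eP X t hpP =>
    houter W p T b L₀ eps eP X t _ p (Finset.erase_subset _ _) hpP (Finset.notMem_erase _ _)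
      X.C.hp2 (midF_of_midP X hpP t (hmid W p T b L₀ eps eP X t hpP)) (atpF_p X hpP t)

end Fermat.Agent.ML.StepP
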