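import Fermat.Agent.ML.Lift.Inst.Geo
import Fermat.Agent.ML.Lift.Inst.New
import Fermat.Agent.ML.Main.Cell

/-!
# ML / AtP / StepP / Defs : the three stage modules of a raising step (any new prime `q`, `q = p` allowed)

* `tV p S θ N k` : the `p^k`-torsion of `thetaPart N p S θ`   (the module of the ring at the upper level);
* `tU p S θ N qv a` : the classes of `thetaPart N p S θ` killed by `p^a` and new at all the Taylor-Wiles primes   (lower level);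
* `tK p S θ qv a h` (`h : Nq = N * q`) : the classes of `tU .. Nq ..` killed by the two push-forwards `dnE h c`   (upper level, `q`-new).
All of them are Galois stable.
-/

set_option autoImplicit false

noncomputable section

open AlgebraicCurve ModularCurve

namespace Fermat.Agent.ML.StepP

open Fermat.Agent.RIB Fermat.Agent.GAL Fermat.Agent.ML.TWFree Fermat.Agent.ML.Lift

local notation "Qbar" => AlgebraicClosure ℚ
local notation "GQ" => (AlgebraicClosure ℚ ≃ₐ[ℚ] AlgebraicClosure ℚ)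

/-- the `p^k`-torsion of the theta part. -/
def tV (p : ℕ) (S : Set ℕ) (θ : ℕ → ℤ) (N : ℕ) [NeZero N] (k : ℕ) : AddSubgroup (JZero N) where
  carrier := {x | x ∈ thetaPart N p S θ ∧ p ^ k • x = 0}
  zero_mem' := ⟨(thetaPart N p S θ).zero_mem, nsmul_zero _⟩
  add_mem' := fun hx hy => ⟨(thetaPart N p S θ).add_mem hx.1 hy.1, by
    rw [nsmul_add, hx.2, hy.2, add_zero]⟩
  neg_mem' := fun hx => ⟨(thetaPart N p S θ).neg_mem hx.1, by rw [neg_nsmul, hx.2, neg_zero]⟩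

theorem mem_tV {p : ℕ} {S : Set ℕ} {θ : ℕ → ℤ} {N : ℕ} [NeZero N] {k : ℕ} {x : JZero N} :
    x ∈ tV p S θ N k ↔ x ∈ thetaPart N p S θ ∧ p ^ k • x = 0 := Iff.rfl

theorem tV_gal {p : ℕ} {S : Set ℕ} {θ : ℕ → ℤ} {N : ℕ} [NeZero N] {k : ℕ} (g : GQ) (x : JZero N)
    (hx : x ∈ tV p S θ N k) : g • x ∈ tV p S θ N k :=
  ⟨smul_mem_thetaPart g hx.1, by
    rw [smul_comm, hx.2]
    exact smul_zero (A := JZero N) g⟩

/-- the classes killed by `p^a`, new at all the Taylor-Wiles primes. -/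
def tU (p : ℕ) (S : Set ℕ) (θ : ℕ → ℤ) (N : ℕ) [NeZero N] {t : ℕ} (qv : Fin t → Nat.Primes)
    (a : ℕ) : AddSubgroup (JZero N) where
  carrier := {x | x ∈ tV p S θ N a ∧ ∀ i, Tower.IsNewAt N ((qv i : Nat.Primes) : ℕ) x}
  zero_mem' := ⟨(tV p S θ N a).zero_mem, fun _ => Tower.IsNewAt.zero N _⟩
  add_mem' := fun hx hy => ⟨(tV p S θ N a).add_mem hx.1 hy.1, fun i => (hx.2 i).add (hy.2 i)⟩
  neg_mem' := fun hx => ⟨(tV p S θ N a).neg_mem hx.1, fun i => (hx.2 i).neg⟩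

theorem mem_tU {p : ℕ} {S : Set ℕ} {θ : ℕ → ℤ} {N : ℕ} [NeZero N] {t : ℕ}
    {qv : Fin t → Nat.Primes} {a : ℕ} {x : JZero N} :
    x ∈ tU p S θ N qv a ↔ x ∈ thetaPart N p S θ ∧ p ^ a • x = 0 ∧
      ∀ i, Tower.IsNewAt N ((qv i : Nat.Primes) : ℕ) x :=
  ⟨fun h => ⟨h.1.1, h.1.2, h.2⟩, fun h => ⟨⟨h.1, h.2.1⟩, h.2.2⟩⟩

theorem tU_gal {p : ℕ} {S : Set ℕ} {θ : ℕ → ℤ} {N : ℕ} [NeZero N] {t : ℕ}
    {qv : Fin t → Nat.Primes} {a : ℕ} (g : GQ) (x : JZero N) (hx : x ∈ tU p S θ N qv a) :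
    g • x ∈ tU p S θ N qv a :=
  ⟨tV_gal g x hx.1, fun i => (hx.2 i).smul g⟩

/-- the `q`-new classes of `tU` at the upper level `Nq = N q`. -/
def tK (p : ℕ) (S : Set ℕ) (θ : ℕ → ℤ) {N q Nq : ℕ} [NeZero N] [NeZero q] [NeZero Nq] {t : ℕ}
    (qv : Fin t → Nat.Primes) (a : ℕ) (h : Nq = N * q) : AddSubgroup (JZero Nq) where
  carrier := {x | x ∈ tU p S θ Nq qv a ∧ ∀ c, dnE h c x = 0}
  zero_mem' := ⟨(tU p S θ Nq qv a).zero_mem, fun _ => map_zero _⟩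
  add_mem' := fun hx hy => ⟨(tU p S θ Nq qv a).add_mem hx.1 hy.1, fun c => by
    rw [map_add, hx.2 c, hy.2 c, add_zero]⟩
  neg_mem' := fun hx => ⟨(tU p S θ Nq qv a).neg_mem hx.1, fun c => by
    rw [map_neg, hx.2 c, neg_zero]⟩

theorem mem_tK {p : ℕ} {S : Set ℕ} {θ : ℕ → ℤ} {N q Nq : ℕ} [NeZero N] [NeZero q] [NeZero Nq]
    {t : ℕ} {qv : Fin t → Nat.Primes} {a : ℕ} {h : Nq = N * q} {x : JZero Nq} :
    x ∈ tK p S θ qv a h ↔ x ∈ thetaPart Nq p S θ ∧ p ^ a • x = 0 ∧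
      (∀ i, Tower.IsNewAt Nq ((qv i : Nat.Primes) : ℕ) x) ∧ ∀ c, dnE h c x = 0 :=
  ⟨fun h => ⟨h.1.1.1, h.1.1.2, h.1.2, h.2⟩, fun h => ⟨⟨⟨h.1, h.2.1⟩, h.2.2.1⟩, h.2.2.2⟩⟩

theorem tK_gal {p : ℕ} {S : Set ℕ} {θ : ℕ → ℤ} {N q Nq : ℕ} [NeZero N] [NeZero q] [NeZero Nq]
    {t : ℕ} {qv : Fin t → Nat.Primes} {a : ℕ} {h : Nq = N * q} (g : GQ) (x : JZero Nq)
    (hx : x ∈ tK p S θ qv a h) : g • x ∈ tK p S θ qv a h :=
  ⟨tU_gal g x hx.1, fun c => by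
    rw [dnE_smul, hx.2 c]
    exact smul_zero (A := JZero N) g⟩

theorem tU_le_tV {p : ℕ} {S : Set ℕ} {θ : ℕ → ℤ} {N : ℕ} [NeZero N] {t : ℕ}
    {qv : Fin t → Nat.Primes} {a k : ℕ} (hak : a ≤ k) : tU p S θ N qv a ≤ tV p S θ N k :=
  fun x hx => ⟨hx.1.1, by
    obtain ⟨c, rfl⟩ := Nat.exists_eq_add_of_le hak
    rw [pow_add, mul_comm, mul_nsmul', hx.1.2, nsmul_zero]⟩

theorem tK_le_tV {p : ℕ} {S : Set ℕ} {θ : ℕ → ℤ} {N q Nq : ℕ} [NeZero N] [NeZero q] [NeZero Nq]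
    {t : ℕ} {qv : Fin t → Nat.Primes} {a k : ℕ} {h : Nq = N * q} (hak : a ≤ k) :
    tK p S θ qv a h ≤ tV p S θ Nq k := fun _ hx => tU_le_tV hak hx.1

end Fermat.Agent.ML.StepP
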