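import Fermat.Agent.ML.AtP.StepP.Bridge
import Fermat.Agent.ML.Hard.Asm

/-!
# ML / AtP / StepP / OfMid : `StepPStmt` from the middle block alone

`stepP_of_midPHyp : (∀ X t, p ∈ Pfin → MidPHyp X t) → StepPStmt`   (`Hard.stepF_outer` at `q = p` + `midF_of_midP` + `atpF_p`);
`stepP_of_midF` : the same from `Hard.MidFStmt X t (Pfin.erase p) p`.
-/

set_option autoImplicit false

noncomputable section

open AlgebraicCurve ModularCurve

namespace Fermat.Agent.ML.StepP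

open Fermat.Agent.RIB Fermat.Agent.RIB.Rho Fermat.Agent.GAL Fermat.Agent.ML.ESide

local notation "GQ" => (AlgebraicClosure ℚ ≃ₐ[ℚ] AlgebraicClosure ℚ)

/-- **(C-STEP-P)** from the contract `Hard.MidFStmt` at `q = p`. -/
theorem stepP_of_midF
    (hmid : ∀ (W : WeierstrassCurve ℤ) (p : ℕ) [Fact p.Prime] (T : Finset ℕ)
      (b : Module.Basis (Fin 2) (ZMod p) (TorsW W p)) (L₀ : ℕ) [NeZero L₀] (eps : ℕ → ℤ)
      (eP : GQ → ℤ) (X : LCtx W p T b L₀ eps eP) (t : ℕ),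
      p ∈ Pfin W (rbarB b) L₀ → Hard.MidFStmt X t ((Pfin W (rbarB b) L₀).erase p) p) :
    StepPStmt :=
  fun W p _ T b L₀ _ eps eP X t hpP =>
    Hard.stepF_outer X t (Finset.erase_subset _ _) hpP (Finset.notMem_erase _ _) X.C.hp2
      (hmid W p T b L₀ eps eP X t hpP) (atpF_p X hpP t)

/-- **(C-STEP-P)** from the middle block in the shape of the stub `midP`. -/
theorem stepP_of_midPHyp
    (hmid : ∀ (W : WeierstrassCurve ℤ) (p : ℕ) [Fact p.Prime] (T : Finset ℕ)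
      (b : Module.Basis (Fin 2) (ZMod p) (TorsW W p)) (L₀ : ℕ) [NeZero L₀] (eps : ℕ → ℤ)
      (eP : GQ → ℤ) (X : LCtx W p T b L₀ eps eP) (t : ℕ),
      p ∈ Pfin W (rbarB b) L₀ → MidPHyp X t) : StepPStmt :=
  stepP_of_midF fun W p _ T b L₀ _ eps eP X t hpP =>
    midF_of_midP X hpP t (hmid W p T b L₀ eps eP X t hpP)

end Fermat.Agent.ML.StepP
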