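import Fermat.Agent.ML.AtP.StepP.MidM
import Fermat.Agent.ML.AtP.StepP.OfMid

/-!
# ML / AtP / StepP / Done : **(C-STEP-P)** is a theorem

`stepPStmt : StepPStmt` = `stepP_of_midPHyp` (`Hard.stepF_outer` at `q = p` + `midF_of_midP` + `atpF_p`) applied to `midPHyp`.
-/

set_option autoImplicit false

namespace Fermat.Agent.ML.StepP

/-- **(C-STEP-P)**. -/
theorem stepPStmt : StepPStmt :=
  stepP_of_midPHyp fun _ _ _ _ _ _ _ _ _ X t hpP => midPHyp X hpP t

end Fermat.Agent.ML.StepP
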