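import Fermat.Agent.ML.Lift.Inst.GenSub
import Fermat.Agent.ML.Gen.StageP
import Fermat.Agent.ML.AtP.S1

/-!
# ML / AtP / StepP / Gen : (GEN) at the raising step `q = p`   (saving `1` at `p`)

Setting of `ML/Lift/Inst/GenSub.lean` : `H : Rho.IsRhoK N' (p^(K+1)) X' (rEB B) πE ρ Φ` (ring at the UPPER level `N' = N p`),
`Y ≤ X'` the stage module (`= α^* G`, `G` the cell at the level `N`, `p ∤ N`).

* `hflat_sub` : `FlatData p YS` ⟹ the tangent vectors killing `Ann_R(Y) ⊔ I` are flat   (= `hflat` of `MCtx.gen_stage_p`);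
* `isNilpotent_ker_pi0`;
* `gen_sub_p`, `gen_cell_p` : `c_p = tr ρ(s₁) - n ∈ I` ⟹ `ker π0 ≤ Ann_R(Y) ⊔ I ⊔ (x_1, .., x_g) ⊔ (p)`, `g = t - (Σ w + 1)`
  (= `hgen` of `Hard.raise_step_gen_F` with `I = span (range val₀)`).
-/

set_option autoImplicit false
set_option linter.unusedSectionVars false

noncomputable section

open AlgebraicCurve ModularCurve

namespace Fermat.Agent.ML.StepP

open Fermat.Agent.GAL Fermat.Agent.RIB Fermat.Agent.RIB.Rho Fermat.Agent.ML.ESide Fermat.Agent.ML.Rho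
  Fermat.Agent.ML.Lift Fermat.Agent.S56 Fermat.Agent.S56.Flat Fermat.Agent.S56.Gen
  Fermat.Agent.ML.FinGen Fermat.Agent.ML.StepGen

local notation "Qbar" => AlgebraicClosure ℚ
local notation "GQ" => (AlgebraicClosure ℚ ≃ₐ[ℚ] AlgebraicClosure ℚ)
local notation "M₂" => Matrix (Fin 2) (Fin 2)

variable {W : WeierstrassCurve ℤ} {p : ℕ} [Fact p.Prime] {T : Finset ℕ}
  {b : Module.Basis (Fin 2) (ZMod p) (TorsW W p)} {L₀ : ℕ} [NeZero L₀] {eps : ℕ → ℤ}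
  {eP : GQ → ℤ} (X : LCtx W p T b L₀ eps eP) {t K : ℕ} {qv : Fin t → Nat.Primes}
  {N' : ℕ} [NeZero N'] {X' : AddSubgroup (JZero N')}
  {B : Module.Basis (Fin 2) (ZMod (p ^ (K + 1))) (TorsW W (p ^ (K + 1)))}
  (C : TopCtx W p b K B N' X')
  {R : Type} [CommRing R] [Algebra (ZMod (p ^ (K + 1))) R] [Module R ↥X']
  {πE : R →ₐ[ZMod (p ^ (K + 1))] ZMod (p ^ (K + 1))} {ρ : GQ →* M₂ R}
  {Φ : M₂ R →ₐ[R] Module.End R ↥X'}
  (H : Fermat.Agent.ML.Rho.IsRhoK N' (p ^ (K + 1)) X' (rEB B) πE ρ Φ)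

include X C H in
/-- **flatness of the tangent vectors killing `Ann_R(Y)`** : `Y` is the isomorphic image of a subgroup of `J₀(L)[p^n]`, `p ∤ L`. -/
theorem hflat_sub [IsLocalRing R] (Y : Submodule R ↥X')
    (hYG : ∀ (g : GQ), ∀ y ∈ Y, ∀ y' : ↥X', (y' : JZero N') = g • (y : JZero N') → y' ∈ Y)
    (YS : Set (JZero N')) (hYS : ∀ y ∈ Y, ((y : ↥X') : JZero N') ∈ YS) (hfl : FlatData p YS)
    {J : Ideal R} (hJ : Y.annihilator ≤ J) (φ : R →+* DualNumber (kM p))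
    (hφ : IsTan p (pi0 πE) J φ) :
    HasFlat (Ap p).valuation (matAct (Ip p) (S53.mapRep φ ρ)) := by
  have := finite_top C
  have hadj : Algebra.adjoin R (Set.range ρ) = ⊤ := X.C.adjoin_range_rho' (C.lift H)
  set Yt : Submodule R (VJ X' (rEB B) πE ρ Φ) := subVJ (rEB B) πE ρ Φ Y with hYt
  have hYtG : ∀ g : GQ, ∀ x ∈ Yt, g • x ∈ Yt := fun g x hx => smul_mem_subVJ H hYG g x hx
  have hann : Yt.annihilator = Y.annihilator := annihilator_subVJ Y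
  obtain ⟨L, _, G, u, n, hpL, hu, hG, hinj, hn, hsurj⟩ := hfl
  set YA : AddSubgroup (JZero N') := (Y.toAddSubgroup).map X'.subtype with hYA
  obtain ⟨s, hs⟩ := exists_section G u hinj YA (by
    rintro _ ⟨y, hy, rfl⟩
    exact hsurj _ (hYS y hy))
  let toYA : ↥Yt →+ ↥YA :=
    { toFun := fun v => ⟨XJ.incl X' ρ Φ v.1.1, ⟨v.1.1, v.2.1, rfl⟩⟩
      map_zero' := Subtype.ext (map_zero (XJ.incl X' ρ Φ))
      map_add' := fun v w => Subtype.ext (map_add (XJ.incl X' ρ Φ) v.1.1 w.1.1) }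
  set ι : ↥Yt →+ JZero L := s.comp toYA with hι
  have hιu : ∀ v : ↥Yt, u (ι v) = XJ.incl X' ρ Φ v.1.1 := fun v => (hs (toYA v)).2
  have hιG' : ∀ v : ↥Yt, ι v ∈ G := fun v => (hs (toYA v)).1
  have huniq : ∀ v ∈ G, ∀ w ∈ G, u v = u w → v = w := fun v hv w hw h =>
    sub_eq_zero.1 (hinj _ (G.sub_mem hv hw) (by rw [map_sub, h, sub_self]))
  have hιinj : Function.Injective ι := by
    rw [injective_iff_map_eq_zero]
    intro v hv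
    have h1 := hιu v
    rw [hv, map_zero] at h1
    refine Subtype.ext (Prod.ext (XJ.incl_injective X' ρ Φ ?_) v.2.2)
    rw [← h1]
    exact (map_zero _).symm
  have hιeq : ∀ (g : GQ) (x : ↥Yt), ι ⟨g • (x : VJ X' (rEB B) πE ρ Φ), hYtG g x x.2⟩ = g • ι x := by
    intro g x
    refine huniq _ (hιG' _) _ (hG g _ (hιG' x)) ?_
    rw [hιu, hu, hιu]
    exact H.coe_gal g x.1.1
  exact H.rhoAct.hasFlat_of_isTan_sub_jac hadj Yt hYtG L hpL n ι hιinj hιeq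
    (fun x => hn _ (hιG' x)) (hann.le.trans hJ) φ hφ

include H in
/-- `ker π0` is a nilpotent ideal. -/
theorem isNilpotent_ker_pi0 [Finite R] : IsNilpotent (RingHom.ker (pi0 πE)) :=
  (Ideal.FG.isNilpotent_iff_le_nilradical (IsNoetherian.noetherian _)).2
    (TopCtx.ker_pi0_le_nilradical H)

include X C H in
/-- **(GEN) at the `p`-step**, for a stage module `Y`. -/
theorem gen_sub_p [IsLocalRing R] [Finite R]
    (F : TWGenL p (two_ne_zero_kM X.C.hp2) (mapK (kM p) (rbarB b)) (toP T) t qv)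
    (hpΔ : (p : ℤ) ∣ W.Δ)
    (hlev : ∀ q : Nat.Primes, q ∉ toP T ∪ Finset.univ.image qv → ¬ (q : ℕ) ∣ N' * p)
    (Y : Submodule R ↥X')
    (hYG : ∀ (g : GQ), ∀ y ∈ Y, ∀ y' : ↥X', (y' : JZero N') = g • (y : JZero N') → y' ∈ Y)
    (hY0 : Y ≠ ⊥) (YS : Set (JZero N')) (hYS : ∀ y ∈ Y, ((y : ↥X') : JZero N') ∈ YS)
    (Rs : Finset Nat.Primes) (hRsT : Rs ⊆ toP T) (hpR : ExtCitation.pPrime p ∉ Rs)
    (w : Nat.Primes → ℕ)
    (hw : ∀ v ∈ Rs, Nat.card ↥(B1loc (adRep (mapK (kM p) (rbarB b))) v) * Nat.card (kM p) ^ w v ≤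
      Nat.card (kM p) ^ 3)
    (I : Ideal R) (hI : ∀ a ∈ I, pi0 πE a = 0)
    (hstrict : ∀ v ∈ Rs, ∃ M : M₂ R, IsUnit (M.map (pi0 πE)) ∧
      ∀ σ ∈ CFT.decomp v, ConjConst ℤ (Y.annihilator ⊔ I) M (ρ σ))
    (hmin : ∀ v ∈ toP T, v ∉ Rs → v ≠ ExtCitation.pPrime p →
      LocUr (v : ℕ) YS ∨ (Ram (rbarB b) (v : ℕ) ∧ LocUnip (v : ℕ) YS))
    (hfl : FlatData p YS) {s₁ : GQ} (hs₁ : (Ap p).IsFrobeniusAt s₁ p)
    (hdisc : (rbarB b s₁).trace ^ 2 ≠ 4 * (rbarB b s₁).det) (n : ℤ)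
    (hcp : (ρ s₁).trace - (n : R) ∈ I) :
    ∑ v ∈ Rs, w v + 1 ≤ t ∧ ∃ x : Fin (t - (∑ v ∈ Rs, w v + 1)) → R, (∀ i, pi0 πE (x i) = 0) ∧
      RingHom.ker (pi0 πE) ≤
        Y.annihilator ⊔ I ⊔ Ideal.span (Set.range x) ⊔ Ideal.span {(p : R)} := by
  have Hg := genHyp_sub X C H hlev Y hYG hY0 YS hYS Rs I hI hstrict hmin (Or.inl hfl)
  obtain ⟨h1, x, hx, -, h3⟩ := X.C.gen_stage_p F hRsT hpR w hw Hg
    (fun φ hφ => hflat_sub X C H Y hYG YS hYS hfl le_sup_left φ hφ)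
    ((X.sgnP hpΔ).exists_line X.C.hp2 b X.C.det) hs₁ hdisc ⟨n, Ideal.mem_sup_right hcp⟩
  exact ⟨h1, x, hx, h3 (isNilpotent_ker_pi0 H)⟩

variable {Lc : ℕ} [NeZero Lc] {a : ℕ} {P : Finset ℕ}
  {G : AddSubgroup (JZero (lvl Lc (extP qv) t))}
  (hG : IsCell p T W.apOfModel (rbarB b) eps eP Lc qv a P G)
  (u : JZero (lvl Lc (extP qv) t) →+ JZero N') (hu : ∀ (g : GQ) v, u (g • v) = g • u v)

include hG hu in
/-- the flat data of `u G`, `G` a cell at a level prime to `p`. -/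
theorem flatData_of_cell (hinj : ∀ v ∈ G, u v = 0 → v = 0) (hpN : ¬ p ∣ lvl Lc (extP qv) t) :
    FlatData p (u '' (G : Set (JZero (lvl Lc (extP qv) t)))) := by
  refine ⟨_, inferInstance, G, u, a, hpN, hu, hG.gal, hinj, fun v hv => (hG.box v hv).1, ?_⟩
  rintro _ ⟨v, hv, rfl⟩
  exact ⟨v, hv, rfl⟩

include X C H hG hu in
/-- **(GEN) at the `p`-step**, for `Y = u G`, `G` a cell at the lower level (prime to `p`).
With `I = span (range val₀)` this is `hgen` of `Hard.raise_step_gen_F`, `mR = ker π0`, `g = t - (Σ w + 1)`. -/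
theorem gen_cell_p [IsLocalRing R] [Finite R]
    (F : TWGenL p (two_ne_zero_kM X.C.hp2) (mapK (kM p) (rbarB b)) (toP T) t qv)
    (hpΔ : (p : ℤ) ∣ W.Δ)
    (hlev : ∀ q : Nat.Primes, q ∉ toP T ∪ Finset.univ.image qv → ¬ (q : ℕ) ∣ N' * p)
    (hinj : ∀ v ∈ G, u v = 0 → v = 0) (hpN : ¬ p ∣ lvl Lc (extP qv) t)
    (Y : Submodule R ↥X')
    (hYG : ∀ (g : GQ), ∀ y ∈ Y, ∀ y' : ↥X', (y' : JZero N') = g • (y : JZero N') → y' ∈ Y)
    (hY0 : Y ≠ ⊥) (hYS : ∀ y ∈ Y, ∃ v ∈ G, u v = ((y : ↥X') : JZero N'))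
    (Rs : Finset Nat.Primes) (hRsT : Rs ⊆ toP T) (hpR : ExtCitation.pPrime p ∉ Rs)
    (hRs : ∀ v ∈ toP T, v ∉ Rs → v ≠ ExtCitation.pPrime p → (v : ℕ) ∈ P →
      Ram (rbarB b) (v : ℕ))
    (w : Nat.Primes → ℕ)
    (hw : ∀ v ∈ Rs, Nat.card ↥(B1loc (adRep (mapK (kM p) (rbarB b))) v) * Nat.card (kM p) ^ w v ≤
      Nat.card (kM p) ^ 3)
    (I : Ideal R) (hI : ∀ a ∈ I, pi0 πE a = 0)
    (hstrict : ∀ v ∈ Rs, ∃ M : M₂ R, IsUnit (M.map (pi0 πE)) ∧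
      ∀ σ ∈ CFT.decomp v, ConjConst ℤ (Y.annihilator ⊔ I) M (ρ σ))
    {s₁ : GQ} (hs₁ : (Ap p).IsFrobeniusAt s₁ p)
    (hdisc : (rbarB b s₁).trace ^ 2 ≠ 4 * (rbarB b s₁).det) (n : ℤ)
    (hcp : (ρ s₁).trace - (n : R) ∈ I) :
    ∑ v ∈ Rs, w v + 1 ≤ t ∧ ∃ x : Fin (t - (∑ v ∈ Rs, w v + 1)) → R, (∀ i, pi0 πE (x i) = 0) ∧
      RingHom.ker (pi0 πE) ≤
        Y.annihilator ⊔ I ⊔ Ideal.span (Set.range x) ⊔ Ideal.span {(p : R)} :=
  gen_sub_p X C H F hpΔ hlev Y hYG hY0 (u '' (G : Set (JZero (lvl Lc (extP qv) t))))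
    (fun y hy => by
      obtain ⟨v, hv, e⟩ := hYS y hy
      exact ⟨v, hv, e⟩) Rs hRsT hpR w hw I hI hstrict (min_of_cell hG u hu Rs hRs)
    (flatData_of_cell hG u hu hinj hpN) hs₁ hdisc n hcp

end Fermat.Agent.ML.StepP
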