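import Fermat.Agent.ML.Hard.Mid.Old
import Fermat.Agent.ML.Hard.MidAbs
import Fermat.Agent.ML.AtP.StepP.Gen
import Fermat.Agent.ML.At2.Cell2Pol

/-!
# ML / AtP / StepP / MidCore : the FRAME-FREE core of the middle block of the step at `p`

Binders of `StepP.gen_cell_p` / `Hard.old_hard` : `H : Rho.IsRhoK N' (p^(K+1)) X' (rEB B) πE ρ Φ` (ring of the step, upper level `N'`),
`G` the cell at the lower level (state `P`, `p ∉ P`), `u` equivariant, `Y ≤ X'` the stage module, `Y ⊆ u G`.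

* `two_core` : the package at `2` (`At2.exists_pkg2_pol`) in this frame;
* `mid_core_p` : `Hard.midF_abs` + `Hard.old_hard` / `Hard.old_soft` + `two_core` + `StepP.gen_cell_p`.
-/

set_option autoImplicit false
set_option linter.unusedSectionVars false

noncomputable section

open AlgebraicCurve ModularCurve MvPolynomial

namespace Fermat.Agent.ML.StepP.MidCore

open Matrix Fermat.Agent.GAL Fermat.Agent.RIB Fermat.Agent.RIB.Rho Fermat.Agent.ML.ESide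
  Fermat.Agent.ML.Rho Fermat.Agent.ML.Lift Fermat.Agent.S56 Fermat.Agent.S56.Flat
  Fermat.Agent.S56.Gen Fermat.Agent.ML.FinGen Fermat.Agent.ML.StepGen Fermat.Agent.ML.Raise
  Fermat.Agent.ML.Hard Fermat.Agent.ML.At2 ExtCitation
open CFT (decomp)

local notation "Qbar" => AlgebraicClosure ℚ
local notation "GQ" => (AlgebraicClosure ℚ ≃ₐ[ℚ] AlgebraicClosure ℚ)
local notation "M₂" => Matrix (Fin 2) (Fin 2)

variable {W : WeierstrassCurve ℤ} {p : ℕ} [Fact p.Prime] {T : Finset ℕ}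
  {b : Module.Basis (Fin 2) (ZMod p) (TorsW W p)} {L₀ : ℕ} [NeZero L₀] {eps : ℕ → ℤ}
  {eP : GQ → ℤ} (X : LCtx W p T b L₀ eps eP) {t K : ℕ} {qv : Fin t → Nat.Primes}
  {N' : ℕ} [NeZero N'] {X' : AddSubgroup (JZero N')}
  {B : Module.Basis (Fin 2) (ZMod (p ^ (K + 1))) (TorsW W (p ^ (K + 1)))}
  (C : TopCtx W p b K B N' X')
  {R : Type} [CommRing R] [Algebra (ZMod (p ^ (K + 1))) R] [Module R ↥X']
  {πE : R →ₐ[ZMod (p ^ (K + 1))] ZMod (p ^ (K + 1))} {ρ : GQ →* M₂ R}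
  {Φ : M₂ R →ₐ[R] Module.End R ↥X'}
  (H : Fermat.Agent.ML.Rho.IsRhoK N' (p ^ (K + 1)) X' (rEB B) πE ρ Φ)
  {Lc : ℕ} [NeZero Lc] {a : ℕ} {P : Finset ℕ}
  {G : AddSubgroup (JZero (lvl Lc (extP qv) t))}
  (hG : IsCell p T W.apOfModel (rbarB b) eps eP Lc qv a P G)
  (u : JZero (lvl Lc (extP qv) t) →+ JZero N') (hu : ∀ (g : GQ) v, u (g • v) = g • u v)

/-- `LocUnip` on `YS ⊇ Y` ⟹ `LocUnip` on `Y × 0 ≤ V`. -/
theorem locUnip_subVJ' {L m : ℕ} [NeZero L] [NeZero m] {R : Type} [CommRing R] [Algebra (ZMod m) R]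
    {X : AddSubgroup (JZero L)} [Module R ↥X] {rE : GQ →* M₂ (ZMod m)}
    {πE : R →ₐ[ZMod m] ZMod m} {ρ : GQ →* M₂ R} {Φ : M₂ R →ₐ[R] Module.End R ↥X}
    (H : Fermat.Agent.ML.Rho.IsRhoK L m X rE πE ρ Φ) (Y : Submodule R ↥X)
    (hYG : ∀ (g : GQ), ∀ y ∈ Y, ∀ y' : ↥X, (y' : JZero L) = g • (y : JZero L) → y' ∈ Y)
    {YS : Set (JZero L)} (hYS : ∀ y ∈ Y, (y : JZero L) ∈ YS) {q : ℕ} (h : LocUnip q YS) :
    LocUnip q (subVJ rE πE ρ Φ Y : Set (VJ X rE πE ρ Φ)) :=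
  locUnip_of_map (ofVJ X rE πE ρ Φ) (ofVJ_gal H) (subVJ rE πE ρ Φ Y).toAddSubgroup
    (smul_mem_subVJ H hYG) (ofVJ_inj_subVJ Y) (locUnip_mono h (image_subVJ_subset Y hYS))

/-- a set of points `β' • x₁` is in the image of `β' V`. -/
theorem subset_image_range {L m : ℕ} [NeZero L] [NeZero m] {R : Type} [CommRing R]
    [Algebra (ZMod m) R] {X : AddSubgroup (JZero L)} [Module R ↥X] {rE : GQ →* M₂ (ZMod m)}
    {πE : R →ₐ[ZMod m] ZMod m} {ρ : GQ →* M₂ R} {Φ : M₂ R →ₐ[R] Module.End R ↥X}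
    {β : R} {G' : Set (JZero L)}
    (hG' : ∀ y ∈ G', ∃ x₁ : ↥X, ((β • x₁ : ↥X) : JZero L) = y) :
    G' ⊆ ofVJ X rE πE ρ Φ '' (Set.range fun y : VJ X rE πE ρ Φ => β • y) := by
  intro x hx
  obtain ⟨x₁, h2⟩ := hG' x hx
  exact ⟨β • ((x₁ : XJ X ρ Φ), (0 : EMJ rE πE)), ⟨((x₁ : XJ X ρ Φ), (0 : EMJ rE πE)), rfl⟩, h2⟩

include X C H hG hu in
/-- **the package at `2`** in the frame of `gen_cell_p`. -/
theorem two_core [IsLocalRing R] [Finite R] (Y : Submodule R ↥X')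
    (hYG : ∀ (g : GQ), ∀ y ∈ Y, ∀ y' : ↥X', (y' : JZero N') = g • (y : JZero N') → y' ∈ Y)
    (hYS : ∀ y ∈ Y, ∃ v ∈ G, u v = ((y : ↥X') : JZero N'))
    (hPF : P ⊆ Pfin W (rbarB b) L₀) {φ₂ : GQ}
    (hφ₂ : (primeLocalPlace twoP).IsFrobeniusAt φ₂ 2) :
    ∃ (k2 : ℕ) (u2 : Fin k2 → R) (β2 : R) (P2 : MvPolynomial (Fin k2) ℤ) (pt2 : Fin k2 → ℤ),
      (∀ j, pi0 πE (u2 j) = 0) ∧ (∀ j, (p : ℤ) ∣ pt2 j) ∧
      β2 - aeval u2 P2 ∈ Y.annihilator ∧ aeval pt2 P2 = N2val (rbarB b) P φ₂ ∧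
      ((k2 = 0 ∧ (2 ∈ P → Ram (rbarB b) 2)) ∨
        (k2 = 1 ∧
          Nat.card ↥(B1loc (adRep (mapK (kM p) (rbarB b))) twoP) * Nat.card (kM p) ^ 1 ≤
            Nat.card (kM p) ^ 3 ∧
          ∀ I : Ideal R, (∀ j, u2 j ∈ I) → ∃ M : M₂ R, IsUnit (M.map (pi0 πE)) ∧
            ∀ s ∈ decomp twoP, ConjConst ℤ (Y.annihilator ⊔ I) M (ρ s))) ∧
      ∀ β' : R, β2 ∣ β' → ∀ G' : Set (JZero N'),
        (∀ y ∈ G', ∃ x₁ : ↥X', ((β' • x₁ : ↥X') : JZero N') = y) →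
        (2 ∈ P → LocSt 2 (eps 2) G') ∧ (¬ Ram (rbarB b) 2 → 2 ∉ P → LocUr 2 G') ∧
        (Ram (rbarB b) 2 ∨ 2 ∈ P → LocUnip 2 G') := by
  classical
  have hp2 : (2 : ℕ) ≠ p := fun h => X.C.hp2 h.symm
  have hA := liesOverPrime_primeLocalPlace twoP
  have hadj : Algebra.adjoin R (Set.range ρ) = ⊤ := X.C.adjoin_range_rho' (C.lift H)
  obtain ⟨Nn, hNn⟩ := Hard.exists_pow_eq_bot (RingHom.ker (pi0 πE))
    fun a ha => TopCtx.isNilpotent_of_pi0 H ((RingHom.mem_ker).1 ha)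
  set ε : ℤ := if 2 ∈ P then eps 2 else 1 with hεdef
  have hsg : 2 ∈ P → eps 2 * eps 2 = 1 := fun h2 => by
    rcases (X.sgn 2 Nat.prime_two hp2 (X.dvd_of_mem_Pfin (hPF h2))).1 with e | e <;> rw [e] <;>
      norm_num
  have hε : ε * ε = 1 := by
    by_cases h2 : 2 ∈ P
    · rw [hεdef, if_pos h2]; exact hsg h2
    · rw [hεdef, if_neg h2]; norm_num
  have hP2 : 2 ∈ P → ¬ Ram (rbarB b) 2 ∧ (rbarB b φ₂).trace = 3 * (ε : ZMod p) := by
    intro h2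
    refine ⟨X.not_ram_of_mem_Pfin (hPF h2) hp2, ?_⟩
    have h1 := pi0_c_top C H Nat.prime_two hp2 (hsg h2)
      (locSt_EM B X.sgn Nat.prime_two hp2 (X.dvd_of_mem_Pfin (hPF h2))) hA hφ₂
    rw [map_sub, sub_eq_zero, map_mul, map_add, map_one, map_natCast, map_intCast] at h1
    have h3 : pi0 πE (ρ φ₂).trace = (rbarB b φ₂).trace := by
      rw [← C.lift H φ₂, Matrix.trace_fin_two, Matrix.trace_fin_two, map_add]
      rfl
    rw [← h3, h1, hεdef, if_pos h2]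
    push_cast
    ring
  obtain ⟨k2, u2, dl, β2, Pk, hk, dz, P2, -, hval, hpol⟩ :=
    exists_pkg2_pol (V := VJ X' (rEB B) πE ρ Φ) X.C H.rhoAct hadj (C.cont H) (C.lift H)
      (fun a ha => TopCtx.isUnit_of_pi0 H ha) hNn
      (fun σ hσ => C.det_inertia H Nat.prime_two hp2 hA hσ) hφ₂
      (by have := C.det_frob H Nat.prime_two hp2 hA hφ₂; simpa using this) P ε hε hP2
  have hYS' : ∀ y ∈ Y, ((y : ↥X') : JZero N') ∈ u '' (G : Set (JZero (lvl Lc (extP qv) t))) :=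
    fun y hy => by
      obtain ⟨w, hw, e⟩ := hYS y hy
      exact ⟨w, hw, e⟩
  set Yt : Submodule R (VJ X' (rEB B) πE ρ Φ) := subVJ (rEB B) πE ρ Φ Y with hYt
  have hYtG : ∀ g : GQ, ∀ x ∈ Yt, g • x ∈ Yt := fun g x hx => smul_mem_subVJ H hYG g x hx
  have hann : Yt.annihilator = Y.annihilator := annihilator_subVJ Y
  have h2T : 2 ∈ T := X.BP.levT 2 Nat.prime_two (X.two_dvd.mul_right p)
  have hin1 : ¬ Ram (rbarB b) 2 → 2 ∉ P → LocUr 2 (Yt : Set (VJ X' (rEB B) πE ρ Φ)) :=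
    fun hr h2 => locUr_subVJ H Y hYG hYS' ((hG.ur 2 Nat.prime_two h2T h2 hp2 hr).image u hu)
  have hin2 : Ram (rbarB b) 2 ∨ 2 ∈ P → LocUnip 2 (Yt : Set (VJ X' (rEB B) πE ρ Φ)) := by
    rintro (hr | h2)
    · exact locUnip_subVJ' H Y hYG hYS' ((hG.unip 2 Nat.prime_two hp2 hr).image u hu)
    · exact locUnip_subVJ' H Y hYG hYS' ((hG.st 2 h2 hp2).2.image u hu)
  have hin3 : 2 ∈ P → LocSt 2 ε (Yt : Set (VJ X' (rEB B) πE ρ Φ)) := fun h2 => by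
    rw [hεdef, if_pos h2]
    exact locSt_subVJ H Y hYG hYS' ((hG.st 2 h2 hp2).1.image u hu)
  refine ⟨k2, u2, β2, P2, fun j => (p : ℤ) * dz j, Pk.pi0_u, fun j => Dvd.intro _ rfl, ?_, hval,
    ?_, fun β' hβ G' hG' => ⟨fun h2 => ?_, fun hr h2 => ?_, fun h => ?_⟩⟩
  · rw [← hann]
    exact hpol Yt hYtG hin1 hin2 hin3
  · rcases Pk.gen Yt hYtG hin1 hin2 hin3 with ⟨h0, -⟩ | ⟨h1, hw, hst⟩
    · refine Or.inl ⟨h0, fun h2 => ?_⟩
      have := hk.2 ⟨(hP2 h2).1, Or.inl h2⟩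
      omega
    · refine Or.inr ⟨h1, hw, fun I hI => ?_⟩
      rw [← hann]
      exact hst I hI
  · have h1 := Pk.out_st h2 β' hβ
    rw [hεdef, if_pos h2] at h1
    exact locSt_mono (locSt_map (ofVJ X' (rEB B) πE ρ Φ) (ofVJ_gal H) h1) (subset_image_range hG')
  · exact locUr_mono (locUr_map (ofVJ X' (rEB B) πE ρ Φ) (ofVJ_gal H) (Pk.out_ur hr h2 β' hβ))
      (subset_image_range hG')
  · exact locUnip_mono (locUnip_map (ofVJ X' (rEB B) πE ρ Φ) (ofVJ_gal H) (Pk.out_unip h β' hβ))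
      (subset_image_range hG')

include X C H hG hu in
/-- **the frame-free core of the middle block of the step at `p`.** -/
theorem mid_core_p [IsLocalRing R] [Finite R]
    (F : TWGenL p (two_ne_zero_kM X.C.hp2) (mapK (kM p) (rbarB b)) (toP T) t qv)
    (hpΔ : (p : ℤ) ∣ W.Δ)
    (hlev : ∀ q : Nat.Primes, q ∉ toP T ∪ Finset.univ.image qv → ¬ (q : ℕ) ∣ N' * p)
    (hinj : ∀ v ∈ G, u v = 0 → v = 0) (hpN : ¬ p ∣ lvl Lc (extP qv) t)
    (Y : Submodule R ↥X')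
    (hYG : ∀ (g : GQ), ∀ y ∈ Y, ∀ y' : ↥X', (y' : JZero N') = g • (y : JZero N') → y' ∈ Y)
    (hY0 : Y ≠ ⊥) (hYS : ∀ y ∈ Y, ∃ v ∈ G, u v = ((y : ↥X') : JZero N'))
    (hPF : P ⊆ Pfin W (rbarB b) L₀) (hpP : p ∉ P)
    (hlvl : ∀ v ∈ P, v ≠ 2 → (∃ M : ℕ, N' = M * v ∧ ¬ v ∣ M ∧ (4 ∣ M ∨ 9 ∣ M)) ∧ ¬ v ^ 2 ∣ N')
    {s₁ : GQ} (hs₁ : (Ap p).IsFrobeniusAt s₁ p)
    (hdisc : (rbarB b s₁).trace ^ 2 ≠ 4 * (rbarB b s₁).det)
    (c : R) (hc0 : pi0 πE c = 0)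
    (hctr : ∀ J : Ideal R, c ∈ J → ∃ c₀ : ℤ, (ρ s₁).trace - (c₀ : R) ∈ J)
    {φ₂ : GQ} (hφ₂ : (primeLocalPlace twoP).IsFrobeniusAt φ₂ 2) {f₂ : ℕ}
    (hf₂ : ¬ (p : ℤ) ^ (f₂ + 1) ∣ N2val (rbarB b) P φ₂) :
    ∃ (β' : R) (Hr σ : Type) (_ : Fintype Hr) (_ : Fintype σ) (D : Hr → ℤ) (val : PV Hr σ → R)
      (pt : σ → ℤ) (Pc Pβ : MvPolynomial (PV Hr σ) ℤ),
      3 * Fintype.card Hr + Fintype.card σ ≤ t ∧
      (∀ r, Scroll (fun j => Ideal.Quotient.mk Y.annihilator (val (Sum.inl (r, j))))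
        ((((p : ℤ) * D r : ℤ)) : R ⧸ Y.annihilator)) ∧
      (∀ x, pi0 πE (val x) = 0) ∧
      RingHom.ker (pi0 πE) ≤ Y.annihilator ⊔ Ideal.span (Set.range val) ⊔ Ideal.span {(p : R)} ∧
      (∀ s, (p : ℤ) ∣ pt s) ∧
      c - aeval val Pc ∈ Y.annihilator ∧
      β' - aeval val Pβ ∈ Y.annihilator ∧
      aeval (auxVal p Hr σ pt) Pc = 0 ∧
      ¬ (p : ℤ) ^ (f₂ + P.card + 1) ∣ aeval (auxVal p Hr σ pt) Pβ ∧
      ∀ G' : Set (JZero N'), (∀ y ∈ G', ∃ x₁ : ↥X', ((β' • x₁ : ↥X') : JZero N') = y) →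
        (∀ q ∈ P, LocSt q (eps q) G' ∧ LocUnip q G') ∧
        (¬ Ram (rbarB b) 2 → 2 ∉ P → LocUr 2 G') ∧ (Ram (rbarB b) 2 ∨ 2 ∈ P → LocUnip 2 G') := by
  classical
  have hp : p.Prime := Fact.out
  set Po : Finset Nat.Primes := (toP T).filter fun v => (v : ℕ) ∈ P ∧ (v : ℕ) ≠ 2 with hPo
  set Hs : Finset Nat.Primes := Po.filter fun v => FrobScalar (rbarB b) (v : ℕ) with hHs
  set Sf : Finset Nat.Primes := Po.filter fun v => ¬ FrobScalar (rbarB b) (v : ℕ) with hSf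
  have hmem : ∀ v ∈ Po, (v : ℕ) ∈ P ∧ (v : ℕ) ≠ 2 ∧ (v : ℕ) ≠ p := fun v hv =>
    ⟨(Finset.mem_filter.1 hv).2.1, (Finset.mem_filter.1 hv).2.2,
      fun e => hpP (e ▸ (Finset.mem_filter.1 hv).2.1)⟩
  have hPoT : Po ⊆ toP T := Finset.filter_subset _ _
  have hHsPo : Hs ⊆ Po := Finset.filter_subset _ _
  have hSfPo : Sf ⊆ Po := Finset.filter_subset _ _
  have hmemPo : ∀ q (hq : q ∈ P), q ≠ 2 →
      (⟨q, X.prime_of_mem_Pfin (hPF hq)⟩ : Nat.Primes) ∈ Po := fun q hq h2 =>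
    Finset.mem_filter.2 ⟨mem_toP'.2 (X.hbadT q (X.prime_of_mem_Pfin (hPF hq))
      (X.dvd_of_mem_Pfin (hPF hq))), hq, h2⟩
  have hcardPo : Hs.card + Sf.card ≤ P.card := by
    have h1 : Hs.card + Sf.card = Po.card := Finset.card_filter_add_card_filter_not _
    rw [h1]
    exact Finset.card_le_card_of_injOn (fun v : Nat.Primes => (v : ℕ)) (fun v hv => (hmem v hv).1)
      fun v _ w _ e => Subtype.ext e
  have hdisj : Disjoint Hs Sf := Finset.disjoint_filter_filter_not _ _ _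
  let OutP : Nat.Primes → R → Prop := fun v be => ∀ β' : R, be ∣ β' → ∀ G' : Set (JZero N'),
    (∀ y ∈ G', ∃ x₁ : ↥X', ((β' • x₁ : ↥X') : JZero N') = y) →
    ((v : ℕ) ≠ 2 → LocSt (v : ℕ) (eps (v : ℕ)) G' ∧ LocUnip (v : ℕ) G') ∧
    ((v : ℕ) = 2 → (2 ∈ P → LocSt 2 (eps 2) G') ∧ (¬ Ram (rbarB b) 2 → 2 ∉ P → LocUr 2 G') ∧
      (Ram (rbarB b) 2 ∨ 2 ∈ P → LocUnip 2 G'))
  -- the hard primes
  have hH' : ∀ v ∈ Hs, ∃ (x : Fin 6 → R) (D : ℤ),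
      (HardPkg p (pi0 πE) ρ Y.annihilator v x D ∧ OutP v (x 0)) ∧
      Nat.card ↥(B1loc (adRep (mapK (kM p) (rbarB b))) v) * Nat.card (kM p) ^ 3 ≤
        Nat.card (kM p) ^ 3 := by
    intro v hv
    obtain ⟨hvPo, hs⟩ := Finset.mem_filter.1 hv
    obtain ⟨hvP, hv2, hvp⟩ := hmem v hvPo
    obtain ⟨⟨M, hN, hvM, h49⟩, -⟩ := hlvl v hvP hv2
    obtain ⟨x, D, h1, h2, h3, h4, h5⟩ :=
      old_hard X C H hG u hu Y hYG hYS v hvP (hPF hvP) hvp hs hN hvM h49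
    exact ⟨x, D, ⟨⟨h1, h2, h3⟩, fun β' hβ G' hG' =>
      ⟨fun _ => h5 β' hβ G' hG', fun e => absurd e hv2⟩⟩, h4⟩
  have hH : ∀ v ∈ Hs, ∃ (x : Fin 6 → R) (D : ℤ),
      HardPkg p (pi0 πE) ρ Y.annihilator v x D ∧ OutP v (x 0) := fun v hv => by
    obtain ⟨x, D, h, -⟩ := hH' v hv
    exact ⟨x, D, h⟩
  -- the soft primes
  have hS' : ∀ v ∈ Sf, (∃ (u₁ : Fin 1 → R) (be : R) (P₁ : MvPolynomial (Fin 1) ℤ)
      (pt₁ : Fin 1 → ℤ), VarPkg p (pi0 πE) ρ Y.annihilator v u₁ be P₁ pt₁ 1 ∧ OutP v be) ∧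
      Nat.card ↥(B1loc (adRep (mapK (kM p) (rbarB b))) v) * Nat.card (kM p) ^ 1 ≤
        Nat.card (kM p) ^ 3 := by
    intro v hv
    obtain ⟨hvPo, hs⟩ := Finset.mem_filter.1 hv
    obtain ⟨hvP, hv2, hvp⟩ := hmem v hvPo
    obtain ⟨bv, h1, h2, h3, h4⟩ := old_soft X C H hG u hu Y hYG hYS v hvP (hPF hvP) hvp
      (frobNonScalar_of_not v.2 (X.not_ram_of_mem_Pfin (hPF hvP) hvp) hs) (hlvl v hvP hv2).2
    exact ⟨⟨_, bv, _, _, VarPkg.of_one h1 h2, fun β' hβ G' hG' =>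
      ⟨fun _ => h4 β' hβ G' hG', fun e => absurd e hv2⟩⟩, h3⟩
  -- (GEN) + the abstract block, for a set `Os` of primes with one variable
  have key : ∀ (Os : Finset Nat.Primes) (f : Nat.Primes → ℕ), Disjoint Hs Os → Os ⊆ toP T →
      pPrime p ∉ Os →
      (∀ v ∈ Os, ∃ (u₁ : Fin 1 → R) (be : R) (P₁ : MvPolynomial (Fin 1) ℤ)
        (pt₁ : Fin 1 → ℤ), VarPkg p (pi0 πE) ρ Y.annihilator v u₁ be P₁ pt₁ (f v) ∧ OutP v be) →
      (∀ v ∈ Os, Nat.card ↥(B1loc (adRep (mapK (kM p) (rbarB b))) v) * Nat.card (kM p) ^ 1 ≤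
        Nat.card (kM p) ^ 3) →
      (∀ v ∈ toP T, v ∉ Hs ∪ Os → v ≠ pPrime p → (v : ℕ) ∈ P → Ram (rbarB b) (v : ℕ)) →
      ∀ (be0 : R) (N0 : ℤ) (f0 : ℕ), be0 - (N0 : R) ∈ Y.annihilator →
      ¬ (p : ℤ) ^ (f0 + 1) ∣ N0 → f0 + Hs.card + ∑ v ∈ Os, f v ≤ f₂ + P.card →
      ∃ (β' : R) (Hr σ : Type) (_ : Fintype Hr) (_ : Fintype σ) (D : Hr → ℤ) (val : PV Hr σ → R)
        (pt : σ → ℤ) (Pc Pβ : MvPolynomial (PV Hr σ) ℤ),
        3 * Fintype.card Hr + Fintype.card σ ≤ t ∧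
        (∀ r, Scroll (fun j => Ideal.Quotient.mk Y.annihilator (val (Sum.inl (r, j))))
          ((((p : ℤ) * D r : ℤ)) : R ⧸ Y.annihilator)) ∧
        (∀ x, pi0 πE (val x) = 0) ∧
        RingHom.ker (pi0 πE) ≤
          Y.annihilator ⊔ Ideal.span (Set.range val) ⊔ Ideal.span {(p : R)} ∧
        (∀ s, (p : ℤ) ∣ pt s) ∧
        c - aeval val Pc ∈ Y.annihilator ∧
        β' - aeval val Pβ ∈ Y.annihilator ∧
        aeval (auxVal p Hr σ pt) Pc = 0 ∧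
        ¬ (p : ℤ) ^ (f₂ + P.card + 1) ∣ aeval (auxVal p Hr σ pt) Pβ ∧
        be0 ∣ β' ∧ ∀ v ∈ Hs ∪ Os, ∃ be, be ∣ β' ∧ OutP v be := by
    intro Os f hdO hOT hpO hO hwO hRs be0 N0 f0 hbe0 hN0 hF
    refine midF_abs Y.annihilator Hs Os (fun _ => 1) f OutP hH hO be0 N0 f0 hbe0 hN0
      (fun _ : Fin 1 => c) (fun _ => hc0) c (MvPolynomial.X 0) (by rw [aeval_X, sub_self]; exact zero_mem _)
      (by rw [aeval_X]) ?_ hF
    intro I hI hcI hst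
    obtain ⟨c₀, hc₀⟩ := hctr I (hcI 0)
    set w : Nat.Primes → ℕ := fun v => if v ∈ Hs then 3 else 1 with hw
    have hsum : ∑ v ∈ Hs ∪ Os, w v = 3 * Hs.card + Os.card := by
      rw [Finset.sum_union hdO]
      have e1 : ∑ v ∈ Hs, w v = 3 * Hs.card := by
        rw [Finset.sum_congr rfl fun v hv => (if_pos hv : w v = 3), Finset.sum_const, smul_eq_mul,
          mul_comm]
      have e2 : ∑ v ∈ Os, w v = Os.card := by
        rw [Finset.sum_congr rfl fun v hv =>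
          (if_neg (Finset.disjoint_right.1 hdO hv) : w v = 1), Finset.sum_const, smul_eq_mul,
          mul_one]
      rw [e1, e2]
    obtain ⟨h1, x, hx, hle⟩ := gen_cell_p X C H hG u hu F hpΔ hlev hinj hpN Y hYG hY0 hYS
      (Hs ∪ Os) (Finset.union_subset (hHsPo.trans hPoT) hOT)
      (fun h => by
        rcases Finset.mem_union.1 h with h | h
        · exact (hmem _ (hHsPo h)).2.2 rfl
        · exact hpO h) hRs w
      (fun v hv => by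
        by_cases hvH : v ∈ Hs
        · have e : w v = 3 := if_pos hvH
          rw [e]
          obtain ⟨_, _, -, h⟩ := hH' v hvH
          exact h
        · have e : w v = 1 := if_neg hvH
          rw [e]
          exact hwO v ((Finset.mem_union.1 hv).resolve_left hvH))
      I hI hst hs₁ hdisc c₀ hc₀
    refine ⟨_, x, ?_, hx, hle⟩
    rw [hsum] at h1 ⊢
    rw [Finset.sum_const, smul_eq_mul, mul_one]
    omega
  -- the prime `2`
  obtain ⟨k2, u2, β2, P2, pt2, hu0, hpt2, hpol2, hval2, hgen2, hout2⟩ :=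
    two_core X C H hG u hu Y hYG hYS hPF hφ₂
  have h2T : twoP ∈ toP T := mem_toP'.2 (X.BP.levT 2 Nat.prime_two (X.two_dvd.mul_right p))
  have h2p : pPrime p ≠ twoP := fun e => X.C.hp2 (congrArg (fun v : Nat.Primes => (v : ℕ)) e)
  have hfin : ∀ (Os : Finset Nat.Primes) (β' : R), Sf ⊆ Os →
      (∀ v ∈ Hs ∪ Os, ∃ be, be ∣ β' ∧ OutP v be) →
      (∀ G' : Set (JZero N'), (∀ y ∈ G', ∃ x₁ : ↥X', ((β' • x₁ : ↥X') : JZero N') = y) →
        (2 ∈ P → LocSt 2 (eps 2) G') ∧ (¬ Ram (rbarB b) 2 → 2 ∉ P → LocUr 2 G') ∧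
        (Ram (rbarB b) 2 ∨ 2 ∈ P → LocUnip 2 G')) →
      ∀ G' : Set (JZero N'), (∀ y ∈ G', ∃ x₁ : ↥X', ((β' • x₁ : ↥X') : JZero N') = y) →
        (∀ q ∈ P, LocSt q (eps q) G' ∧ LocUnip q G') ∧
        (¬ Ram (rbarB b) 2 → 2 ∉ P → LocUr 2 G') ∧
        (Ram (rbarB b) 2 ∨ 2 ∈ P → LocUnip 2 G') := by
    intro Os β' hSO hall h2 G' hG'
    obtain ⟨t1, t2, t3⟩ := h2 G' hG'
    refine ⟨fun q hq => ?_, t2, t3⟩
    by_cases hq2 : q = 2
    · subst hq2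
      exact ⟨t1 hq, t3 (Or.inr hq)⟩
    · have hv := hmemPo q hq hq2
      have hv' : (⟨q, X.prime_of_mem_Pfin (hPF hq)⟩ : Nat.Primes) ∈ Hs ∪ Os := by
        by_cases hs : FrobScalar (rbarB b) q
        · exact Finset.mem_union_left _ (Finset.mem_filter.2 ⟨hv, hs⟩)
        · exact Finset.mem_union_right _ (hSO (Finset.mem_filter.2 ⟨hv, hs⟩))
      obtain ⟨be, hbe, hO⟩ := hall _ hv'
      exact (hO β' hbe G' hG').1 hq2
  rcases hgen2 with ⟨rfl, hR⟩ | ⟨rfl, hw2, hst2⟩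
  · -- no variable at `2`
    have hC : P2 = MvPolynomial.C (N2val (rbarB b) P φ₂) := by
      rw [← hval2, MvPolynomial.eq_C_of_isEmpty P2, aeval_C]
      rfl
    have hbe0 : β2 - ((N2val (rbarB b) P φ₂ : ℤ) : R) ∈ Y.annihilator := by
      have := hpol2
      rw [hC, aeval_C] at this
      exact this
    obtain ⟨β', Hr, σ, i1, i2, D, val, pt, Pc, Pβ, g1, g2, g3, g4, g5, g6, g7, g8, g9, g10, g11⟩ :=
      key Sf (fun _ => 1) hdisj (hSfPo.trans hPoT) (fun h => (hmem _ (hSfPo h)).2.2 rfl)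
        (fun v hv => (hS' v hv).1) (fun v hv => (hS' v hv).2)
        (fun v hvT hv hvp hvP => by
          by_cases hv2 : (v : ℕ) = 2
          · rw [hv2]
            exact hR (hv2 ▸ hvP)
          · exfalso
            have hvPo : v ∈ Po := Finset.mem_filter.2 ⟨hvT, hvP, hv2⟩
            apply hv
            by_cases hs : FrobScalar (rbarB b) (v : ℕ)
            · exact Finset.mem_union_left _ (Finset.mem_filter.2 ⟨hvPo, hs⟩)
            · exact Finset.mem_union_right _ (Finset.mem_filter.2 ⟨hvPo, hs⟩))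
        β2 _ f₂ hbe0 hf₂ (by
          rw [Finset.sum_const, smul_eq_mul, mul_one]
          omega)
    exact ⟨β', Hr, σ, i1, i2, D, val, pt, Pc, Pβ, g1, g2, g3, g4, g5, g6, g7, g8, g9,
      hfin Sf β' (Finset.Subset.refl _) g11 fun G' hG' => hout2 β' g10 G' hG'⟩
  · -- one variable at `2`
    have h2Sf : twoP ∉ Sf := fun h => (hmem _ (hSfPo h)).2.1 rfl
    have h2Hs : twoP ∉ Hs := fun h => (hmem _ (hHsPo h)).2.1 rfl
    obtain ⟨β', Hr, σ, i1, i2, D, val, pt, Pc, Pβ, g1, g2, g3, g4, g5, g6, g7, g8, g9, -, g11⟩ :=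
      key (insert twoP Sf) (fun v => if v = twoP then f₂ else 1)
        (Finset.disjoint_insert_right.2 ⟨h2Hs, hdisj⟩)
        (Finset.insert_subset h2T (hSfPo.trans hPoT))
        (fun h => by
          rcases Finset.mem_insert.1 h with h | h
          · exact h2p h
          · exact (hmem _ (hSfPo h)).2.2 rfl)
        (fun v hv => by
          by_cases hv2 : v = twoP
          · subst hv2
            rw [if_pos rfl]
            exact ⟨u2, β2, P2, pt2, ⟨hu0, hst2, hpol2, hpt2, by rw [hval2]; exact hf₂⟩,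
              fun β' hβ G' hG' => ⟨fun h => absurd rfl h, fun _ => hout2 β' hβ G' hG'⟩⟩
          · rw [if_neg hv2]
            exact (hS' v ((Finset.mem_insert.1 hv).resolve_left hv2)).1)
        (fun v hv => by
          rcases Finset.mem_insert.1 hv with rfl | hv
          · exact hw2
          · exact (hS' v hv).2)
        (fun v hvT hv hvp hvP => by
          exfalso
          apply hv
          by_cases hv2 : (v : ℕ) = 2
          · exact Finset.mem_union_right _ (Finset.mem_insert.2 (Or.inl (Subtype.ext hv2)))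
          · have hvPo : v ∈ Po := Finset.mem_filter.2 ⟨hvT, hvP, hv2⟩
            by_cases hs : FrobScalar (rbarB b) (v : ℕ)
            · exact Finset.mem_union_left _ (Finset.mem_filter.2 ⟨hvPo, hs⟩)
            · exact Finset.mem_union_right _
                (Finset.mem_insert_of_mem (Finset.mem_filter.2 ⟨hvPo, hs⟩)))
        1 1 0 (by rw [Int.cast_one, sub_self]; exact zero_mem _)
        (by
          rw [zero_add, pow_one]
          intro h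
          exact hp.one_lt.ne' (by exact_mod_cast Int.eq_one_of_dvd_one (by positivity) h))
        (by
          have e1 : ∑ v ∈ Sf, (if v = twoP then f₂ else 1) = Sf.card := by
            rw [Finset.sum_congr rfl fun v hv =>
              (if_neg (fun e : v = twoP => h2Sf (e ▸ hv)) : (if v = twoP then f₂ else 1) = 1),
              Finset.sum_const, smul_eq_mul, mul_one]
          rw [Finset.sum_insert h2Sf, if_pos rfl, e1]
          omega)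
    refine ⟨β', Hr, σ, i1, i2, D, val, pt, Pc, Pβ, g1, g2, g3, g4, g5, g6, g7, g8, g9,
      hfin (insert twoP Sf) β' (Finset.subset_insert _ _) g11 fun G' hG' => ?_⟩
    obtain ⟨be, hbe, hO⟩ := g11 twoP (Finset.mem_union_right _ (Finset.mem_insert_self _ _))
    exact (hO β' hbe G' hG').2 rfl

end Fermat.Agent.ML.StepP.MidCore
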