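import Fermat.Agent.ML.At2.Cell2Pol
import Fermat.Agent.ML.At2.N2.Lower
import Fermat.Agent.ML.Hard.Mid.Old
import Fermat.Agent.ML.Hard.Mid.Abs
import Fermat.Agent.ML.Hard.MidAbs
import Fermat.Agent.ML.Hard.PolVal

/-!
# ML / AtP / StepP / Two : **M3** : the prime `2` in the middle block of the F-steps (hard step, step at `p`)

Frame of `Hard.old_hard` / `Hard.old_soft` (`ML/Hard/Mid/Old.lean`) : `H : Rho.IsRhoK N' (p^(K+1)) X' (rEB B) πE ρ Φ`, `G` the cell at the lower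
level (state `P`), `u : J₀(N) →+ J₀(N')` equivariant, `Y ≤ X'` the stage module, `Y ⊆ u G`.

* `TwoF.locUr_subVJ`, `locUnip_subVJ`, `locSt_subVJ` : (IN) from `J₀(N')` to `Y × 0 ≤ V = X' × Λ²`;
* `TwoF.locUr_out`, `locUnip_out`, `locSt_out` : (OUT) from `β' V` to `β' X' ⊆ J₀(N')`;
* `TwoF.old_two` : helper68's `At2.exists_pkg2_pol` in that frame;
* `TwoF.old_two_cases` : the same, cut in the two cases `k2 = 0` (a multiplier `be0 ≡ N0` without variable) and `k2 = 1`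
  (`Hard.PkgOne` / `Hard.VarPkg` at `twoP`, weight `1`).
-/

set_option autoImplicit false
set_option linter.unusedSectionVars false
set_option linter.unusedVariables false

noncomputable section

open AlgebraicCurve ModularCurve

namespace Fermat.Agent.ML.StepP.TwoF

open Matrix Fermat.Agent.GAL Fermat.Agent.RIB Fermat.Agent.RIB.Rho Fermat.Agent.ML.ESide
  Fermat.Agent.ML.Rho Fermat.Agent.ML.Lift Fermat.Agent.S56 Fermat.Agent.S56.Flat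
  Fermat.Agent.S56.Gen Fermat.Agent.ML.StepGen Fermat.Agent.ML.At2 Fermat.Agent.ML.Hard
  ExtCitation
open CFT (decomp)

local notation "Qbar" => AlgebraicClosure ℚ
local notation "GQ" => (AlgebraicClosure ℚ ≃ₐ[ℚ] AlgebraicClosure ℚ)
local notation "M₂" => Matrix (Fin 2) (Fin 2)

/-! ### transfer between `J₀(L)` and `V = X × Λ²` -/

section Transfer

variable {L m : ℕ} [NeZero L] [NeZero m] {R : Type} [CommRing R] [Algebra (ZMod m) R]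
  {X : AddSubgroup (JZero L)} [Module R ↥X] {rE : GQ →* M₂ (ZMod m)}
  {πE : R →ₐ[ZMod m] ZMod m} {ρ : GQ →* M₂ R} {Φ : M₂ R →ₐ[R] Module.End R ↥X}
  (H : Fermat.Agent.ML.Rho.IsRhoK L m X rE πE ρ Φ)

/-- `V → J₀(L)`. -/
def prJ (X : AddSubgroup (JZero L)) [Module R ↥X] (rE : GQ →* M₂ (ZMod m))
    (πE : R →ₐ[ZMod m] ZMod m) (ρ : GQ →* M₂ R) (Φ : M₂ R →ₐ[R] Module.End R ↥X) :
    VJ X rE πE ρ Φ →+ JZero L :=
  (XJ.incl X ρ Φ).comp (AddMonoidHom.fst (XJ X ρ Φ) (EMJ rE πE))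

include H in
theorem prJ_smul (g : GQ) (v : VJ X rE πE ρ Φ) :
    prJ X rE πE ρ Φ (g • v) = g • prJ X rE πE ρ Φ v := H.coe_gal g v.1

/-- `X → V`. -/
def inJ (X : AddSubgroup (JZero L)) [Module R ↥X] (rE : GQ →* M₂ (ZMod m))
    (πE : R →ₐ[ZMod m] ZMod m) (ρ : GQ →* M₂ R) (Φ : M₂ R →ₐ[R] Module.End R ↥X) :
    XJ X ρ Φ →+ VJ X rE πE ρ Φ := AddMonoidHom.inl (XJ X ρ Φ) (EMJ rE πE)

theorem inJ_smul (g : GQ) (x : XJ X ρ Φ) :
    inJ X rE πE ρ Φ (g • x) = g • inJ X rE πE ρ Φ x :=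
  Prod.ext rfl (smul_zero g).symm

theorem subVJ_subset (Y : Submodule R ↥X) :
    (subVJ rE πE ρ Φ Y : Set (VJ X rE πE ρ Φ)) ⊆
      inJ X rE πE ρ Φ '' {x : XJ X ρ Φ | (x : ↥X) ∈ Y} := by
  rintro v ⟨h1, h2⟩
  exact ⟨v.1, h1, Prod.ext rfl h2.symm⟩

theorem incl_subset {Y : Submodule R ↥X} {YS : Set (JZero L)}
    (hYS : ∀ y ∈ Y, ((y : ↥X) : JZero L) ∈ YS) :
    XJ.incl X ρ Φ '' {x : XJ X ρ Φ | (x : ↥X) ∈ Y} ⊆ YS := by
  rintro _ ⟨x, hx, rfl⟩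
  exact hYS x hx

include H in
theorem locUr_subVJ {Y : Submodule R ↥X} {YS : Set (JZero L)}
    (hYS : ∀ y ∈ Y, ((y : ↥X) : JZero L) ∈ YS) {q : ℕ} (h : LocUr q YS) :
    LocUr q (subVJ rE πE ρ Φ Y : Set (VJ X rE πE ρ Φ)) :=
  ((LocUr.of_image (XJ.incl X ρ Φ) H.coe_gal (XJ.incl_injective X ρ Φ)
    (h.mono (incl_subset hYS))).image (inJ X rE πE ρ Φ) inJ_smul).mono (subVJ_subset Y)

include H in
theorem locUnip_subVJ {Y : Submodule R ↥X} {YS : Set (JZero L)}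
    (hYS : ∀ y ∈ Y, ((y : ↥X) : JZero L) ∈ YS) {q : ℕ} (h : LocUnip q YS) :
    LocUnip q (subVJ rE πE ρ Φ Y : Set (VJ X rE πE ρ Φ)) :=
  ((LocUnip.of_image (XJ.incl X ρ Φ) H.coe_gal (XJ.incl_injective X ρ Φ)
    (h.mono (incl_subset hYS))).image (inJ X rE πE ρ Φ) inJ_smul).mono (subVJ_subset Y)

include H in
theorem locSt_subVJ {Y : Submodule R ↥X} {YS : Set (JZero L)}
    (hYS : ∀ y ∈ Y, ((y : ↥X) : JZero L) ∈ YS) {q : ℕ} {ε : ℤ} (h : LocSt q ε YS) :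
    LocSt q ε (subVJ rE πE ρ Φ Y : Set (VJ X rE πE ρ Φ)) :=
  ((LocSt.of_image (XJ.incl X ρ Φ) H.coe_gal (XJ.incl_injective X ρ Φ)
    (h.mono (incl_subset hYS))).image (inJ X rE πE ρ Φ) inJ_smul).mono (subVJ_subset Y)

theorem out_subset {β' : R} {G' : Set (JZero L)}
    (hG' : ∀ y ∈ G', ∃ x₁ : ↥X, ((β' • x₁ : ↥X) : JZero L) = y) :
    G' ⊆ prJ X rE πE ρ Φ '' (Set.range fun y : VJ X rE πE ρ Φ => β' • y) := by
  intro y hy
  obtain ⟨x₁, rfl⟩ := hG' y hy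
  exact ⟨β' • inJ X rE πE ρ Φ x₁, ⟨_, rfl⟩, rfl⟩

include H in
theorem locUr_out {β' : R} {G' : Set (JZero L)}
    (hG' : ∀ y ∈ G', ∃ x₁ : ↥X, ((β' • x₁ : ↥X) : JZero L) = y) {q : ℕ}
    (h : LocUr q (Set.range fun y : VJ X rE πE ρ Φ => β' • y)) : LocUr q G' :=
  (h.image (prJ X rE πE ρ Φ) (prJ_smul H)).mono (out_subset hG')

include H in
theorem locUnip_out {β' : R} {G' : Set (JZero L)}
    (hG' : ∀ y ∈ G', ∃ x₁ : ↥X, ((β' • x₁ : ↥X) : JZero L) = y) {q : ℕ}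
    (h : LocUnip q (Set.range fun y : VJ X rE πE ρ Φ => β' • y)) : LocUnip q G' :=
  (h.image (prJ X rE πE ρ Φ) (prJ_smul H)).mono (out_subset hG')

include H in
theorem locSt_out {β' : R} {G' : Set (JZero L)}
    (hG' : ∀ y ∈ G', ∃ x₁ : ↥X, ((β' • x₁ : ↥X) : JZero L) = y) {q : ℕ} {ε : ℤ}
    (h : LocSt q ε (Set.range fun y : VJ X rE πE ρ Φ => β' • y)) : LocSt q ε G' :=
  (h.image (prJ X rE πE ρ Φ) (prJ_smul H)).mono (out_subset hG')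

end Transfer

/-! ### the package at `2` in the frame of the middle blocks -/

variable {W : WeierstrassCurve ℤ} {p : ℕ} [Fact p.Prime] {T : Finset ℕ}
  {b : Module.Basis (Fin 2) (ZMod p) (TorsW W p)} {L₀ : ℕ} [NeZero L₀] {eps : ℕ → ℤ}
  {eP : GQ → ℤ} (X : LCtx W p T b L₀ eps eP) {t K : ℕ} {qv : Fin t → Nat.Primes}
  {N' : ℕ} [NeZero N'] {X' : AddSubgroup (JZero N')}
  {B : Module.Basis (Fin 2) (ZMod (p ^ (K + 1))) (TorsW W (p ^ (K + 1)))}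
  (C : TopCtx W p b K B N' X')
  {R : Type} [CommRing R] [Algebra (ZMod (p ^ (K + 1))) R] [Module R ↥X']
  {πE : R →ₐ[ZMod (p ^ (K + 1))] ZMod (p ^ (K + 1))} {ρ : GQ →* M₂ R}
  {Φ : M₂ R →ₐ[R] Module.End R ↥X'}
  (H : Fermat.Agent.ML.Rho.IsRhoK N' (p ^ (K + 1)) X' (rEB B) πE ρ Φ)

include X in
theorem two_mem_T : 2 ∈ T := by
  obtain ⟨M, hM, -, -⟩ := X.BP.shape
  refine X.BP.levT 2 Nat.prime_two (Dvd.dvd.mul_right ?_ p)
  rw [hM]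
  exact Dvd.dvd.mul_left (by norm_num) M

include X C H in
/-- **the package at `2`**, on a set `YS ⊇ Y` of points of `J₀(N')` with the local conditions of a cell in the state `P`. -/
theorem two_sub [IsLocalRing R] [Finite R] (P : Finset ℕ) (hPf : 2 ∈ P → 2 ∈ Pfin W (rbarB b) L₀)
    (Y : Submodule R ↥X')
    (hYG : ∀ (g : GQ), ∀ y ∈ Y, ∀ y' : ↥X', (y' : JZero N') = g • (y : JZero N') → y' ∈ Y)
    (YS : Set (JZero N')) (hYS : ∀ y ∈ Y, ((y : ↥X') : JZero N') ∈ YS)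
    (hur : ¬ Ram (rbarB b) 2 → 2 ∉ P → LocUr 2 YS)
    (hun : Ram (rbarB b) 2 ∨ 2 ∈ P → LocUnip 2 YS) (hst : 2 ∈ P → LocSt 2 (eps 2) YS)
    {φ : GQ} (hφ : (primeLocalPlace twoP).IsFrobeniusAt φ 2) :
    ∃ (k2 : ℕ) (u2 : Fin k2 → R) (β2 : R) (P2 : MvPolynomial (Fin k2) ℤ) (pt : Fin k2 → ℤ),
      (k2 = 1 ↔ ¬ Ram (rbarB b) 2 ∧ (2 ∈ P ∨ (rbarB b φ).trace ^ 2 = 9)) ∧ k2 ≤ 1 ∧
      (∀ j, pi0 πE (u2 j) = 0) ∧ (∀ j, (p : ℤ) ∣ pt j) ∧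
      MvPolynomial.aeval pt P2 = N2val (rbarB b) P φ ∧
      β2 - MvPolynomial.aeval u2 P2 ∈ Y.annihilator ∧
      (k2 = 1 →
        Nat.card ↥(B1loc (adRep (mapK (kM p) (rbarB b))) twoP) * Nat.card (kM p) ^ 1 ≤
          Nat.card (kM p) ^ 3 ∧
        ∀ I : Ideal R, (∀ j, u2 j ∈ I) → ∃ M : M₂ R, IsUnit (M.map (pi0 πE)) ∧
          ∀ s ∈ decomp twoP, ConjConst ℤ (Y.annihilator ⊔ I) M (ρ s)) ∧
      ∀ β' : R, β2 ∣ β' → ∀ G' : Set (JZero N'),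
        (∀ y ∈ G', ∃ x₁ : ↥X', ((β' • x₁ : ↥X') : JZero N') = y) →
        (¬ Ram (rbarB b) 2 → 2 ∉ P → LocUr 2 G') ∧ (Ram (rbarB b) 2 ∨ 2 ∈ P → LocUnip 2 G') ∧
        (2 ∈ P → LocSt 2 (eps 2) G') := by
  have hp2 : (2 : ℕ) ≠ p := Ne.symm X.C.hp2
  have hA := liesOverPrime_primeLocalPlace twoP
  obtain ⟨n, hn⟩ : ∃ n : ℕ, RingHom.ker (pi0 πE) ^ n = ⊥ := by
    have hfg : (RingHom.ker (pi0 πE)).FG := IsNoetherian.noetherian _
    exact (Ideal.FG.isNilpotent_iff_le_nilradical hfg).2 (TopCtx.ker_pi0_le_nilradical H)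
  -- the sign
  obtain ⟨ε, hε, hεP⟩ : ∃ ε : ℤ, ε * ε = 1 ∧ (2 ∈ P → ε = eps 2) := by
    by_cases h2 : 2 ∈ P
    · refine ⟨eps 2, ?_, fun _ => rfl⟩
      rcases (X.sgn 2 Nat.prime_two hp2 (X.dvd_of_mem_Pfin (hPf h2))).1 with e | e <;> rw [e] <;>
        norm_num
    · exact ⟨1, by norm_num, fun h => absurd h h2⟩
  have hdetF : (ρ φ).det = 2 := by
    have := C.det_frob H Nat.prime_two hp2 hA hφ
    rw [this]; norm_num
  obtain ⟨k2, u2, dl, β2, hpk, hk2, dz, P2, hdl, hval, hpol⟩ :=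
    exists_pkg2_pol (V := VJ X' (rEB B) πE ρ Φ) (Φ := PhiJ X' (rEB B) πE ρ Φ) X.C H.rhoAct
      (X.C.adjoin_range_rho' (C.lift H)) (C.cont H) (C.lift H)
      (fun a ha => TopCtx.isUnit_of_pi0 H ha) hn
      (fun σ hσ => C.det_inertia H Nat.prime_two hp2 hA hσ) hφ hdetF P ε hε
      (fun h2 => ⟨X.not_ram_of_mem_Pfin (hPf h2) hp2, by
        rw [trace_frob_two X (hPf h2) _ hA φ hφ, hεP h2]; push_cast; ring⟩)
  have hgal := smul_mem_subVJ (rE := rEB B) (πE := πE) (ρ := ρ) (Φ := Φ) H hYG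
  have i1 : ¬ Ram (rbarB b) 2 → 2 ∉ P →
      LocUr 2 (subVJ (rEB B) πE ρ Φ Y : Set (VJ X' (rEB B) πE ρ Φ)) :=
    fun h1 h2 => locUr_subVJ H hYS (hur h1 h2)
  have i2 : Ram (rbarB b) 2 ∨ 2 ∈ P →
      LocUnip 2 (subVJ (rEB B) πE ρ Φ Y : Set (VJ X' (rEB B) πE ρ Φ)) :=
    fun h => locUnip_subVJ H hYS (hun h)
  have i3 : 2 ∈ P → LocSt 2 ε (subVJ (rEB B) πE ρ Φ Y : Set (VJ X' (rEB B) πE ρ Φ)) :=
    fun h => by rw [hεP h]; exact locSt_subVJ H hYS (hst h)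
  refine ⟨k2, u2, β2, P2, fun j => (p : ℤ) * dz j, hk2, hpk.k2_le, hpk.pi0_u,
    fun j => Dvd.intro _ rfl, hval, ?_, fun hk => ?_, fun β' hβ G' hG' => ⟨?_, ?_, ?_⟩⟩
  · have := hpol (subVJ (rEB B) πE ρ Φ Y) hgal i1 i2 i3
    rwa [annihilator_subVJ] at this
  · rcases hpk.gen (subVJ (rEB B) πE ρ Φ Y) hgal i1 i2 i3 with ⟨h0, -⟩ | ⟨-, hw, hs⟩
    · omega
    · rw [annihilator_subVJ] at hs
      exact ⟨hw, hs⟩
  · exact fun h1 h2 => locUr_out H hG' (hpk.out_ur h1 h2 β' hβ)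
  · exact fun h => locUnip_out H hG' (hpk.out_unip h β' hβ)
  · exact fun h => by
      have := locSt_out H hG' (hpk.out_st h β' hβ)
      rwa [hεP h] at this

/-- (OUT) at `2` for a multiplier `be`. -/
def OutTwo (rbar0 : GQ →* M₂ (ZMod p)) (eps : ℕ → ℤ) (P : Finset ℕ) (X' : AddSubgroup (JZero N'))
    [Module R ↥X'] (be : R) : Prop :=
  ∀ β' : R, be ∣ β' → ∀ G' : Set (JZero N'),
    (∀ y ∈ G', ∃ x₁ : ↥X', ((β' • x₁ : ↥X') : JZero N') = y) →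
    (¬ Ram rbar0 2 → 2 ∉ P → LocUr 2 G') ∧ (Ram rbar0 2 ∨ 2 ∈ P → LocUnip 2 G') ∧
    (2 ∈ P → LocSt 2 (eps 2) G')

/-- the static exponent at `2`. -/
theorem exists_f2 (rbar0 : GQ →* M₂ (ZMod p)) (P : Finset ℕ) (φ : GQ) :
    ∃ f2 : ℕ, ¬ (p : ℤ) ^ (f2 + 1) ∣ N2val rbar0 P φ := by
  have hp : p.Prime := Fact.out
  refine ⟨(N2val rbar0 P φ).natAbs, fun h => ?_⟩
  have h1 : p ^ ((N2val rbar0 P φ).natAbs + 1) ∣ (N2val rbar0 P φ).natAbs := by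
    have := Int.natAbs_dvd_natAbs.2 h
    rwa [Int.natAbs_pow, Int.natAbs_natCast] at this
  have h2 := Nat.le_of_dvd (Int.natAbs_pos.2 (N2val_ne_zero P φ)) h1
  have h3 : (N2val rbar0 P φ).natAbs + 1 < p ^ ((N2val rbar0 P φ).natAbs + 1) :=
    Nat.lt_pow_self hp.one_lt
  omega

include X C H in
/-- **the package at `2`, cut in two cases** : no variable (`be0 ≡ N2val` modulo `Ann Y`, and `2 ∈ P → Ram`), or one variable of weight `1`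
(in the shapes `Hard.PkgOne` and `Hard.VarPkg`). -/
theorem two_sub_cases [IsLocalRing R] [Finite R] (P : Finset ℕ)
    (hPf : 2 ∈ P → 2 ∈ Pfin W (rbarB b) L₀) (Y : Submodule R ↥X')
    (hYG : ∀ (g : GQ), ∀ y ∈ Y, ∀ y' : ↥X', (y' : JZero N') = g • (y : JZero N') → y' ∈ Y)
    (YS : Set (JZero N')) (hYS : ∀ y ∈ Y, ((y : ↥X') : JZero N') ∈ YS)
    (hur : ¬ Ram (rbarB b) 2 → 2 ∉ P → LocUr 2 YS)
    (hun : Ram (rbarB b) 2 ∨ 2 ∈ P → LocUnip 2 YS) (hst : 2 ∈ P → LocSt 2 (eps 2) YS)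
    {φ : GQ} (hφ : (primeLocalPlace twoP).IsFrobeniusAt φ 2) {f2 : ℕ}
    (hf2 : ¬ (p : ℤ) ^ (f2 + 1) ∣ N2val (rbarB b) P φ) :
    (¬ (¬ Ram (rbarB b) 2 ∧ (2 ∈ P ∨ (rbarB b φ).trace ^ 2 = 9)) ∧
      ∃ be0 : R, be0 - ((N2val (rbarB b) P φ : ℤ) : R) ∈ Y.annihilator ∧
        OutTwo (rbarB b) eps P X' be0) ∨
    ((¬ Ram (rbarB b) 2 ∧ (2 ∈ P ∨ (rbarB b φ).trace ^ 2 = 9)) ∧
      Nat.card ↥(B1loc (adRep (mapK (kM p) (rbarB b))) twoP) * Nat.card (kM p) ^ 1 ≤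
        Nat.card (kM p) ^ 3 ∧
      ∃ (u be : R) (P1 : Polynomial ℤ) (pt : ℤ) (P2 : MvPolynomial (Fin 1) ℤ),
        PkgOne p (pi0 πE) ρ Y twoP u be P1 pt f2 ∧
        VarPkg p (pi0 πE) ρ Y.annihilator twoP (fun _ : Fin 1 => u) be P2 (fun _ => pt) f2 ∧
        OutTwo (rbarB b) eps P X' be) := by
  obtain ⟨k2, u2, β2, P2, pt, hk, hle, hu, hpt, hval, hpol, hgen, hout⟩ :=
    two_sub X C H P hPf Y hYG YS hYS hur hun hst hφ
  by_cases h1 : k2 = 1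
  · subst h1
    obtain ⟨hw, hs⟩ := hgen rfl
    have eu : (fun _ : Fin 1 => u2 0) = u2 := funext fun j => by rw [Subsingleton.elim j 0]
    have ept : (fun _ : Fin 1 => pt 0) = pt := funext fun j => by rw [Subsingleton.elim j 0]
    refine Or.inr ⟨hk.1 rfl, hw, u2 0, β2,
      MvPolynomial.aeval (fun _ : Fin 1 => (Polynomial.X : Polynomial ℤ)) P2, pt 0, P2,
      ⟨hu 0, fun I hI => hs I fun j => by rw [Subsingleton.elim j 0]; exact hI, ?_, hpt 0, ?_⟩,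
      ⟨fun _ => hu 0, fun I hI => hs I fun j => by rw [Subsingleton.elim j 0]; exact hI 0, ?_,
        fun _ => hpt 0, ?_⟩, hout⟩
    · rw [MvPolynomial.comp_aeval_apply]
      simp only [Polynomial.aeval_X]
      rw [eu]
      exact hpol
    · rw [← Polynomial.coe_aeval_eq_eval, MvPolynomial.comp_aeval_apply]
      simp only [Polynomial.aeval_X]
      rw [ept, hval]
      exact hf2
    · rw [eu]
      exact hpol
    · rw [ept, hval]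
      exact hf2
  · have h0 : k2 = 0 := by omega
    subst h0
    refine Or.inl ⟨fun h => h1 (hk.2 h), β2, ?_, hout⟩
    have h2 := aeval_sub_mem Y.annihilator u2 pt (fun j => j.elim0) P2
    rw [hval] at h2
    have := Y.annihilator.add_mem hpol h2
    rwa [sub_add_sub_cancel] at this

variable {Lc : ℕ} [NeZero Lc] {a : ℕ} {P : Finset ℕ}
  {G : AddSubgroup (JZero (lvl Lc (extP qv) t))}
  (hG : IsCell p T W.apOfModel (rbarB b) eps eP Lc qv a P G)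
  (u : JZero (lvl Lc (extP qv) t) →+ JZero N') (hu : ∀ (g : GQ) v, u (g • v) = g • u v)

include X C H hG hu in
/-- **M3 : the package at `2`** in the frame of `Hard.old_hard` / `Hard.old_soft`. -/
theorem old_two [IsLocalRing R] [Finite R] (hPf : 2 ∈ P → 2 ∈ Pfin W (rbarB b) L₀)
    (Y : Submodule R ↥X')
    (hYG : ∀ (g : GQ), ∀ y ∈ Y, ∀ y' : ↥X', (y' : JZero N') = g • (y : JZero N') → y' ∈ Y)
    (hYS : ∀ y ∈ Y, ∃ v ∈ G, u v = ((y : ↥X') : JZero N'))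
    {φ : GQ} (hφ : (primeLocalPlace twoP).IsFrobeniusAt φ 2) {f2 : ℕ}
    (hf2 : ¬ (p : ℤ) ^ (f2 + 1) ∣ N2val (rbarB b) P φ) :
    (¬ (¬ Ram (rbarB b) 2 ∧ (2 ∈ P ∨ (rbarB b φ).trace ^ 2 = 9)) ∧
      ∃ be0 : R, be0 - ((N2val (rbarB b) P φ : ℤ) : R) ∈ Y.annihilator ∧
        OutTwo (rbarB b) eps P X' be0) ∨
    ((¬ Ram (rbarB b) 2 ∧ (2 ∈ P ∨ (rbarB b φ).trace ^ 2 = 9)) ∧
      Nat.card ↥(B1loc (adRep (mapK (kM p) (rbarB b))) twoP) * Nat.card (kM p) ^ 1 ≤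
        Nat.card (kM p) ^ 3 ∧
      ∃ (u be : R) (P1 : Polynomial ℤ) (pt : ℤ) (P2 : MvPolynomial (Fin 1) ℤ),
        PkgOne p (pi0 πE) ρ Y twoP u be P1 pt f2 ∧
        VarPkg p (pi0 πE) ρ Y.annihilator twoP (fun _ : Fin 1 => u) be P2 (fun _ => pt) f2 ∧
        OutTwo (rbarB b) eps P X' be) := by
  have hp2 : (2 : ℕ) ≠ p := Ne.symm X.C.hp2
  refine two_sub_cases X C H P hPf Y hYG (u '' (G : Set (JZero (lvl Lc (extP qv) t))))
    (fun y hy => by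
      obtain ⟨w, hw, e⟩ := hYS y hy
      exact ⟨w, hw, e⟩)
    (fun h1 h2 => (hG.ur 2 Nat.prime_two (two_mem_T X) h2 hp2 h1).image u hu)
    (fun h => ?_) (fun h => (hG.st 2 h hp2).1.image u hu) hφ hf2
  rcases h with h | h
  · exact (hG.unip 2 Nat.prime_two hp2 h).image u hu
  · exact (hG.st 2 h hp2).2.image u hu

end Fermat.Agent.ML.StepP.TwoF
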