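import Fermat.Agent.ML.AtP.StepP.OfMid
import Fermat.Agent.ML.AtP.StepP.MidCore
import Fermat.Agent.ML.AtP.StepP.Two
import Fermat.Agent.ML.Lift.Inst.GenFrame

/-!
# ML / AtP / StepP / Fin : **(C-STEP-P) is a theorem**

`PFin.midF_p : Hard.MidFStmt X t (Pfin.erase p) p`  =  helper11's frame-free core `MidCore.mid_core_p` in the frame of helper71's contract
(`ML/Hard/MidSpec.lean`), with `c`, (EMB) from helper69's `cpP'`;   `PFin.stepPStmt : StepPStmt`  by `stepP_of_midF`.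
-/

set_option autoImplicit false
set_option linter.unusedSectionVars false
set_option linter.unusedVariables false

noncomputable section

open AlgebraicCurve ModularCurve MvPolynomial

namespace Fermat.Agent.ML.StepP.PFin

open Fermat.Agent.RIB Fermat.Agent.RIB.Rho Fermat.Agent.GAL Fermat.Agent.ML.ESide Fermat.Agent.S56
  Fermat.Agent.S56.Flat Fermat.Agent.ML.TWFree Fermat.Agent.ML.Lift Fermat.Agent.ML.Hard
  Fermat.Agent.ML.StepGen Fermat.Agent.ML.At2 ExtCitation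

local notation "Qbar" => AlgebraicClosure ℚ
local notation "GQ" => (AlgebraicClosure ℚ ≃ₐ[ℚ] AlgebraicClosure ℚ)
local notation "M₂" => Matrix (Fin 2) (Fin 2)

variable {W : WeierstrassCurve ℤ} {p : ℕ} [Fact p.Prime] {T : Finset ℕ}
  {b : Module.Basis (Fin 2) (ZMod p) (TorsW W p)} {L₀ : ℕ} [NeZero L₀] {eps : ℕ → ℤ} {eP : GQ → ℤ}

set_option maxHeartbeats 1000000 in
/-- **the middle block of the step at `p`**, in the shape of the contract `Hard.MidFStmt`. -/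
theorem midF_p (X : LCtx W p T b L₀ eps eP) (hpP : p ∈ Pfin W (rbarB b) L₀) (t : ℕ) :
    Hard.MidFStmt X t ((Pfin W (rbarB b) L₀).erase p) p := by
  have hp : p.Prime := Fact.out
  have hpΔ : (p : ℤ) ∣ W.Δ := X.dvd_of_mem_Pfin hpP
  obtain ⟨s₁, δ, hs₁, -, hεε, hdisc, -⟩ := (X.sgnP hpΔ).exists_s1_delta X.C.hp2 b X.C.det
  obtain ⟨φ₂, hφ₂⟩ := S54.exists_isFrobeniusAt_of_liesOverPrime twoP.2 _
    (liesOverPrime_primeLocalPlace twoP)
  obtain ⟨f₂, hf₂⟩ := TwoF.exists_f2 (rbarB b) ((Pfin W (rbarB b) L₀).erase p) φ₂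
  have hins : insert p ((Pfin W (rbarB b) L₀).erase p) = Pfin W (rbarB b) L₀ :=
    Finset.insert_erase hpP
  have hsub : insert p ((Pfin W (rbarB b) L₀).erase p) ⊆ Pfin W (rbarB b) L₀ := by rw [hins]
  have hPs : (Pfin W (rbarB b) L₀).erase p ⊆ Pfin W (rbarB b) L₀ := Finset.erase_subset _ _
  have hpn : p ∉ (Pfin W (rbarB b) L₀).erase p := Finset.notMem_erase _ _
  refine ⟨f₂ + ((Pfin W (rbarB b) L₀).erase p).card,
    fun a m n K qv hF ha Lc Lc' _ _ _ hLc hL G hG hG0 B hTop E R _ _ _ _ iM πE ρ Φ H Gt hGt => ?_⟩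
  letI iM' : Module R ↥(tV p (↑(cutS T qv) : Set ℕ) W.apOfModel (lvl Lc' (extP qv) t) (K + 1)) := iM
  have hLc' : Lc' = cellLevel L₀ (insert p ((Pfin W (rbarB b) L₀).erase p)) := by
    rw [Fermat.Agent.ML.cellLevel_insert L₀ X.C.hp2 hpn, hL, hLc]
  have hnotT : ∀ i, ((qv i : Nat.Primes) : ℕ) ∉ T := (X.mtw_cell_frm hF hsub hLc').notT
  have hpN : ¬ p ∣ lvl Lc (extP qv) t := X.not_dvd_lvl_cell hF hPs hpP X.C.hp2 hpn hLc
  have hS : ∀ r : ℕ, r.Prime → r ∣ lvl Lc' (extP qv) t * p → r ∈ cutS T qv :=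
    Frame.hS X hPs hpP hpn X.C.hp2 hF hLc hL
  obtain ⟨c, hc0, hcJ, hemb⟩ := cpP' (a := a) X hpΔ hF.hK hnotT (lvl_mul_q hL qv) hpN hS hTop E H hs₁
  have hGV : ∀ v ∈ G, upE (lvl_mul_q hL qv) 0 v ∈
      cellV p (↑(cutS T qv) : Set ℕ) W.apOfModel (lvl Lc' (extP qv) t) (K + 1) :=
    Frame.hGV X hPs hpP hpn X.C.hp2 hF hLc hL hG (fun _ => Iff.rfl)
  obtain ⟨β', Hr, σ, iH, iσ, D, val, pt, Pc, Pβ, h1, h3, h4, h5, h6, h7, h8, h9, h10, hout⟩ :=
    MidCore.mid_core_p X hTop H hG (upE (lvl_mul_q hL qv) 0) (upE_smul (lvl_mul_q hL qv) 0) hF.gen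
      hpΔ (Frame.hlev X hPs hpP hpn X.C.hp2 hF hLc hL)
      (fun v hv h0 => Frame.hinj X hPs hpP hpn X.C.hp2 hF hLc hL v (hG.le hv) h0) hpN Gt
      (Frame.hYG hL hG Gt hGt) (Frame.ne_bot X hPs hpP hpn X.C.hp2 hF hLc hL hG Gt hGt hG0 hGV)
      (fun y hy => (hGt y).1 hy) hPs hpn
      (fun v hv hv2 => Hard.old_level X hsub hnotT (Finset.mem_insert_of_mem hv) hv2 hLc')
      hs₁ hdisc c (by rw [pi0_apply, hc0, map_zero]) hcJ hφ₂ hf₂
  refine ⟨eP s₁, Hr, σ, iH, iσ, D, val, pt, c, β', Pc, Pβ, ⟨h1, h3, h4, h5, h6, h7, h8, h9, h10,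
    fun v hv hv' hcv k => ?_, fun G' hgal hle hx => ?_⟩⟩
  · exact (hemb v hv ⟨_, hv'⟩ rfl hcv).2 k
  · obtain ⟨o1, o2, o3⟩ := hout (G' : Set (JZero (lvl Lc' (extP qv) t))) fun y hy => by
      obtain ⟨x₁, -, e⟩ := hx y hy
      exact ⟨x₁, e⟩
    refine ⟨fun q' hq' hq'p => o1 q' ?_, fun h2 hram => o2 hram fun h => h2 (Finset.mem_insert_of_mem h),
      fun hram => o3 (Or.inl hram)⟩
    rcases Finset.mem_insert.1 hq' with h | h
    · exact absurd h hq'p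
    · exact h

/-- **(C-STEP-P) is a theorem.** -/
theorem stepPStmt : StepPStmt :=
  stepP_of_midF fun _ _ _ _ _ _ _ _ _ X t hpP => midF_p X hpP t

end Fermat.Agent.ML.StepP.PFin
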