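import Fermat.Agent.ML.AtP.StepP.Num

/-!
# ML / AtP / StepP / Lvl : [P01] the arithmetic of the levels of the raising step at `q = p`

`lvlP'` = the stub `lvlP` of the skeleton `ML/AtP/StepP/Main.lean`, verbatim.
-/

set_option autoImplicit false

noncomputable section

open AlgebraicCurve ModularCurve

namespace Fermat.Agent.ML.StepP

open Fermat.Agent.RIB Fermat.Agent.ML.ESide

local notation "GQ" => (AlgebraicClosure ℚ ≃ₐ[ℚ] AlgebraicClosure ℚ)

variable {W : WeierstrassCurve ℤ} {p : ℕ} [Fact p.Prime] {T : Finset ℕ}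
  {b : Module.Basis (Fin 2) (ZMod p) (TorsW W p)} {L₀ : ℕ} [NeZero L₀] {eps : ℕ → ℤ} {eP : GQ → ℤ}

/-- **[P01]** : the arithmetic of the levels. -/
theorem lvlP' (X : LCtx W p T b L₀ eps eP) (hpP : p ∈ Pfin W (rbarB b) L₀) :
    insert p ((Pfin W (rbarB b) L₀).erase p) = Pfin W (rbarB b) L₀ ∧
    cellLevel L₀ (Pfin W (rbarB b) L₀) = cellLevel L₀ ((Pfin W (rbarB b) L₀).erase p) * p ∧
    cellLevel L₀ ((Pfin W (rbarB b) L₀).erase p) ≠ 0 ∧
    4 ∣ cellLevel L₀ ((Pfin W (rbarB b) L₀).erase p) ∧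
    (∀ r : ℕ, r.Prime → r ∣ cellLevel L₀ (Pfin W (rbarB b) L₀) * p → r ∈ T) ∧
    (p : ℤ) ∣ W.Δ ∧
    ∀ {t : ℕ} (qv : Fin t → Nat.Primes), (∀ i, ((qv i : Nat.Primes) : ℕ) ∉ T) →
      ¬ p ∣ lvl (cellLevel L₀ ((Pfin W (rbarB b) L₀).erase p)) (extP qv) t := by
  have hp : p.Prime := Fact.out
  have hins : insert p ((Pfin W (rbarB b) L₀).erase p) = Pfin W (rbarB b) L₀ :=
    Finset.insert_erase hpP
  refine ⟨hins, ?_, X.cellLevel_ne_zero (Finset.erase_subset _ _),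
    (X.cellLevel_spec (Finset.erase_subset _ _)).2, (X.cellLevel_spec (Finset.Subset.refl _)).1,
    X.dvd_of_mem_Pfin hpP, fun {t} qv hnotT hd => ?_⟩
  · conv_lhs => rw [← hins]
    exact cellLevel_insert L₀ X.C.hp2 (Finset.notMem_erase _ _)
  · rcases dvd_lvl_cases_lt t hp hd with h | ⟨j, -, hj⟩
    · exact X.not_dvd_cellLevel (Finset.erase_subset _ _) hpP X.C.hp2 (Finset.notMem_erase _ _) h
    · exact hnotT j (hj ▸ X.C.p_mem)

end Fermat.Agent.ML.StepP
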