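import Fermat.Agent.ML.AtP.StepP.Defs
import Fermat.Agent.ML.AtP.StepP.Num
import Fermat.Agent.ML.AtP.Cell
import Fermat.Agent.ML.Main.CellMk
import Fermat.Agent.ML.Rho.CellRho
import Fermat.Agent.ML.TWFree.Inst.InBox

/-!
# ML / AtP / StepP / Out : **P05** of the skeleton of (C-STEP-P) : the new cell

`outP` : a Galois stable subgroup of `boxG p a τ (tK ..)` (the `p`-new classes at the level `Lc' = Lc p`, in the box), with the local
conditions at the primes `≠ p`, is a cell in the state `insert p (Pfin.erase p)`.   The field `atp` is `LCtx.locPSt_of_new`.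
-/

set_option autoImplicit false
set_option linter.unusedSectionVars false
set_option linter.unusedVariables false

noncomputable section

open AlgebraicCurve ModularCurve

namespace Fermat.Agent.ML.StepP

open Fermat.Agent.RIB Fermat.Agent.RIB.Rho Fermat.Agent.GAL Fermat.Agent.ML.ESide
  Fermat.Agent.ML.TWFree Fermat.Agent.ML.Lift

local notation "Qbar" => AlgebraicClosure ℚ
local notation "GQ" => (AlgebraicClosure ℚ ≃ₐ[ℚ] AlgebraicClosure ℚ)
local notation "M₂" => Matrix (Fin 2) (Fin 2)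

variable {W : WeierstrassCurve ℤ} {p : ℕ} [Fact p.Prime] {T : Finset ℕ}
  {b : Module.Basis (Fin 2) (ZMod p) (TorsW W p)} {L₀ : ℕ} [NeZero L₀] {eps : ℕ → ℤ} {eP : GQ → ℤ}

/-- **P05 : the new cell.** -/
theorem outP (X : LCtx W p T b L₀ eps eP) (hpP : p ∈ Pfin W (rbarB b) L₀) {t a : ℕ}
    {qv : Fin t → Nat.Primes} (hnotT : ∀ i, ((qv i : Nat.Primes) : ℕ) ∉ T)
    (hinj : Function.Injective qv)
    (Lc Lc' : ℕ) [NeZero Lc] [NeZero Lc']
    (hLc : Lc = cellLevel L₀ ((Pfin W (rbarB b) L₀).erase p)) (hL : Lc' = Lc * p)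
    {A : Fin t → ValuationSubring Qbar} {τ : Fin t → GQ}
    (hA : ∀ i, (A i).LiesOverPrime ((qv i : Nat.Primes) : ℕ))
    (hcyc : ∀ i, CycOn p (↑(cutS T qv) : Set ℕ) W.apOfModel ((A i).inertiaSubgroupIn ℚ) (τ i)
      (p ^ a) (lvl Lc' (extP qv) t))
    (G' : AddSubgroup (JZero (lvl Lc' (extP qv) t))) (hgal : ∀ g : GQ, ∀ x ∈ G', g • x ∈ G')
    (hle : G' ≤ boxG p a τ (tK p (↑(cutS T qv) : Set ℕ) W.apOfModel qv a (lvl_mul_q hL qv)))
    (hst : ∀ q ∈ Pfin W (rbarB b) L₀, q ≠ p →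
      LocSt q (eps q) (G' : Set (JZero (lvl Lc' (extP qv) t))))
    (h2ur : ¬ Ram (rbarB b) 2 → 2 ∉ Pfin W (rbarB b) L₀ →
      LocUr 2 (G' : Set (JZero (lvl Lc' (extP qv) t))))
    (h2un : (Ram (rbarB b) 2 ∨ 2 ∈ Pfin W (rbarB b) L₀) →
      LocUnip 2 (G' : Set (JZero (lvl Lc' (extP qv) t)))) :
    IsCell p T W.apOfModel (rbarB b) eps eP Lc' qv a
      (insert p ((Pfin W (rbarB b) L₀).erase p)) G' := by
  have hp : p.Prime := Fact.out
  have hins : insert p ((Pfin W (rbarB b) L₀).erase p) = Pfin W (rbarB b) L₀ :=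
    Finset.insert_erase hpP
  have hsub : insert p ((Pfin W (rbarB b) L₀).erase p) ⊆ Pfin W (rbarB b) L₀ := by rw [hins]
  have hLc' : Lc' = cellLevel L₀ (insert p ((Pfin W (rbarB b) L₀).erase p)) := by
    rw [cellLevel_insert L₀ X.C.hp2 (Finset.notMem_erase _ _), hL, hLc]
  have hK : ∀ x ∈ G', x ∈ tK p (↑(cutS T qv) : Set ℕ) W.apOfModel qv a (lvl_mul_q hL qv) :=
    fun x hx => (mem_boxG.1 (hle hx)).1
  have le : G' ≤ thetaPart (lvl Lc' (extP qv) t) p (↑(cutS T qv) : Set ℕ) W.apOfModel :=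
    fun x hx => (mem_tK.1 (hK x hx)).1
  have hpa : ∀ x ∈ G', p ^ a • x = 0 := fun x hx => (mem_tK.1 (hK x hx)).2.1
  have hpΔ : (p : ℤ) ∣ W.Δ := X.dvd_of_mem_Pfin hpP
  have hpM : ¬ p ∣ lvl Lc (extP qv) t := by
    intro hd
    rcases dvd_lvl_cases t hp hd with h | ⟨j, hj⟩
    · exact X.not_dvd_cellLevel (Finset.erase_subset _ _) hpP X.C.hp2 (Finset.notMem_erase _ _)
        (hLc ▸ h)
    · exact hnotT j (hj ▸ X.C.p_mem)
  have h4 : 4 ∣ lvl Lc (extP qv) t := by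
    refine Dvd.dvd.trans ?_ (dvd_lvl _ _ _)
    rw [hLc]
    exact (X.cellLevel_spec (Finset.erase_subset _ _)).2
  refine X.isCell_of hsub Lc' hLc' hnotT a G' le hgal
    (inBox_of_cyc hA hcyc (fun _ => le_rfl) G' le hgal hpa
      fun i x hx => (mem_boxG.1 (hle hx)).2.2 i)
    (fun x hx i => (mem_tK.1 (hK x hx)).2.2.1 i)
    (fun q hq hqp => hst q (hsub hq) hqp)
    (fun h1 h2 => h2ur h1 (hins ▸ h2)) (fun h => h2un (hins ▸ h)) fun _ => ?_
  exact X.locPSt_of_new hpΔ (lvl_mul_q hL qv) hpM (Or.inl h4) (subset_cutS T qv)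
    (fun r hr hd => Fermat.Agent.ML.Rho.mem_cutS_of_dvd_lvl
      (fun r' hr' hd' => (X.cellLevel_spec hsub).1 r' hr' (hLc' ▸ hd')) t hr hd)
    le hgal hpa fun x hx => ⟨(mem_tK.1 (hK x hx)).2.2.2 0, (mem_tK.1 (hK x hx)).2.2.2 1⟩

end Fermat.Agent.ML.StepP
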