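import Fermat.Agent.ML.AtP.StepP.Defs
import Fermat.Agent.ML.Main.StepSplit
import Fermat.Agent.ML.At2.N2.NumLvl
import Fermat.Agent.ML.TWFree.Inst.KCube
import Fermat.Agent.ML.TWFree.Inst.InBox

/-!
# ML / AtP / StepP / Tw : the Taylor-Wiles block of a raising step   ([P02] of the skeleton of `StepPStmt`)

* `tw_step` : ANY state `P ⊆ Pfin`, ANY new prime `q ∈ Pfin \ P`, `q ≠ 2`  (`q = p` allowed) : `∃ d` (static), for all frames :
  `∃ D' A τ` : places, generators of inertia, `CycOn` at the upper level, and the three numerics of `raise_step_abs(_F)` for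
  `tU` (lower level) and `tK` (upper level).
* `twP'` : the case `q = p`, `P = Pfin.erase p`.
-/

set_option autoImplicit false
set_option linter.unusedSectionVars false

noncomputable section

open AlgebraicCurve ModularCurve

namespace Fermat.Agent.ML.StepP

open Fermat.Agent.RIB Fermat.Agent.RIB.Rho Fermat.Agent.GAL Fermat.Agent.GAL.PC Fermat.Agent.ML
  Fermat.Agent.ML.TWFree Fermat.Agent.ML.ESide Fermat.Agent.ML.Lift

local notation "Qbar" => AlgebraicClosure ℚ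
local notation "GQ" => (AlgebraicClosure ℚ ≃ₐ[ℚ] AlgebraicClosure ℚ)
local notation "M₂" => Matrix (Fin 2) (Fin 2)

variable {W : WeierstrassCurve ℤ} {p : ℕ} [Fact p.Prime] {T : Finset ℕ}
  {b : Module.Basis (Fin 2) (ZMod p) (TorsW W p)} {L₀ : ℕ} [NeZero L₀] {eps : ℕ → ℤ} {eP : GQ → ℤ}

/-- a prime divisor of a cell level divides `L₀` or has been raised. -/
theorem tw_dvd_cases (X : LCtx W p T b L₀ eps eP) {P : Finset ℕ}
    (hP : P ⊆ Pfin W (rbarB b) L₀) {r : ℕ} (hr : r.Prime) (hd : r ∣ cellLevel L₀ P) :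
    r ∣ L₀ ∨ r ∈ P := by
  unfold cellLevel at hd
  rcases (Nat.Prime.dvd_mul hr).1 hd with h | h
  · exact Or.inl h
  · obtain ⟨q, hq, hrq⟩ := (Prime.dvd_finsetProd_iff hr.prime _).1 h
    have hqP := Finset.mem_of_mem_erase hq
    exact Or.inr ((Nat.prime_dvd_prime_iff_eq hr (X.prime_of_mem_Pfin (hP hqP))).1 hrq ▸ hqP)

/-- the primes of the upper level are in `T`. -/
theorem tw_mem_T (X : LCtx W p T b L₀ eps eP) {P : Finset ℕ}
    (hP : P ⊆ Pfin W (rbarB b) L₀) {q : ℕ} (hq : q ∈ Pfin W (rbarB b) L₀) {r : ℕ} (hr : r.Prime)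
    (hd : r ∣ cellLevel L₀ P * q * p) : r ∈ T := by
  have hbad : ∀ q' ∈ Pfin W (rbarB b) L₀, q' ∈ T := fun q' hq' =>
    X.hbadT q' (X.prime_of_mem_Pfin hq') (X.dvd_of_mem_Pfin hq')
  rcases (Nat.Prime.dvd_mul hr).1 hd with h | h
  · rcases (Nat.Prime.dvd_mul hr).1 h with h | h
    · rcases tw_dvd_cases X hP hr h with h | h
      · exact X.BP.levT r hr (h.mul_right p)
      · exact hbad r (hP h)
    · rw [(Nat.prime_dvd_prime_iff_eq hr (X.prime_of_mem_Pfin hq)).1 h]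
      exact hbad q hq
  · exact X.BP.levT r hr (h.mul_left L₀)

theorem tw_four_dvd (X : LCtx W p T b L₀ eps eP) (P : Finset ℕ) : 4 ∣ cellLevel L₀ P := by
  obtain ⟨M, hM, -, -⟩ := X.BP.shape
  exact (hM ▸ Dvd.intro_left M rfl : 4 ∣ L₀).mul_right _

/-- **the Taylor-Wiles block of a step**, any new prime `q ≠ 2` (`q = p` allowed). -/
theorem tw_step (X : LCtx W p T b L₀ eps eP) (t : ℕ) {P : Finset ℕ} {q : ℕ}
    (hP : P ⊆ Pfin W (rbarB b) L₀) (hq : q ∈ Pfin W (rbarB b) L₀) (hqP : q ∉ P) (hq2 : q ≠ 2) :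
    ∃ d : ℕ, ∀ (F C₀ a m n K : ℕ) (qv : Fin t → Nat.Primes),
      Frm p X.C.hp2 T W.apOfModel (rbarB b) t F C₀ a m n K qv → 1 ≤ a →
      ∀ (Lc Lc' : ℕ) [NeZero Lc] [NeZero Lc'] [NeZero q], Lc = cellLevel L₀ P →
      ∀ hL : Lc' = Lc * q,
      ∃ (D' : ℕ) (A : Fin t → ValuationSubring Qbar) (τ : Fin t → GQ),
        (∀ i, (A i).LiesOverPrime ((qv i : Nat.Primes) : ℕ)) ∧
        (∀ i, τ i ∈ (A i).inertiaSubgroupIn ℚ) ∧
        (∀ i, CycOn p (↑(cutS T qv) : Set ℕ) W.apOfModel ((A i).inertiaSubgroupIn ℚ) (τ i) (p ^ a)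
          (lvl Lc' (extP qv) t)) ∧
        Nat.card ↥(boxG p 1 τ
          (tU p (↑(cutS T qv) : Set ℕ) W.apOfModel (lvl Lc (extP qv) t) qv a)) ≤ p ^ d ∧
        Nat.card ↥(boxG p 1 τ
          (tK p (↑(cutS T qv) : Set ℕ) W.apOfModel qv a (lvl_mul_q hL qv))) ≤ p ^ D' ∧
        p ^ (D' * a ^ (t + 1)) ≤ Nat.card ↥(boxG p a τ
          (tK p (↑(cutS T qv) : Set ℕ) W.apOfModel qv a (lvl_mul_q hL qv))) := by
  have hqpr : q.Prime := X.prime_of_mem_Pfin hq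
  have hne : cellLevel L₀ P ≠ 0 := by
    unfold cellLevel
    refine mul_ne_zero (NeZero.ne L₀) (Finset.prod_ne_zero_iff.2 fun q' hq' => ?_)
    exact (X.prime_of_mem_Pfin (hP (Finset.mem_of_mem_erase hq'))).ne_zero
  have : NeZero (cellLevel L₀ P) := ⟨hne⟩
  obtain ⟨e, he⟩ := At2.exists_card_eq_pow
    (X := ↥(WS (cellLevel L₀ P) p (↑T : Set ℕ) W.apOfModel)) p
    (fun x => Subtype.ext x.2.2)
  refine ⟨2 ^ t * e, ?_⟩
  intro F C₀ a m n K qv Fr ha Lc Lc' _ _ _ hLc hL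
  subst hLc
  have h4 : 4 ∣ cellLevel L₀ P := tw_four_dvd X P
  have hqL : ¬ q ∣ cellLevel L₀ P := fun hd => by
    rcases tw_dvd_cases X hP hqpr hd with h | h
    · exact X.not_dvd_of_mem_Pfin hq hq2 h
    · exact hqP h
  have TC' : MTW p T W.apOfModel Lc' t n qv :=
    Fr.tw Lc' (fun r hr hd => tw_mem_T X hP hq hr (hL ▸ hd)) (hL ▸ h4.mul_right q)
  have TC : MTW p T W.apOfModel (cellLevel L₀ P) t n qv :=
    TC'.of_dvd (hL ▸ Dvd.intro _ rfl) h4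
  have hn := Fr.hn
  have h2a : 2 * a ≤ n + 1 := by omega
  have han : a ≤ n := by omega
  obtain ⟨A, τ, hA, hτ, hcyc, hcycl, hC'⟩ := exists_isCube_cyc X.C TC'
  have hC : IsCube p (↑(cutS T qv) : Set ℕ) W.apOfModel (cellLevel L₀ P) qv τ :=
    isCube_of_tau_q X.C TC' h4 hqpr hL hqL A τ hA hτ fun i Q => (hcyc i Q).fixed
  obtain ⟨D, hD⟩ := At2.numK_lvl X.C TC'.toMTW0 hqpr hL hqL hA hτ hC' hC
  have h1 := At2.num_lvl X.C TC.toMTW0 hA hτ hC he rfl ha h2a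
    (tU p (↑(cutS T qv) : Set ℕ) W.apOfModel (lvl (cellLevel L₀ P) (extP qv) t) qv a)
    (fun _ => mem_tU)
  have h2 := hD _ _ rfl rfl (lvl_mul_q hL qv) a ha h2a
    (tK p (↑(cutS T qv) : Set ℕ) W.apOfModel qv a (lvl_mul_q hL qv))
    (fun _ => mem_tK.trans (by tauto))
  exact ⟨D, A, τ, hA, hτ,
    fun i => (hcycl i).mono (pow_dvd_pow p (le_nuP_succ_of_le TC' han i)), h1.1, h2.1, h2.2⟩

/-- **[P02]** : the Taylor-Wiles block of the step at `p`. -/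
theorem twP' (X : LCtx W p T b L₀ eps eP) (hpP : p ∈ Pfin W (rbarB b) L₀) (t : ℕ) :
    ∃ d : ℕ, ∀ (F C₀ a m n K : ℕ) (qv : Fin t → Nat.Primes),
      Frm p X.C.hp2 T W.apOfModel (rbarB b) t F C₀ a m n K qv → 1 ≤ a →
      ∀ (Lc Lc' : ℕ) [NeZero Lc] [NeZero Lc'],
      Lc = cellLevel L₀ ((Pfin W (rbarB b) L₀).erase p) → ∀ hL : Lc' = Lc * p,
      ∃ (D' : ℕ) (A : Fin t → ValuationSubring Qbar) (τ : Fin t → GQ),
        (∀ i, (A i).LiesOverPrime ((qv i : Nat.Primes) : ℕ)) ∧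
        (∀ i, τ i ∈ (A i).inertiaSubgroupIn ℚ) ∧
        (∀ i, CycOn p (↑(cutS T qv) : Set ℕ) W.apOfModel ((A i).inertiaSubgroupIn ℚ) (τ i) (p ^ a)
          (lvl Lc' (extP qv) t)) ∧
        Nat.card ↥(boxG p 1 τ
          (tU p (↑(cutS T qv) : Set ℕ) W.apOfModel (lvl Lc (extP qv) t) qv a)) ≤ p ^ d ∧
        Nat.card ↥(boxG p 1 τ
          (tK p (↑(cutS T qv) : Set ℕ) W.apOfModel qv a (lvl_mul_q hL qv))) ≤ p ^ D' ∧
        p ^ (D' * a ^ (t + 1)) ≤ Nat.card ↥(boxG p a τ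
          (tK p (↑(cutS T qv) : Set ℕ) W.apOfModel qv a (lvl_mul_q hL qv))) := by
  obtain ⟨d, hd⟩ := tw_step X t (Finset.erase_subset p _) hpP (Finset.notMem_erase p _) X.C.hp2
  exact ⟨d, fun F C₀ a m n K qv Fr ha Lc Lc' _ _ hLc hL => hd F C₀ a m n K qv Fr ha Lc Lc' hLc hL⟩

end Fermat.Agent.ML.StepP
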