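import Fermat.Agent.ML.AtP.StepP.Defs
import Fermat.Agent.ML.AtP.StepP.Num
import Fermat.Agent.ML.AtP.StepP.Tw
import Fermat.Agent.ML.AtP.StepP.Cp
import Fermat.Agent.ML.AtP.StepP.Out
import Fermat.Agent.ML.Hard.StepAbsF
import Fermat.Agent.ML.Hard.Num
import Fermat.Agent.ML.Lift.Inst.Num
import Fermat.Agent.ML.Rho.CellTop
import Fermat.Agent.ML.Rho.TraceRing
import Fermat.Agent.ML.Lift.OfRhoK

/-!
# ML / AtP / StepP / Main : **(C-STEP-P)** from the contract `MidPStmt` of the middle block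

`stepP_of_mid : MidPStmt → StepPStmt` = `twP'` (TW block) + `LCtx.exists_topRho` + `cpP'` (the element `c_p`, (EMB)) + `MidPStmt`
+ `Hard.raise_step_abs_F` + `outP` (the new cell).
-/

set_option autoImplicit false
set_option linter.unusedSectionVars false
set_option linter.unusedVariables false

noncomputable section

open AlgebraicCurve ModularCurve MvPolynomial

namespace Fermat.Agent.ML.StepP

open Fermat.Agent.RIB Fermat.Agent.RIB.Rho Fermat.Agent.GAL Fermat.Agent.ML.ESide Fermat.Agent.S56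
  Fermat.Agent.S56.Flat Fermat.Agent.ML.TWFree Fermat.Agent.ML.Lift Fermat.Agent.ML.Hard

local notation "Qbar" => AlgebraicClosure ℚ
local notation "GQ" => (AlgebraicClosure ℚ ≃ₐ[ℚ] AlgebraicClosure ℚ)
local notation "M₂" => Matrix (Fin 2) (Fin 2)

/-! ### the middle block : model ring, (GEN), multiplier `β'`, local conditions on `β' V` at the primes raised before -/

/-- **the contract of the middle block** of the step at `p`. -/
def MidPStmt : Prop :=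
  ∀ (W : WeierstrassCurve ℤ) (p : ℕ) [Fact p.Prime] (T : Finset ℕ)
    (b : Module.Basis (Fin 2) (ZMod p) (TorsW W p)) (L₀ : ℕ) [NeZero L₀] (eps : ℕ → ℤ)
    (eP : GQ → ℤ) (X : LCtx W p T b L₀ eps eP) (t : ℕ), p ∈ Pfin W (rbarB b) L₀ →
    ∃ f₁ : ℕ, ∀ (F C₀ a m n K : ℕ) (qv : Fin t → Nat.Primes),
      Frm p X.C.hp2 T W.apOfModel (rbarB b) t F C₀ a m n K qv → 1 ≤ a →
      ∀ (Lc Lc' : ℕ) [NeZero Lc] [NeZero Lc'],
      Lc = cellLevel L₀ ((Pfin W (rbarB b) L₀).erase p) → ∀ hL : Lc' = Lc * p,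
      ∀ G : AddSubgroup (JZero (lvl Lc (extP qv) t)),
      IsCell p T W.apOfModel (rbarB b) eps eP Lc qv a ((Pfin W (rbarB b) L₀).erase p) G → G ≠ ⊥ →
      ∀ (B : Module.Basis (Fin 2) (ZMod (p ^ (K + 1))) (TorsW W (p ^ (K + 1)))),
      TopCtx W p b K B (lvl Lc' (extP qv) t)
        (tV p (↑(cutS T qv) : Set ℕ) W.apOfModel (lvl Lc' (extP qv) t) (K + 1)) →
      Fermat.Agent.ML.Rho.EK (p ^ (K + 1)) (cutS T qv) W.apOfModel (rEB B) →
      ∀ (R : Type) [CommRing R] [IsLocalRing R] [Finite R] [Algebra (ZMod (p ^ (K + 1))) R]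
        [Module R ↥(tV p (↑(cutS T qv) : Set ℕ) W.apOfModel (lvl Lc' (extP qv) t) (K + 1))]
        (πE : R →ₐ[ZMod (p ^ (K + 1))] ZMod (p ^ (K + 1))) (ρ : GQ →* M₂ R)
        (Φ : M₂ R →ₐ[R] Module.End R
          ↥(tV p (↑(cutS T qv) : Set ℕ) W.apOfModel (lvl Lc' (extP qv) t) (K + 1))),
      Fermat.Agent.ML.Rho.IsRhoK (lvl Lc' (extP qv) t) (p ^ (K + 1))
        (tV p (↑(cutS T qv) : Set ℕ) W.apOfModel (lvl Lc' (extP qv) t) (K + 1)) (rEB B) πE ρ Φ →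
      ∀ (Gt : Submodule R
          ↥(tV p (↑(cutS T qv) : Set ℕ) W.apOfModel (lvl Lc' (extP qv) t) (K + 1))),
      (∀ x, x ∈ Gt ↔ ∃ v ∈ G, upE (lvl_mul_q hL qv) 0 v = (x : JZero (lvl Lc' (extP qv) t))) →
      ∀ (s₁ : GQ), (Ap p).IsFrobeniusAt s₁ p → (rbarB b s₁).trace ^ 2 ≠ 4 * (rbarB b s₁).det →
      ∀ c : R, πE c = 0 → (∀ J : Ideal R, c ∈ J → ∃ c₀ : ℤ, (ρ s₁).trace - (c₀ : R) ∈ J) →
      ∃ (Hr σ : Type) (_ : Fintype Hr) (_ : Fintype σ) (D : Hr → ℤ) (val : PV Hr σ → R)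
        (pt : σ → ℤ) (β' : R) (Pc Pβ : MvPolynomial (PV Hr σ) ℤ),
        3 * Fintype.card Hr + Fintype.card σ ≤ t ∧
        Fintype.card Hr ≤ (Pfin W (rbarB b) L₀).card ∧
        (∀ q, Scroll (fun j => Ideal.Quotient.mk Gt.annihilator (val (Sum.inl (q, j))))
          ((((p : ℤ) * D q : ℤ)) : R ⧸ Gt.annihilator)) ∧
        (∀ x, pi0 πE (val x) = 0) ∧
        RingHom.ker (pi0 πE) ≤ Gt.annihilator ⊔ Ideal.span (Set.range val) ⊔
          Ideal.span {(p : R)} ∧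
        (∀ s, (p : ℤ) ∣ pt s) ∧
        c - aeval val Pc ∈ Gt.annihilator ∧ β' - aeval val Pβ ∈ Gt.annihilator ∧
        aeval (auxVal p Hr σ pt) Pc = 0 ∧ ¬ (p : ℤ) ^ (f₁ + 1) ∣ aeval (auxVal p Hr σ pt) Pβ ∧
        -- (OUT) : the local conditions at the primes `≠ p` on `β' V`
        ∀ G' : AddSubgroup (JZero (lvl Lc' (extP qv) t)), (∀ g : GQ, ∀ x ∈ G', g • x ∈ G') →
          (∀ x ∈ G', ∃ x₁ : ↥(tV p (↑(cutS T qv) : Set ℕ) W.apOfModel (lvl Lc' (extP qv) t) (K + 1)),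
            (x₁ : JZero (lvl Lc' (extP qv) t)) ∈
              tK p (↑(cutS T qv) : Set ℕ) W.apOfModel qv a (lvl_mul_q hL qv) ∧
            ((β' • x₁ : ↥(tV p (↑(cutS T qv) : Set ℕ) W.apOfModel (lvl Lc' (extP qv) t) (K + 1))) :
              JZero (lvl Lc' (extP qv) t)) = x) →
          (∀ q ∈ Pfin W (rbarB b) L₀, q ≠ p →
            LocSt q (eps q) (G' : Set (JZero (lvl Lc' (extP qv) t)))) ∧
          (¬ Ram (rbarB b) 2 → 2 ∉ Pfin W (rbarB b) L₀ →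
            LocUr 2 (G' : Set (JZero (lvl Lc' (extP qv) t)))) ∧
          ((Ram (rbarB b) 2 ∨ 2 ∈ Pfin W (rbarB b) L₀) →
            LocUnip 2 (G' : Set (JZero (lvl Lc' (extP qv) t))))

/-! ### the assembly -/

set_option maxHeartbeats 4000000 in
theorem stepP_of_mid (hMid : MidPStmt) : StepPStmt := by
  intro W p _ T b L₀ _ eps eP X t hpP
  have hp : p.Prime := Fact.out
  have hpΔ : (p : ℤ) ∣ W.Δ := X.dvd_of_mem_Pfin hpP
  obtain ⟨d, hTW⟩ := twP' X hpP t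
  obtain ⟨f₁, hMID⟩ := hMid W p T b L₀ eps eP X t hpP
  obtain ⟨s₁, δ, hs₁, -, hεε, hdisc, -⟩ := X.exists_s1_delta hpΔ
  refine ⟨d * f₁ + 1, d * f₁ * numK (Pfin W (rbarB b) L₀).card (p ^ d) t * d,
    fun a m n K qv hF hbig Lc' _ hLc' => ?_⟩
  obtain ⟨hins, hlev, -, -, hpT, hpqv, hpLc, hpN, hTWlow, hTWup⟩ := X.stepP_num hpP hF
  have : NeZero (cellLevel L₀ ((Pfin W (rbarB b) L₀).erase p)) :=
    ⟨X.cellLevel_ne_zero (Finset.erase_subset _ _)⟩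
  obtain ⟨G, hG, hcard⟩ := hbig (cellLevel L₀ ((Pfin W (rbarB b) L₀).erase p)) rfl
  have hL : Lc' = cellLevel L₀ ((Pfin W (rbarB b) L₀).erase p) * p := by rw [hLc', hlev]
  have hnotT := hTWlow.notT
  have ha1 : 1 ≤ a := by have := hF.ha; omega
  obtain ⟨D', A, τ, hA, hτ, hcyc, hcog, hcog', hsize'⟩ :=
    hTW _ _ a m n K qv hF ha1 _ Lc' rfl hL
  have hlevT : ∀ r : ℕ, r.Prime → r ∣ Lc' * p → r ∈ T := by rw [hLc']; exact hTWup.lev
  obtain ⟨B, hTop, hEK, R, _, _, _, _, _, πE, ρ, Φ, H⟩ := X.exists_topRho hlevT qv K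
    (tV p (↑(cutS T qv) : Set ℕ) W.apOfModel (lvl Lc' (extP qv) t) (K + 1)) tV_gal
    (fun x hx => hx.2) (fun x hx => hx.1)
  have hS : ∀ r : ℕ, r.Prime → r ∣ lvl Lc' (extP qv) t * p → r ∈ cutS T qv := fun r hr hd =>
    Fermat.Agent.ML.Rho.mem_cutS_of_dvd_lvl hlevT t hr hd
  have hS' : ∀ r : ℕ, r.Prime → r ∉ (↑(cutS T qv) : Set ℕ) → ¬ r ∣ lvl Lc' (extP qv) t * p :=
    fun r hr hrS hd => hrS (Finset.mem_coe.2 (hS r hr hd))
  obtain ⟨c, hc0, hctr, hemb⟩ :=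
    cpP' X hpΔ hF.hK hnotT (lvl_mul_q hL qv) hpN hS hTop hEK H hs₁
  have hne : ∀ i, ((qv i : Nat.Primes) : ℕ) ≠ p := fun i => (hpqv i).symm
  have haK : a ≤ K + 1 := hF.hK.trans (Nat.le_succ K)
  have hAP : NonEisAP p (↑(cutS T qv) : Set ℕ) W.apOfModel := X.C.nonEis (cutS T qv)
  have hpS : p ∈ (↑(cutS T qv) : Set ℕ) := Finset.mem_coe.2 (subset_cutS T qv hpT)
  have : Finite ↥(tV p (↑(cutS T qv) : Set ℕ) W.apOfModel (lvl Lc' (extP qv) t) (K + 1)) :=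
    finite_cellV hp (K + 1)
  -- the cell in the box
  have hGU : G ≤ boxG p a τ (tU p (↑(cutS T qv) : Set ℕ) W.apOfModel
      (lvl (cellLevel L₀ ((Pfin W (rbarB b) L₀).erase p)) (extP qv) t) qv a) := fun x hx =>
    mem_boxG_of_inBox hA hτ (mem_tU.2 ⟨hG.le hx, (hG.box x hx).1, hG.new x hx⟩) (hG.box x hx)
  have hG0 : G ≠ ⊥ := by
    rintro rfl
    have h1 : 0 < m ^ (t + 1) := lt_of_le_of_lt (Nat.zero_le _) hF.hC
    have h2 : p ^ 1 ≤ p ^ (m ^ (t + 1)) := Nat.pow_le_pow_right hp.pos h1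
    have h3 : Nat.card ↥(⊥ : AddSubgroup (JZero
      (lvl (cellLevel L₀ ((Pfin W (rbarB b) L₀).erase p)) (extP qv) t))) = 1 :=
      AddSubgroup.card_bot
    have := hp.two_le
    rw [h3] at hcard
    rw [pow_one] at h2
    omega
  have hAV : ∀ v ∈ tU p (↑(cutS T qv) : Set ℕ) W.apOfModel
      (lvl (cellLevel L₀ ((Pfin W (rbarB b) L₀).erase p)) (extP qv) t) qv a,
      upE (lvl_mul_q hL qv) 0 v ∈
        tV p (↑(cutS T qv) : Set ℕ) W.apOfModel (lvl Lc' (extP qv) t) (K + 1) := fun v hv =>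
    tU_le_tV haK (upE_mem_cellU hp hne (lvl_mul_q hL qv) hS' 0 hv)
  have hEV : ∀ v ∈ tU p (↑(cutS T qv) : Set ℕ) W.apOfModel
      (lvl (cellLevel L₀ ((Pfin W (rbarB b) L₀).erase p)) (extP qv) t) qv a,
      embE (lvl_mul_q hL qv) (eP s₁) v ∈
        tV p (↑(cutS T qv) : Set ℕ) W.apOfModel (lvl Lc' (extP qv) t) (K + 1) := fun v hv =>
    tU_le_tV haK (embE_mem_cellU hp hne (lvl_mul_q hL qv) hS' (eP s₁) hv)
  -- the middle block
  obtain ⟨Hr, σ, _, _, D, val, pt, β', Pc, Pβ, hcd, hcH, hscr, hval, hgen, hpt, hc, hβ, hxc, hxβ,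
    hout⟩ := hMID _ _ a m n K qv hF ha1 _ Lc' rfl hL G hG hG0 B hTop hEK R πE ρ Φ H
      (H.isTraceRing.mapSub G hG.gal (upE (lvl_mul_q hL qv) 0)
        (fun g v => upE_smul (lvl_mul_q hL qv) 0 g v) (fun v hv => hAV v (hGU hv).1))
      (fun x => Iff.rfl) s₁ hs₁ hdisc c hc0 hctr
  obtain ⟨-, hBd, hm, hbig'⟩ := num_step hF hcd (d := d) (e := p ^ d) (f₁ := f₁) le_rfl
    (Nat.mul_le_mul_right _ (Nat.mul_le_mul_left _ (numK_mono t hcH le_rfl))) hcard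
  -- the maximal ideal
  have hpm : (p : R) ∈ RingHom.ker (pi0 πE) := by
    rw [RingHom.mem_ker, map_natCast, ZMod.natCast_self]
  have hz : ∀ i, (ρ (τ i)).trace - 2 ∈ RingHom.ker (pi0 πE) := by
    intro i
    have hur : ¬ Ram (rbarB b) ((qv i : Nat.Primes) : ℕ) :=
      X.C.not_ram_of_occ X.BP.levT X.BP.occ (qv i).2 fun hd => hnotT i (X.BP.levT _ (qv i).2 hd)
    have h1 : rbarB b (τ i) = 1 := unram_of_not_ram hur _ (hA i) _ (hτ i)
    have h2 := hTop.lift H (τ i)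
    rw [h1] at h2
    have h3 : pi0 πE (ρ (τ i)).trace = ((ρ (τ i)).map (pi0 πE)).trace :=
      AddMonoidHom.map_trace (pi0 πE).toAddMonoidHom (ρ (τ i))
    rw [RingHom.mem_ker, map_sub, h3, h2, Matrix.trace_one, Fintype.card_fin, map_ofNat]
    simp
  obtain ⟨E₀, hE₀⟩ := Hard.exists_pow_eq_bot (RingHom.ker (pi0 πE))
    fun a ha => TopCtx.isNilpotent_of_pi0 H ha
  obtain ⟨G', hgal', hle', hcard', hβ'⟩ := raise_step_abs_F
    (M := JZero (lvl (cellLevel L₀ ((Pfin W (rbarB b) L₀).erase p)) (extP qv) t))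
    Hr σ D H.isTraceRing ha1 H.hcomm τ
    (fun i x hx => H.chi_smul (Fermat.Agent.ML.Rho.chiM_inertia hp (qv i).2 (hne i) (hA i) (hτ i)) x hx)
    (RingHom.ker (pi0 πE)) hpm (Hard.hres_of_pi0 (pi0 πE)) hz (E₀ := E₀)
    (fun s hs x => by
      rw [hE₀] at hs
      rw [(Submodule.mem_bot R).1 hs]
      exact zero_smul R x)
    (tU p (↑(cutS T qv) : Set ℕ) W.apOfModel
      (lvl (cellLevel L₀ ((Pfin W (rbarB b) L₀).erase p)) (extP qv) t) qv a) G tU_gal hG.gal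
    (fun v hv => hv.1.2) hGU (upE (lvl_mul_q hL qv) 0) (embE (lvl_mul_q hL qv) (eP s₁))
    (fun g v => upE_smul (lvl_mul_q hL qv) 0 g v) (fun g v => embE_smul (lvl_mul_q hL qv) _ g v)
    hAV hEV
    (fun v hv h0 => upE_eq_zero_cellU hp hp hpN hAP hpS (lvl_mul_q hL qv) 0 hv h0)
    (fun v hv h0 => embE_eq_zero_cellU hp hp hpN hAP hpS (lvl_mul_q hL qv) (eP s₁) hv h0)
    hcog (exists_e p d)
    (tK p (↑(cutS T qv) : Set ℕ) W.apOfModel qv a (lvl_mul_q hL qv)) tK_gal (tK_le_tV haK)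
    (fun x hx => hx.1.1.2) hcog' hsize' val hscr hval hgen pt hpt c β' Pc Pβ hc hβ hxc hxβ hBd
    hbig' (fun v hv hcv => hemb v hv _ rfl hcv) hm
  obtain ⟨hst, h2ur, h2un⟩ := hout G' hgal' fun x hx => by
    obtain ⟨x₁, h1, h2⟩ := hβ' x hx
    exact ⟨x₁, h1.1, h2⟩
  exact ⟨G', outP X hpP hnotT hTWlow.inj _ Lc' rfl hL hA hcyc G' hgal' hle' hst h2ur h2un, hcard'⟩

end Fermat.Agent.ML.StepP
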