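import Fermat.Agent.ML.Gen.StageP
import Fermat.Agent.ML.Hard.Poly
import Fermat.Agent.ML.Hard.StepGenF

/-!
# ML / AtP / StepP / MidAbs : the MIDDLE BLOCK of `Hard.raise_step_gen_F` at the step `q = p`, abstract form (pure algebra)

`R`, `π0 : R →+* ZMod p`, `ρ`, `Ann : Ideal R` (the annihilator of the stage module).

* `Hs` : the raised HARD primes : six variables `x v j`, scroll relations modulo `Ann`;
* `Fs` : the primes with ONE free variable `u v` (raised soft primes : `b_v`; the prime `2` : `u_2`; the prime `p` : `c_p`);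
  multiplier `β v`, `β v ≡ P_v(u v)` modulo `Ann`, auxiliary value `pt v`, `P_v(pt v) = Nst v`;
* a constant multiplier `β₀ ≡ N₀` modulo `Ann`.

`valP`, `polyP` : the values of the variables and the polynomial `Pβ`;  `aeval_valP_polyP`, `aeval_aux_polyP`, `hβ_polyP`;
`genP_abs` : (GEN) : the global variables, from `MCtx.gen_stage_p`.
-/

set_option autoImplicit false
set_option linter.unusedSectionVars false

noncomputable section

open ExtCitation MvPolynomial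

namespace Fermat.Agent.ML.StepP

open Fermat.Agent.RIB Fermat.Agent.S56 Fermat.Agent.S56.Gen Fermat.Agent.ML.Hard
open CFT (decomp)

/-! ### variables and polynomials -/

section Poly

variable (Hs Fs : Finset Nat.Primes) {R : Type*} [CommRing R]

/-- the values of the local variables. -/
def valP (x : Nat.Primes → Fin 6 → R) (u : Nat.Primes → R) : PV ↥Hs ↥Fs → R :=
  Sum.elim (fun z => x z.1 z.2) (fun v => u v)

@[simp] theorem valP_inl (x : Nat.Primes → Fin 6 → R) (u : Nat.Primes → R) (q : ↥Hs) (j : Fin 6) :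
    valP Hs Fs x u (Sum.inl (q, j)) = x q j := rfl

@[simp] theorem valP_inr (x : Nat.Primes → Fin 6 → R) (u : Nat.Primes → R) (v : ↥Fs) :
    valP Hs Fs x u (Sum.inr v) = u v := rfl

/-- the polynomial `Pβ`. -/
def polyP (Pv : Nat.Primes → Polynomial ℤ) (N₀ : ℤ) : MvPolynomial (PV ↥Hs ↥Fs) ℤ :=
  C N₀ * (∏ q : ↥Hs, X (Sum.inl (q, 0))) *
    ∏ v : ↥Fs, Polynomial.aeval (X (Sum.inr v) : MvPolynomial (PV ↥Hs ↥Fs) ℤ) (Pv v)

theorem aeval_polyP {A : Type*} [CommRing A] (val : PV ↥Hs ↥Fs → A)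
    (Pv : Nat.Primes → Polynomial ℤ) (N₀ : ℤ) :
    aeval val (polyP Hs Fs Pv N₀) = (N₀ : A) * (∏ q : ↥Hs, val (Sum.inl (q, 0))) *
      ∏ v : ↥Fs, Polynomial.aeval (val (Sum.inr v)) (Pv v) := by
  rw [polyP, map_mul, map_mul, map_prod, map_prod]
  congr 1
  · congr 1
    · simp
    · exact Finset.prod_congr rfl fun q _ => aeval_X _ _
  · refine Finset.prod_congr rfl fun v _ => ?_
    rw [← Polynomial.aeval_algHom_apply, aeval_X]

theorem aeval_valP_polyP (x : Nat.Primes → Fin 6 → R) (u : Nat.Primes → R)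
    (Pv : Nat.Primes → Polynomial ℤ) (N₀ : ℤ) :
    aeval (valP Hs Fs x u) (polyP Hs Fs Pv N₀) = (N₀ : R) * (∏ v ∈ Hs, x v 0) *
      ∏ v ∈ Fs, Polynomial.aeval (u v) (Pv v) := by
  rw [aeval_polyP]
  congr 1
  · congr 1
    exact Finset.prod_coe_sort Hs fun v => x v 0
  · exact Finset.prod_coe_sort Fs fun v => Polynomial.aeval (u v) (Pv v)

/-- the value of `Pβ` at the auxiliary point. -/
theorem aeval_aux_polyP (p : ℕ) (Pv : Nat.Primes → Polynomial ℤ) (N₀ : ℤ) (pt Nst : Nat.Primes → ℤ)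
    (hN : ∀ v ∈ Fs, (Pv v).eval (pt v) = Nst v) :
    aeval (auxVal p ↥Hs ↥Fs fun v => pt v) (polyP Hs Fs Pv N₀) =
      N₀ * (p : ℤ) ^ Hs.card * ∏ v ∈ Fs, Nst v := by
  rw [aeval_polyP]
  congr 1
  · congr 1
    simp
  · rw [← Finset.prod_coe_sort Fs Nst]
    refine Finset.prod_congr rfl fun v _ => ?_
    rw [auxVal_inr, ← hN v v.2, Polynomial.coe_aeval_eq_eval]

/-- **`hβ`**. -/
theorem hβ_polyP (Ann : Ideal R) (x : Nat.Primes → Fin 6 → R) (u β : Nat.Primes → R)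
    (Pv : Nat.Primes → Polynomial ℤ) (hβ : ∀ v ∈ Fs, β v - Polynomial.aeval (u v) (Pv v) ∈ Ann)
    (β₀ : R) (N₀ : ℤ) (hβ₀ : β₀ - (N₀ : R) ∈ Ann) :
    β₀ * (∏ v ∈ Hs, x v 0) * (∏ v ∈ Fs, β v) - aeval (valP Hs Fs x u) (polyP Hs Fs Pv N₀) ∈ Ann := by
  rw [aeval_valP_polyP, ← Ideal.Quotient.eq, map_mul, map_mul, map_mul, map_mul,
    map_prod (Ideal.Quotient.mk Ann) β,
    map_prod (Ideal.Quotient.mk Ann) (fun v => Polynomial.aeval (u v) (Pv v)),
    (Ideal.Quotient.eq).2 hβ₀]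
  congr 1
  exact Finset.prod_congr rfl fun v hv => (Ideal.Quotient.eq).2 (hβ v hv)

theorem range_valP_subset (x : Nat.Primes → Fin 6 → R) (u : Nat.Primes → R) (m : Ideal R)
    (hx : ∀ v ∈ Hs, ∀ j, x v j ∈ m) (hu : ∀ v ∈ Fs, u v ∈ m) (z : PV ↥Hs ↥Fs) :
    valP Hs Fs x u z ∈ m := by
  rcases z with ⟨q, j⟩ | v
  · exact hx q q.2 j
  · exact hu v v.2

end Poly

/-! ### (GEN) -/

variable {p : ℕ} [Fact p.Prime] {T : Finset ℕ} {θ : ℕ → ℤ} {rbar0 : GQ →* M2 (ZMod p)}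

/-- **(GEN) at the step `q = p`** : the global variables. -/
theorem genP_abs (C : MCtx p T θ rbar0) {t : ℕ} {qv : Fin t → Nat.Primes}
    (Wg : TWGenL p (two_ne_zero_kM C.hp2) (mapK (kM p) rbar0) (toP T) t qv)
    {R : Type} [CommRing R] {π0 : R →+* ZMod p} {ρ : GQ →* M2 R} (Ann : Ideal R)
    (hnil : IsNilpotent (RingHom.ker π0))
    (Hs Fs : Finset Nat.Primes) (hHT : Hs ⊆ toP T) (hFT : Fs ⊆ toP T) (hdisj : Disjoint Hs Fs)
    (hpF : pPrime p ∈ Fs)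
    (hwH : ∀ v ∈ Hs, Nat.card ↥(B1loc (adRep (mapK (kM p) rbar0)) v) * Nat.card (kM p) ^ 3 ≤
      Nat.card (kM p) ^ 3)
    (hwF : ∀ v ∈ Fs, v ≠ pPrime p →
      Nat.card ↥(B1loc (adRep (mapK (kM p) rbar0)) v) * Nat.card (kM p) ^ 1 ≤ Nat.card (kM p) ^ 3)
    (x : Nat.Primes → Fin 6 → R) (hx0 : ∀ v ∈ Hs, ∀ j, π0 (x v j) = 0)
    (hxs : ∀ v ∈ Hs, ∀ I : Ideal R, (∀ j, x v j ∈ I) →
      ∃ M : M2 R, IsUnit (M.map π0) ∧ ∀ σ ∈ decomp v, ConjConst ℤ (Ann ⊔ I) M (ρ σ))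
    (u : Nat.Primes → R) (hu0 : ∀ v ∈ Fs, π0 (u v) = 0)
    (hus : ∀ v ∈ Fs, v ≠ pPrime p → ∀ I : Ideal R, u v ∈ I →
      ∃ M : M2 R, IsUnit (M.map π0) ∧ ∀ σ ∈ decomp v, ConjConst ℤ (Ann ⊔ I) M (ρ σ))
    (hgenH : ∀ I : Ideal R, (∀ a ∈ I, π0 a = 0) →
      (∀ v ∈ Hs ∪ Fs.erase (pPrime p), ∃ M : M2 R, IsUnit (M.map π0) ∧
        ∀ σ ∈ decomp v, ConjConst ℤ (Ann ⊔ I) M (ρ σ)) →
      GenHypMZ p rbar0 (toP T) (Finset.univ.image qv) (Hs ∪ Fs.erase (pPrime p)) π0 ρ (Ann ⊔ I) ∧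
      ∀ φ : R →+* DualNumber (kM p), IsTan p π0 (Ann ⊔ I) φ →
        Flat.HasFlat (Flat.Ap p).valuation (Flat.matAct (Flat.Ip p) (S53.mapRep φ ρ)))
    (hred : ∃ w : Fin 2 → ZMod p, w ≠ 0 ∧
      ∀ σ ∈ decomp (pPrime p), ∃ c : ZMod p, (rbar0 σ).mulVec w = c • w)
    {σ₁ : GQ} (hσ₁ : (primeLocalPlace (pPrime p)).IsFrobeniusAt σ₁ ((pPrime p : Nat.Primes) : ℕ))
    (hdisc : (rbar0 σ₁).trace ^ 2 ≠ 4 * (rbar0 σ₁).det)
    (n : ℤ) (hcp : u (pPrime p) = (ρ σ₁).trace - (n : R)) :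
    ∃ (g : ℕ) (y : Fin g → R), (∀ i, π0 (y i) = 0) ∧
      3 * Fintype.card ↥Hs + Fintype.card ↥Fs + g ≤ t ∧
      RingHom.ker π0 ≤ Ann ⊔ Ideal.span (Set.range (valP Hs Fs x u)) ⊔ Ideal.span (Set.range y) ⊔
        Ideal.span {(p : R)} := by
  classical
  set I : Ideal R := Ideal.span (Set.range (valP Hs Fs x u)) with hI
  set Rs : Finset Nat.Primes := Hs ∪ Fs.erase (pPrime p) with hRs
  have hI0 : ∀ a ∈ I, π0 a = 0 := by
    have : I ≤ RingHom.ker π0 := by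
      refine Ideal.span_le.2 ?_
      rintro _ ⟨z, rfl⟩
      exact range_valP_subset Hs Fs x u (RingHom.ker π0) hx0 hu0 z
    exact fun a ha => this ha
  have hpH : pPrime p ∉ Hs := fun h => (Finset.disjoint_left.1 hdisj h) hpF
  have hstrict : ∀ v ∈ Rs, ∃ M : M2 R, IsUnit (M.map π0) ∧
      ∀ σ ∈ decomp v, ConjConst ℤ (Ann ⊔ I) M (ρ σ) := by
    intro v hv
    rcases Finset.mem_union.1 hv with h | h
    · exact hxs v h I fun j => Ideal.subset_span ⟨Sum.inl (⟨v, h⟩, j), rfl⟩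
    · obtain ⟨hne, hF⟩ := Finset.mem_erase.1 h
      exact hus v hF hne I (Ideal.subset_span ⟨Sum.inr ⟨v, hF⟩, rfl⟩)
  obtain ⟨Hgen, hflat⟩ := hgenH I hI0 hstrict
  have hRsT : Rs ⊆ toP T :=
    Finset.union_subset hHT ((Finset.erase_subset _ _).trans hFT)
  have hpR : pPrime p ∉ Rs := by
    intro h
    rcases Finset.mem_union.1 h with h | h
    · exact hpH h
    · exact (Finset.mem_erase.1 h).1 rfl
  set w : Nat.Primes → ℕ := fun v => if v ∈ Hs then 3 else 1 with hw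
  have hww : ∀ v ∈ Rs, Nat.card ↥(B1loc (adRep (mapK (kM p) rbar0)) v) *
      Nat.card (kM p) ^ w v ≤ Nat.card (kM p) ^ 3 := by
    intro v hv
    by_cases h : v ∈ Hs
    · have : w v = 3 := if_pos h
      rw [this]
      exact hwH v h
    · have : w v = 1 := if_neg h
      rw [this]
      rcases Finset.mem_union.1 hv with h' | h'
      · exact absurd h' h
      · exact hwF v (Finset.mem_erase.1 h').2 (Finset.mem_erase.1 h').1
  have hdisj' : Disjoint Hs (Fs.erase (pPrime p)) :=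
    Finset.disjoint_of_subset_right (Finset.erase_subset _ _) hdisj
  have hsum : ∑ v ∈ Rs, w v + 1 = 3 * Hs.card + Fs.card := by
    rw [hRs, Finset.sum_union hdisj']
    have h1 : ∑ v ∈ Hs, w v = 3 * Hs.card := by
      rw [Finset.sum_congr rfl fun v hv => (if_pos hv : w v = 3), Finset.sum_const, smul_eq_mul,
        mul_comm]
    have h2 : ∑ v ∈ Fs.erase (pPrime p), w v = (Fs.erase (pPrime p)).card := by
      rw [Finset.sum_congr rfl fun v hv =>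
        (if_neg (fun h => (Finset.disjoint_left.1 hdisj' h) hv) : w v = 1), Finset.sum_const,
        smul_eq_mul, mul_one]
    rw [h1, h2, add_assoc, Finset.card_erase_add_one hpF]
  obtain ⟨hle, y, hy0, -, hgen⟩ := C.gen_stage_p Wg hRsT hpR w hww Hgen hflat hred hσ₁ hdisc
    ⟨n, Ideal.mem_sup_right (by
      rw [← hcp]
      exact Ideal.subset_span ⟨Sum.inr ⟨pPrime p, hpF⟩, rfl⟩)⟩
  refine ⟨_, y, hy0, ?_, hgen hnil⟩
  rw [Fintype.card_coe, Fintype.card_coe]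
  omega

end Fermat.Agent.ML.StepP
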