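import Fermat.Agent.ML.AtP.StepP.OfMid
import Fermat.Agent.ML.AtP.StepP.MidCore
import Fermat.Agent.ML.Lift.Inst.GenFrame
import Fermat.Agent.ML.Hard.Poly

/-!
# ML / AtP / StepP / MidF : the contract `Hard.MidFStmt` at `q = p` is a theorem;  **(C-STEP-P)** is a theorem

* `midF_p X hpP t : Hard.MidFStmt X t (Pfin.erase p) p`   (`MidCore.mid_core_p` + the frame lemmas `StepGen.Frame.*` + `cpP'`);
* `stepPStmt_midF : StepPStmt`   (`stepP_of_midF`).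
-/

set_option autoImplicit false
set_option linter.unusedSectionVars false
set_option linter.unusedVariables false

noncomputable section

open AlgebraicCurve ModularCurve MvPolynomial

namespace Fermat.Agent.ML.StepP

open Fermat.Agent.RIB Fermat.Agent.RIB.Rho Fermat.Agent.GAL Fermat.Agent.ML.ESide Fermat.Agent.S56
  Fermat.Agent.S56.Flat Fermat.Agent.S56.Gen Fermat.Agent.ML.TWFree Fermat.Agent.ML.Lift
  Fermat.Agent.ML.Hard Fermat.Agent.ML.StepGen Fermat.Agent.ML.At2 ExtCitation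

local notation "Qbar" => AlgebraicClosure ℚ
local notation "GQ" => (AlgebraicClosure ℚ ≃ₐ[ℚ] AlgebraicClosure ℚ)
local notation "M₂" => Matrix (Fin 2) (Fin 2)

variable {W : WeierstrassCurve ℤ} {p : ℕ} [Fact p.Prime] {T : Finset ℕ}
  {b : Module.Basis (Fin 2) (ZMod p) (TorsW W p)} {L₀ : ℕ} [NeZero L₀] {eps : ℕ → ℤ} {eP : GQ → ℤ}

set_option maxHeartbeats 1000000 in
/-- **the middle block of (C-STEP-P)**, in the shape of the contract `Hard.MidFStmt`. -/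
theorem midF_p (X : LCtx W p T b L₀ eps eP) (hpP : p ∈ Pfin W (rbarB b) L₀) (t : ℕ) :
    Hard.MidFStmt X t ((Pfin W (rbarB b) L₀).erase p) p := by
  have hp : p.Prime := Fact.out
  have hpΔ : (p : ℤ) ∣ W.Δ := X.dvd_of_mem_Pfin hpP
  obtain ⟨s₁, δ, hs₁, -, hεε, hdisc, -⟩ := (X.sgnP hpΔ).exists_s1_delta X.C.hp2 b X.C.det
  obtain ⟨φ₂, hφ₂⟩ := S54.exists_isFrobeniusAt_of_liesOverPrime Nat.prime_two _
    (liesOverPrime_primeLocalPlace twoP)
  obtain ⟨f₂, hf₂⟩ := Hard.exists_not_dvd p hp _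
    (N2val_ne_zero (rbar0 := rbarB b) ((Pfin W (rbarB b) L₀).erase p) φ₂)
  have hins : insert p ((Pfin W (rbarB b) L₀).erase p) = Pfin W (rbarB b) L₀ :=
    Finset.insert_erase hpP
  have hsub : insert p ((Pfin W (rbarB b) L₀).erase p) ⊆ Pfin W (rbarB b) L₀ := by rw [hins]
  have hP : (Pfin W (rbarB b) L₀).erase p ⊆ Pfin W (rbarB b) L₀ := Finset.erase_subset _ _
  have hqP : p ∉ (Pfin W (rbarB b) L₀).erase p := Finset.notMem_erase _ _
  refine ⟨f₂ + ((Pfin W (rbarB b) L₀).erase p).card,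
    fun a m n K qv hF ha Lc Lc' _ _ _ hLc hL G hG hG0 B hTop E R _ _ _ _ iM πE ρ Φ H Gt hGt => ?_⟩
  let iM' : Module R ↥(tV p (↑(cutS T qv) : Set ℕ) W.apOfModel (lvl Lc' (extP qv) t) (K + 1)) := iM
  have hLc' : Lc' = cellLevel L₀ (insert p ((Pfin W (rbarB b) L₀).erase p)) := by
    rw [Lift.cellLevel_insert L₀ (Finset.notMem_erase _ _) X.C.hp2, hL, hLc]
  have hnotT : ∀ i, ((qv i : Nat.Primes) : ℕ) ∉ T := (X.mtw_cell_frm hF hsub hLc').notT
  have hpN : ¬ p ∣ lvl Lc (extP qv) t :=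
    X.not_dvd_lvl_cell hF (Finset.erase_subset _ _) hpP X.C.hp2 (Finset.notMem_erase _ _) hLc
  have hS : ∀ r : ℕ, r.Prime → r ∣ lvl Lc' (extP qv) t * p → r ∈ cutS T qv := fun r hr hd =>
    Fermat.Agent.ML.Rho.mem_cutS_of_dvd_lvl
      (fun r' hr' hd' => (X.cellLevel_spec hsub).1 r' hr' (hLc' ▸ hd')) t hr hd
  obtain ⟨c, hc0, hcJ, hemb⟩ := cpP' (a := a) X hpΔ hF.hK hnotT (lvl_mul_q hL qv) hpN hS hTop E H hs₁
  have hGV := Frame.hGV X hP hpP hqP X.C.hp2 hF hLc hL hG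
    (V := cellV p (↑(cutS T qv) : Set ℕ) W.apOfModel (lvl Lc' (extP qv) t) (K + 1))
    (fun _ => Iff.rfl)
  obtain ⟨β', Hr, σ, iH, iσ, D, val, pt, Pc, Pβ, h1, h3, h4, h5, h6, h7, h8, h9, h10, hout⟩ :=
    MidCore.mid_core_p X hTop H hG (upE (lvl_mul_q hL qv) 0) (fun g v => upE_smul _ 0 g v) hF.gen
      hpΔ (Frame.hlev X hP hpP hqP X.C.hp2 hF hLc hL)
      (fun v hv h0 => Frame.hinj X hP hpP hqP X.C.hp2 hF hLc hL v (hG.le hv) h0) hpN Gt
      (Frame.hYG hL hG Gt hGt) (Frame.ne_bot X hP hpP hqP X.C.hp2 hF hLc hL hG Gt hGt hG0 hGV)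
      (fun y hy => (hGt y).1 hy) hP hqP
      (fun v hv hv2 => Hard.old_level X hsub hnotT (Finset.mem_insert_of_mem hv) hv2 hLc')
      hs₁ hdisc c (by rw [pi0_apply, hc0, map_zero]) hcJ hφ₂ hf₂
  refine ⟨eP s₁, Hr, σ, iH, iσ, D, val, pt, c, β', Pc, Pβ, ⟨h1, h3, h4, h5, h6, h7, h8, h9, h10,
    fun v hv hv' hcv k => ?_, fun G' hgal hle hx => ?_⟩⟩
  · exact (hemb v hv ⟨_, hv'⟩ rfl hcv).2 k
  · obtain ⟨o1, o2, o3⟩ := hout (G' : Set (JZero (lvl Lc' (extP qv) t))) fun y hy => by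
      obtain ⟨x₁, -, e⟩ := hx y hy
      exact ⟨x₁, e⟩
    refine ⟨fun q' hq' hq'p => o1 q' ((Finset.mem_insert.1 hq').resolve_left hq'p),
      fun h2 hram => o2 hram fun h => h2 (Finset.mem_insert_of_mem h), fun hram => o3 (Or.inl hram)⟩

/-- **(C-STEP-P)** is a theorem. -/
theorem stepPStmt_midF : StepPStmt :=
  stepP_of_midF fun _ _ _ _ _ _ _ _ _ X t hpP => midF_p X hpP t


end Fermat.Agent.ML.StepP
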