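import Fermat.Agent.ML.AtP.StepP.Bridge
import Fermat.Agent.ML.AtP.StepP.OfMid
import Fermat.Agent.ML.AtP.StepP.Gen
import Fermat.Agent.ML.Hard.Mid.Abs
import Fermat.Agent.ML.Hard.Mid.Old
import Fermat.Agent.ML.Lift.Inst.GenFrame
import Fermat.Agent.ML.At2.Cell2Pol
import Fermat.Agent.ML.Hard.PolVal

/-!
# ML / AtP / StepP / MidF2 : the middle block of (C-STEP-P)  (`MidPHyp X t`), assembled from the packages

* `two_top` : the package at `2` (`At2.exists_pkg2_pol`) in the frame `TopCtx` / `IsRhoK`, vocabulary of `J₀(N')`;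
* `midPHyp` : `MidPHyp X t`  = `Hard.mid_abs_F` + `Hard.old_hard` + `Hard.old_soft` + `two_top` + `gen_cell_p`;
* `stepPStmt : StepPStmt`.
-/

set_option autoImplicit false
set_option linter.unusedSectionVars false
set_option linter.unusedVariables false

noncomputable section

open AlgebraicCurve ModularCurve

namespace Fermat.Agent.ML.StepP.MidF2

open Matrix Fermat.Agent.GAL Fermat.Agent.RIB Fermat.Agent.RIB.Rho Fermat.Agent.ML.ESide
  Fermat.Agent.ML.Rho Fermat.Agent.ML.Lift Fermat.Agent.S56 Fermat.Agent.S56.Flat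
  Fermat.Agent.S56.Gen Fermat.Agent.ML.FinGen Fermat.Agent.ML.StepGen Fermat.Agent.ML.Raise
  Fermat.Agent.ML.Hard Fermat.Agent.ML.At2 Fermat.Agent.ML.TWFree ExtCitation
open CFT (decomp)

local notation "Qbar" => AlgebraicClosure ℚ
local notation "GQ" => (AlgebraicClosure ℚ ≃ₐ[ℚ] AlgebraicClosure ℚ)
local notation "M₂" => Matrix (Fin 2) (Fin 2)

variable {W : WeierstrassCurve ℤ} {p : ℕ} [Fact p.Prime] {T : Finset ℕ}
  {b : Module.Basis (Fin 2) (ZMod p) (TorsW W p)} {L₀ : ℕ} [NeZero L₀] {eps : ℕ → ℤ}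
  {eP : GQ → ℤ} (X : LCtx W p T b L₀ eps eP) {K : ℕ}
  {N' : ℕ} [NeZero N'] {X' : AddSubgroup (JZero N')}
  {B : Module.Basis (Fin 2) (ZMod (p ^ (K + 1))) (TorsW W (p ^ (K + 1)))}
  (C : TopCtx W p b K B N' X')
  {R : Type} [CommRing R] [Algebra (ZMod (p ^ (K + 1))) R] [Module R ↥X']
  {πE : R →ₐ[ZMod (p ^ (K + 1))] ZMod (p ^ (K + 1))} {ρ : GQ →* M₂ R}
  {Φ : M₂ R →ₐ[R] Module.End R ↥X'}
  (H : Fermat.Agent.ML.Rho.IsRhoK N' (p ^ (K + 1)) X' (rEB B) πE ρ Φ)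

/-- `LocUnip` on `YS ⊇ Y` ⟹ `LocUnip` on `Y × 0 ≤ V`. -/
theorem locUnip_sub {L m : ℕ} [NeZero L] [NeZero m] {R : Type} [CommRing R] [Algebra (ZMod m) R]
    {X : AddSubgroup (JZero L)} [Module R ↥X] {rE : GQ →* M₂ (ZMod m)}
    {πE : R →ₐ[ZMod m] ZMod m} {ρ : GQ →* M₂ R} {Φ : M₂ R →ₐ[R] Module.End R ↥X}
    (H : Fermat.Agent.ML.Rho.IsRhoK L m X rE πE ρ Φ) (Y : Submodule R ↥X)
    (hYG : ∀ (g : GQ), ∀ y ∈ Y, ∀ y' : ↥X, (y' : JZero L) = g • (y : JZero L) → y' ∈ Y)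
    {YS : Set (JZero L)} (hYS : ∀ y ∈ Y, (y : JZero L) ∈ YS) {q : ℕ} (h : LocUnip q YS) :
    LocUnip q (subVJ rE πE ρ Φ Y : Set (VJ X rE πE ρ Φ)) :=
  locUnip_of_map (ofVJ X rE πE ρ Φ) (ofVJ_gal H) (subVJ rE πE ρ Φ Y).toAddSubgroup
    (smul_mem_subVJ H hYG) (ofVJ_inj_subVJ Y) (locUnip_mono h (image_subVJ_subset Y hYS))

/-- a set of points `β' • x₁` lies in the image of `β' V`. -/
theorem subset_image_range {L m : ℕ} [NeZero L] [NeZero m] {R : Type} [CommRing R]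
    [Algebra (ZMod m) R] {X : AddSubgroup (JZero L)} [Module R ↥X] {rE : GQ →* M₂ (ZMod m)}
    {πE : R →ₐ[ZMod m] ZMod m} {ρ : GQ →* M₂ R} {Φ : M₂ R →ₐ[R] Module.End R ↥X}
    {β : R} {G' : Set (JZero L)}
    (hG' : ∀ x ∈ G', ∃ x₁ : ↥X, ((β • x₁ : ↥X) : JZero L) = x) :
    G' ⊆ ofVJ X rE πE ρ Φ '' (Set.range fun y : VJ X rE πE ρ Φ => β • y) := by
  intro x hx
  obtain ⟨x₁, h2⟩ := hG' x hx
  exact ⟨β • ((x₁ : XJ X ρ Φ), (0 : EMJ rE πE)), ⟨((x₁ : XJ X ρ Φ), (0 : EMJ rE πE)), rfl⟩, h2⟩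

include X C H in
/-- **the package at `2`** in the frame `TopCtx` / `IsRhoK`. -/
theorem two_top [IsLocalRing R] [Finite R] (P : Finset ℕ)
    (hP2 : 2 ∈ P → 2 ∈ Pfin W (rbarB b) L₀) {φ : GQ}
    (hφ : (primeLocalPlace twoP).IsFrobeniusAt φ 2) :
    ∃ (k2 : ℕ) (u : Fin k2 → R) (β2 : R) (P2 : MvPolynomial (Fin k2) ℤ) (pt : Fin k2 → ℤ),
      (k2 = 1 ↔ ¬ Ram (rbarB b) 2 ∧ (2 ∈ P ∨ (rbarB b φ).trace ^ 2 = 9)) ∧ k2 ≤ 1 ∧
      (∀ j, pi0 πE (u j) = 0) ∧ (∀ j, (p : ℤ) ∣ pt j) ∧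
      MvPolynomial.aeval pt P2 = N2val (rbarB b) P φ ∧
      (∀ β' : R, β2 ∣ β' → ∀ G' : Set (JZero N'),
        (∀ y ∈ G', ∃ x₁ : ↥X', ((β' • x₁ : ↥X') : JZero N') = y) →
        (¬ Ram (rbarB b) 2 → 2 ∉ P → LocUr 2 G') ∧ (Ram (rbarB b) 2 ∨ 2 ∈ P → LocUnip 2 G') ∧
        (2 ∈ P → LocSt 2 (eps 2) G')) ∧
      ∀ (Y : Submodule R ↥X'),
        (∀ (g : GQ), ∀ y ∈ Y, ∀ y' : ↥X', (y' : JZero N') = g • (y : JZero N') → y' ∈ Y) →
        ∀ YS : Set (JZero N'), (∀ y ∈ Y, ((y : ↥X') : JZero N') ∈ YS) →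
        (¬ Ram (rbarB b) 2 → 2 ∉ P → LocUr 2 YS) → (Ram (rbarB b) 2 ∨ 2 ∈ P → LocUnip 2 YS) →
        (2 ∈ P → LocSt 2 (eps 2) YS) →
        β2 - MvPolynomial.aeval u P2 ∈ Y.annihilator ∧
        (k2 = 1 →
          Nat.card ↥(B1loc (adRep (mapK (kM p) (rbarB b))) twoP) * Nat.card (kM p) ^ 1 ≤
            Nat.card (kM p) ^ 3 ∧
          ∀ I : Ideal R, (∀ j, u j ∈ I) → ∃ M : M₂ R, IsUnit (M.map (pi0 πE)) ∧
            ∀ σ ∈ decomp twoP, ConjConst ℤ (Y.annihilator ⊔ I) M (ρ σ)) := by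
  have hp : p.Prime := Fact.out
  have h2p : (2 : ℕ) ≠ p := fun h => X.C.hp2 h.symm
  have hA2 := liesOverPrime_primeLocalPlace twoP
  have hlift := C.lift H
  have hadj : Algebra.adjoin R (Set.range ρ) = ⊤ := X.C.adjoin_range_rho' hlift
  have hloc : ∀ a : R, pi0 πE a ≠ 0 → IsUnit a := fun a ha => TopCtx.isUnit_of_pi0 H ha
  have hker : ∀ a : R, pi0 πE a = 0 → IsNilpotent a := fun a ha => TopCtx.isNilpotent_of_pi0 H ha
  obtain ⟨Nn, hNn⟩ := Hard.exists_pow_eq_bot (RingHom.ker (pi0 πE)) fun a ha => hker a ha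
  classical
  set ε₂ : ℤ := if 2 ∈ P then eps 2 else 1 with hε₂
  have hεP : 2 ∈ P → ε₂ = eps 2 := fun h => if_pos h
  have hee : 2 ∈ P → eps 2 * eps 2 = 1 := fun h => by
    rcases (X.sgn 2 Nat.prime_two h2p (X.dvd_of_mem_Pfin (hP2 h))).1 with e | e <;> rw [e] <;>
      norm_num
  have hεε : ε₂ * ε₂ = 1 := by
    by_cases h : 2 ∈ P
    · rw [hεP h]; exact hee h
    · rw [hε₂, if_neg h]; norm_num
  have hPP : 2 ∈ P → ¬ Ram (rbarB b) 2 ∧ (rbarB b φ).trace = 3 * (ε₂ : ZMod p) := by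
    intro h
    refine ⟨X.not_ram_of_mem_Pfin (hP2 h) h2p, ?_⟩
    have h1 := pi0_c_top C H Nat.prime_two h2p (hee h)
      (locSt_EM B X.sgn Nat.prime_two h2p (X.dvd_of_mem_Pfin (hP2 h))) hA2 hφ
    have e : pi0 πE (ρ φ).trace = (rbarB b φ).trace := by
      rw [← hlift φ, Matrix.trace_fin_two, Matrix.trace_fin_two, map_add]
      rfl
    rw [map_sub, e, sub_eq_zero] at h1
    rw [h1, hεP h]
    simp only [map_mul, map_add, map_intCast, map_natCast, map_one]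
    push_cast
    ring
  obtain ⟨k2, u, dl, β2, hpk, hk2, dz, P2, hdl, hN2, hpol⟩ :=
    exists_pkg2_pol (V := VJ X' (rEB B) πE ρ Φ) X.C H.rhoAct hadj (C.cont H) hlift hloc hNn
      (fun σ hσ => C.det_inertia H Nat.prime_two h2p hA2 hσ) hφ
      (by have := C.det_frob H Nat.prime_two h2p hA2 hφ; simpa using this) P ε₂ hεε hPP
  refine ⟨k2, u, β2, P2, fun j => (p : ℤ) * dz j, hk2, hpk.k2_le, hpk.pi0_u,
    fun j => Dvd.intro _ rfl, hN2, ?_, ?_⟩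
  · intro β' hβ G' hG'
    have hsub := subset_image_range (rE := rEB B) (πE := πE) (ρ := ρ) (Φ := Φ) hG'
    refine ⟨fun h1 h2 => locUr_mono (locUr_map _ (ofVJ_gal H) (hpk.out_ur h1 h2 β' hβ)) hsub,
      fun h => locUnip_mono (locUnip_map _ (ofVJ_gal H) (hpk.out_unip h β' hβ)) hsub,
      fun h => ?_⟩
    have := locSt_mono (locSt_map _ (ofVJ_gal H) (hpk.out_st h β' hβ)) hsub
    rwa [hεP h] at this
  · intro Y hYG YS hYS hur hun hst
    have hst' : 2 ∈ P → LocSt 2 ε₂ (subVJ (rEB B) πE ρ Φ Y : Set (VJ X' (rEB B) πE ρ Φ)) :=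
      fun h => by rw [hεP h]; exact locSt_subVJ H Y hYG hYS (hst h)
    have g1 := smul_mem_subVJ H hYG
    have g2 : ¬ Ram (rbarB b) 2 → 2 ∉ P →
        LocUr 2 (subVJ (rEB B) πE ρ Φ Y : Set (VJ X' (rEB B) πE ρ Φ)) :=
      fun h1 h2 => locUr_subVJ H Y hYG hYS (hur h1 h2)
    have g3 : Ram (rbarB b) 2 ∨ 2 ∈ P →
        LocUnip 2 (subVJ (rEB B) πE ρ Φ Y : Set (VJ X' (rEB B) πE ρ Φ)) :=
      fun h => locUnip_sub H Y hYG hYS (hun h)
    refine ⟨by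
      have := hpol (subVJ (rEB B) πE ρ Φ Y) g1 g2 g3 hst'
      rwa [annihilator_subVJ] at this, fun hk => ?_⟩
    rcases hpk.gen (subVJ (rEB B) πE ρ Φ Y) g1 g2 g3 hst' with ⟨h0, -⟩ | ⟨-, hw, hs⟩
    · omega
    · refine ⟨hw, fun I hI => ?_⟩
      have := hs I hI
      rwa [annihilator_subVJ] at this

/-- a polynomial in one variable, from `MvPolynomial (Fin 1)`. -/
theorem aeval_one_var {A : Type*} [CommRing A] (x : Fin 1 → A) (P2 : MvPolynomial (Fin 1) ℤ) :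
    Polynomial.aeval (x 0)
      (MvPolynomial.aeval (fun _ : Fin 1 => (Polynomial.X : Polynomial ℤ)) P2) =
      MvPolynomial.aeval x P2 := by
  rw [MvPolynomial.comp_aeval_apply]
  congr 2
  funext j
  rw [Polynomial.aeval_X, Subsingleton.elim j 0]

/-- the package at `2` in the shape of `Hard.mid_abs_F`. -/
theorem two_split {R : Type} [CommRing R] {Yt : Type*} [AddCommGroup Yt] [Module R Yt]
    {π0 : R →+* ZMod p} {ρ : GQ →* M₂ R} (Y : Submodule R Yt) {k2 : ℕ} (hk : k2 ≤ 1)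
    (u : Fin k2 → R) (β2 : R) (P2 : MvPolynomial (Fin k2) ℤ) (pt : Fin k2 → ℤ)
    (hu : ∀ j, π0 (u j) = 0) (hpt : ∀ j, (p : ℤ) ∣ pt j) {N2 : ℤ}
    (hN : MvPolynomial.aeval pt P2 = N2) {f₂ : ℕ} (hf : ¬ (p : ℤ) ^ (f₂ + 1) ∣ N2)
    (hpol : β2 - MvPolynomial.aeval u P2 ∈ Y.annihilator)
    (hst : k2 = 1 → ∀ I : Ideal R, (∀ j, u j ∈ I) → ∃ M : M₂ R, IsUnit (M.map π0) ∧
      ∀ σ ∈ decomp twoP, ConjConst ℤ (Y.annihilator ⊔ I) M (ρ σ)) :
    ∃ (R2 : Finset Nat.Primes) (u2 be2 : R) (Q2 : Polynomial ℤ) (pt2 : ℤ) (be0 : R) (N0 : ℤ)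
      (f0 f2 : ℕ), (R2 = if k2 = 1 then {twoP} else ∅) ∧
      (∀ v ∈ R2, PkgOne p π0 ρ Y v u2 be2 Q2 pt2 f2) ∧
      be0 - (N0 : R) ∈ Y.annihilator ∧ ¬ (p : ℤ) ^ (f0 + 1) ∣ N0 ∧ f0 + ∑ _v ∈ R2, f2 = f₂ ∧
      ∀ β' : R, be0 ∣ β' → (∀ v ∈ R2, be2 ∣ β') → β2 ∣ β' := by
  have hp : p.Prime := Fact.out
  obtain rfl | rfl : k2 = 0 ∨ k2 = 1 := by omega
  · refine ⟨∅, 0, 1, 0, 0, β2, N2, f₂, 0, by simp, by simp, ?_, hf, by simp, fun β' h _ => h⟩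
    have h1 := Hard.aeval_sub_mem Y.annihilator u pt (fun j => j.elim0) P2
    rw [hN] at h1
    have := Y.annihilator.add_mem hpol h1
    rwa [sub_add_sub_cancel] at this
  · refine ⟨{twoP}, u 0, β2,
      MvPolynomial.aeval (fun _ : Fin 1 => (Polynomial.X : Polynomial ℤ)) P2, pt 0, 1, 1, 0, f₂,
      by simp, ?_, by simp, ?_, by simp, fun β' _ h => h twoP (Finset.mem_singleton_self _)⟩
    · intro v hv
      rw [Finset.mem_singleton.1 hv]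
      refine ⟨hu 0, fun I hI => hst rfl I fun j => by rw [Subsingleton.elim j 0]; exact hI, ?_,
        hpt 0, ?_⟩
      · rw [aeval_one_var]; exact hpol
      · rw [← Polynomial.coe_aeval_eq_eval, aeval_one_var, hN]; exact hf
    · rw [zero_add, pow_one]
      intro h
      have := Int.isUnit_iff.1 (isUnit_of_dvd_one h)
      have h2 : (2 : ℤ) ≤ p := by exact_mod_cast hp.two_le
      omega

set_option maxHeartbeats 1600000 in
/-- **the middle block of (C-STEP-P).** -/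
theorem midPHyp (X : LCtx W p T b L₀ eps eP) (hpP : p ∈ Pfin W (rbarB b) L₀) (t : ℕ) :
    MidPHyp X t := by
  classical
  have hp : p.Prime := Fact.out
  have hp2 : p ≠ 2 := X.C.hp2
  have h2p : (2 : ℕ) ≠ p := fun h => hp2 h.symm
  have hpΔ : (p : ℤ) ∣ W.Δ := X.dvd_of_mem_Pfin hpP
  set Pf := Pfin W (rbarB b) L₀ with hPf
  set P := Pf.erase p with hPdef
  have hPsub : P ⊆ Pf := Finset.erase_subset _ _
  have hqP : p ∉ P := Finset.notMem_erase _ _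
  have hins : insert p P = Pf := Finset.insert_erase hpP
  obtain ⟨φ₂, hφ₂⟩ := S54.exists_isFrobeniusAt_of_liesOverPrime twoP.2 _
    (liesOverPrime_primeLocalPlace twoP)
  obtain ⟨f₂, hf₂⟩ := Hard.exists_not_dvd p hp (N2val (rbarB b) P φ₂) (N2val_ne_zero P φ₂)
  -- the static sets of primes
  set Hs : Finset Nat.Primes := (toP T).filter fun v =>
    (v : ℕ) ∈ P ∧ (v : ℕ) ≠ 2 ∧ FrobScalar (rbarB b) (v : ℕ) with hHs
  set S1 : Finset Nat.Primes := (toP T).filter fun v =>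
    (v : ℕ) ∈ P ∧ (v : ℕ) ≠ 2 ∧ ¬ FrobScalar (rbarB b) (v : ℕ) with hS1
  refine ⟨f₂ + Hs.card + S1.card, fun F C₀ a m n K qv hF ha Lc Lc' _ _ hLc hL G hG hG0 B hTop E R
    _ _ _ _ _ πE ρ Φ H Gt hGt s₁ hs₁ hdisc c hc0 hcJ => ?_⟩
  -- the frame
  have hLc' : Lc' = cellLevel L₀ (insert p P) := by
    rw [cellLevel_insert L₀ hp2 hqP, hL, hLc]
  have hnotT : ∀ i, ((qv i : Nat.Primes) : ℕ) ∉ T :=
    (Frame.mtw' X hPsub hpP hqP hp2 hF hLc hL).notT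
  have hlev := Frame.hlev X hPsub hpP hqP hp2 hF hLc hL
  have hpN : ¬ p ∣ lvl Lc (extP qv) t := Frame.hqN X hPsub hpP hqP hp2 hF hLc
  set u : JZero (lvl Lc (extP qv) t) →+ JZero (lvl Lc' (extP qv) t) :=
    upE (lvl_mul_q hL qv) 0 with hu_def
  have hu : ∀ (g : GQ) v, u (g • v) = g • u v := fun g v => upE_smul _ 0 g v
  have hinj : ∀ v ∈ G, u v = 0 → v = 0 := fun v hv =>
    Frame.hinj X hPsub hpP hqP hp2 hF hLc hL v (hG.le hv)
  have hYG := Frame.hYG hL hG Gt hGt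
  have hGV := Frame.hGV X hPsub hpP hqP hp2 hF hLc hL hG
    (V := tV p (↑(cutS T qv) : Set ℕ) W.apOfModel (lvl Lc' (extP qv) t) (K + 1)) (K := K)
    (fun _ => Iff.rfl)
  have hY0 : Gt ≠ ⊥ := Frame.ne_bot X hPsub hpP hqP hp2 hF hLc hL hG Gt hGt hG0 hGV
  have hYS : ∀ y ∈ Gt, ∃ v ∈ G, u v = (y : JZero (lvl Lc' (extP qv) t)) := fun y hy =>
    (hGt y).1 hy
  have hYS' : ∀ y ∈ Gt, (y : JZero (lvl Lc' (extP qv) t)) ∈
      u '' (G : Set (JZero (lvl Lc (extP qv) t))) := fun y hy => by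
    obtain ⟨v, hv, e⟩ := hYS y hy
    exact ⟨v, hv, e⟩
  set π0 : R →+* ZMod p := pi0 πE with hπ0
  -- the old primes
  have hmemH : ∀ v ∈ Hs, (v : ℕ) ∈ P ∧ (v : ℕ) ≠ 2 ∧ FrobScalar (rbarB b) (v : ℕ) :=
    fun v hv => (Finset.mem_filter.1 hv).2
  have hmemS : ∀ v ∈ S1, (v : ℕ) ∈ P ∧ (v : ℕ) ≠ 2 ∧ ¬ FrobScalar (rbarB b) (v : ℕ) :=
    fun v hv => (Finset.mem_filter.1 hv).2
  have hneP : ∀ v : ℕ, v ∈ P → v ≠ p := fun v hv => (Finset.mem_erase.1 hv).1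
  have hlvl : ∀ v : ℕ, v ∈ P → v ≠ 2 →
      (∃ M : ℕ, lvl Lc' (extP qv) t = M * v ∧ ¬ v ∣ M ∧ (4 ∣ M ∨ 9 ∣ M)) ∧
        ¬ v ^ 2 ∣ lvl Lc' (extP qv) t := fun v hv hv2 =>
    old_level X (P' := insert p P) (by rw [hins]) hnotT (Finset.mem_insert_of_mem hv) hv2 hLc'
  have hH : ∀ v ∈ Hs, ∃ (x : Fin 6 → R) (D : ℤ), PkgHard p π0 ρ Gt v x D ∧
      Nat.card ↥(B1loc (adRep (mapK (kM p) (rbarB b))) v) * Nat.card (kM p) ^ 3 ≤
        Nat.card (kM p) ^ 3 ∧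
      ∀ β' : R, x 0 ∣ β' → ∀ G' : Set (JZero (lvl Lc' (extP qv) t)),
        (∀ y ∈ G', ∃ x₁ : ↥(tV p (↑(cutS T qv) : Set ℕ) W.apOfModel (lvl Lc' (extP qv) t) (K + 1)),
          ((β' • x₁ : ↥(tV p (↑(cutS T qv) : Set ℕ) W.apOfModel (lvl Lc' (extP qv) t) (K + 1))) :
            JZero (lvl Lc' (extP qv) t)) = y) →
        LocSt (v : ℕ) (eps (v : ℕ)) G' ∧ LocUnip (v : ℕ) G' := by
    intro v hv
    obtain ⟨hvP, hv2, hs⟩ := hmemH v hv
    obtain ⟨⟨M, hM, hvM, h49⟩, -⟩ := hlvl v hvP hv2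
    obtain ⟨x, D, h1, h2, h3, h4, h5⟩ := old_hard X hTop H hG u hu Gt hYG hYS v hvP (hPsub hvP)
      (hneP v hvP) hs hM hvM h49
    exact ⟨x, D, ⟨h1, h2, h3⟩, h4, h5⟩
  have hS : ∀ v ∈ S1, ∃ bv : R, PkgOne p π0 ρ Gt v bv bv Polynomial.X (p : ℤ) 1 ∧
      Nat.card ↥(B1loc (adRep (mapK (kM p) (rbarB b))) v) * Nat.card (kM p) ^ 1 ≤
        Nat.card (kM p) ^ 3 ∧
      ∀ β' : R, bv ∣ β' → ∀ G' : Set (JZero (lvl Lc' (extP qv) t)),
        (∀ y ∈ G', ∃ x₁ : ↥(tV p (↑(cutS T qv) : Set ℕ) W.apOfModel (lvl Lc' (extP qv) t) (K + 1)),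
          ((β' • x₁ : ↥(tV p (↑(cutS T qv) : Set ℕ) W.apOfModel (lvl Lc' (extP qv) t) (K + 1))) :
            JZero (lvl Lc' (extP qv) t)) = y) →
        LocSt (v : ℕ) (eps (v : ℕ)) G' ∧ LocUnip (v : ℕ) G' := by
    intro v hv
    obtain ⟨hvP, hv2, hns⟩ := hmemS v hv
    obtain ⟨bv, h1, h2, h3, h4⟩ := old_soft X hTop H hG u hu Gt hYG hYS v hvP (hPsub hvP)
      (hneP v hvP) (frobNonScalar_of_not v.2 (X.not_ram_of_mem_Pfin (hPsub hvP) (hneP v hvP)) hns)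
      (hlvl v hvP hv2).2
    refine ⟨bv, ⟨h1, h2, ?_, dvd_rfl, ?_⟩, h3, h4⟩
    · rw [Polynomial.aeval_X, sub_self]; exact Gt.annihilator.zero_mem
    · rw [Polynomial.eval_X]
      have := mid_not_pow_succ_dvd hp 1
      rwa [pow_one] at this
  choose! xv Dv hxv using hH
  choose! bS hbS using hS
  -- the prime `2`
  obtain ⟨k2, u2, β2, P2, pt2, hk2, hk2le, hu2, hpt2, hN2, hout2, hin2⟩ :=
    two_top X hTop H P (fun h => hPsub h) hφ₂
  have h2T : (2 : ℕ) ∈ T := X.BP.levT 2 Nat.prime_two (Dvd.dvd.mul_right X.two_dvd p)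
  obtain ⟨hpol2, hst2⟩ := hin2 Gt hYG (u '' (G : Set (JZero (lvl Lc (extP qv) t)))) hYS'
    (fun h1 h2 => locUr_map u hu (hG.ur 2 Nat.prime_two h2T h2 h2p h1))
    (fun h => locUnip_map u hu (h.elim (fun h => hG.unip 2 Nat.prime_two h2p h)
      (fun h => (hG.st 2 h h2p).2)))
    (fun h => locSt_map u hu (hG.st 2 h h2p).1)
  obtain ⟨R2, v2, be2, Q2, q2, be0, N0, f0, f2, hR2, hpk2, hbe0, hN0, hf0, hdiv2⟩ :=
    two_split (ρ := ρ) Gt hk2le u2 β2 P2 pt2 hu2 hpt2 hN2 hf₂ hpol2 (fun h => (hst2 h).2)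
  have hR2mem : ∀ v ∈ R2, v = twoP ∧ k2 = 1 := by
    intro v hv
    rw [hR2] at hv
    by_cases hk : k2 = 1
    · rw [if_pos hk] at hv
      exact ⟨Finset.mem_singleton.1 hv, hk⟩
    · rw [if_neg hk] at hv
      exact absurd hv (Finset.notMem_empty _)
  have h2S : twoP ∉ S1 := fun h => (hmemS twoP h).2.1 rfl
  have h2H : twoP ∉ Hs := fun h => (hmemH twoP h).2.1 rfl
  have hdS2 : Disjoint S1 R2 := Finset.disjoint_left.2 fun v hv hv' =>
    h2S ((hR2mem v hv').1 ▸ hv)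
  set R1 : Finset Nat.Primes := S1 ∪ R2 with hR1
  set u1 : Nat.Primes → R := fun v => if v = twoP then v2 else bS v with hu1
  set be1 : Nat.Primes → R := fun v => if v = twoP then be2 else bS v with hbe1
  set P1 : Nat.Primes → Polynomial ℤ := fun v => if v = twoP then Q2 else Polynomial.X with hP1
  set ptv : Nat.Primes → ℤ := fun v => if v = twoP then q2 else (p : ℤ) with hptv
  set fv : Nat.Primes → ℕ := fun v => if v = twoP then f2 else 1 with hfv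
  have hneS : ∀ v ∈ S1, v ≠ twoP := fun v hv h => h2S (h ▸ hv)
  have pkg1 : ∀ v ∈ R1, PkgOne p π0 ρ Gt v (u1 v) (be1 v) (P1 v) (ptv v) (fv v) := by
    intro v hv
    rcases Finset.mem_union.1 hv with h | h
    · have hne := hneS v h
      simp only [hu1, hbe1, hP1, hptv, hfv, if_neg hne]
      exact (hbS v h).1
    · have he := (hR2mem v h).1
      simp only [hu1, hbe1, hP1, hptv, hfv, if_pos he]
      exact hpk2 v h
  have pkgH : ∀ v ∈ Hs, PkgHard p π0 ρ Gt v (xv v) (Dv v) := fun v hv => (hxv v hv).1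
  have hdRH : Disjoint R1 Hs := by
    refine Finset.disjoint_left.2 fun v hv hv' => ?_
    rcases Finset.mem_union.1 hv with h | h
    · exact (hmemS v h).2.2 (hmemH v hv').2.2
    · exact h2H ((hR2mem v h).1 ▸ hv')
  have hc0' : π0 c = 0 := by rw [hπ0, pi0_apply, hc0, map_zero]
  -- (GEN)
  have hgen : ∀ I : Ideal R, (∀ a ∈ I, π0 a = 0) → (∀ v ∈ R1, u1 v ∈ I) →
      (∀ v ∈ Hs, ∀ j, xv v j ∈ I) → (∀ j : Fin 1, (fun _ : Fin 1 => c) j ∈ I) →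
      ∃ (g : ℕ) (x : Fin g → R), R1.card + 3 * Hs.card + 1 + g ≤ t ∧ (∀ i, π0 (x i) = 0) ∧
        RingHom.ker π0 ≤ Gt.annihilator ⊔ I ⊔ Ideal.span (Set.range x) ⊔ Ideal.span {(p : R)} := by
    intro I hI h1 hHI hcI
    obtain ⟨n₀, hn₀⟩ := hcJ I (hcI 0)
    set w : Nat.Primes → ℕ := fun v => if v ∈ Hs then 3 else 1 with hw
    have hsum : ∑ v ∈ R1 ∪ Hs, w v = R1.card + 3 * Hs.card := by
      rw [Finset.sum_union hdRH]
      have e1 : ∑ v ∈ R1, w v = R1.card := by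
        rw [Finset.sum_congr rfl fun v hv =>
          (if_neg (fun h => (Finset.disjoint_left.1 hdRH) hv h) : w v = 1)]
        simp
      have e2 : ∑ v ∈ Hs, w v = 3 * Hs.card := by
        rw [Finset.sum_congr rfl fun v hv => (if_pos hv : w v = 3)]
        simp [mul_comm]
      rw [e1, e2]
    have k1 : R1 ∪ Hs ⊆ toP T := by
      intro v hv
      rcases Finset.mem_union.1 hv with h | h
      · rcases Finset.mem_union.1 h with h | h
        · exact (Finset.mem_filter.1 h).1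
        · rw [(hR2mem v h).1]; exact mem_toP.2 h2T
      · exact (Finset.mem_filter.1 h).1
    have k2' : pPrime p ∉ R1 ∪ Hs := by
      intro hv
      rcases Finset.mem_union.1 hv with h | h
      · rcases Finset.mem_union.1 h with h | h
        · exact hneP _ (hmemS _ h).1 rfl
        · exact hp2 (congrArg (fun v : Nat.Primes => (v : ℕ)) (hR2mem _ h).1)
      · exact hneP _ (hmemH _ h).1 rfl
    have k3 : ∀ v ∈ toP T, v ∉ R1 ∪ Hs → v ≠ pPrime p → (v : ℕ) ∈ P →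
        Ram (rbarB b) (v : ℕ) := by
      intro v hvT hvR _ hvP
      exfalso
      apply hvR
      by_cases hv2 : (v : ℕ) = 2
      · have hv2' : v = twoP := Subtype.ext hv2
        have hk : k2 = 1 := hk2.2 ⟨X.not_ram_of_mem_Pfin (hPsub (hv2 ▸ hvP)) h2p,
          Or.inl (hv2 ▸ hvP)⟩
        refine Finset.mem_union_left _ (Finset.mem_union_right _ ?_)
        rw [hR2, if_pos hk, hv2']
        exact Finset.mem_singleton_self _
      · by_cases hs : FrobScalar (rbarB b) (v : ℕ)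
        · exact Finset.mem_union_right _ (Finset.mem_filter.2 ⟨hvT, hvP, hv2, hs⟩)
        · exact Finset.mem_union_left _ (Finset.mem_union_left _
            (Finset.mem_filter.2 ⟨hvT, hvP, hv2, hs⟩))
    have k4 : ∀ v ∈ R1 ∪ Hs, Nat.card ↥(B1loc (adRep (mapK (kM p) (rbarB b))) v) *
        Nat.card (kM p) ^ w v ≤ Nat.card (kM p) ^ 3 := by
      intro v hv
      by_cases hvH : v ∈ Hs
      · have : w v = 3 := if_pos hvH
        rw [this]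
        exact (hxv v hvH).2.1
      · have : w v = 1 := if_neg hvH
        rw [this]
        rcases Finset.mem_union.1 hv with h | h
        · rcases Finset.mem_union.1 h with h | h
          · exact (hbS v h).2.1
          · rw [(hR2mem v h).1]; exact (hst2 (hR2mem v h).2).1
        · exact absurd h hvH
    have k5 : ∀ v ∈ R1 ∪ Hs, ∃ M : M₂ R, IsUnit (M.map (pi0 πE)) ∧
        ∀ σ ∈ CFT.decomp v, ConjConst ℤ (Gt.annihilator ⊔ I) M (ρ σ) := by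
      intro v hv
      rcases Finset.mem_union.1 hv with h | h
      · exact (pkg1 v h).strict I (h1 v h)
      · exact (pkgH v h).strict I (hHI v h)
    obtain ⟨hle, x, hx, hg⟩ := gen_cell_p X hTop H hG u hu hF.gen hpΔ hlev hinj hpN Gt hYG hY0 hYS
      (R1 ∪ Hs) k1 k2' k3 w k4 I hI k5 hs₁ hdisc n₀ hn₀
    refine ⟨_, x, ?_, hx, hg⟩
    rw [hsum] at hle ⊢
    omega
  obtain ⟨σ, iσ, val, pt, Pc, Pβ, h1, h2, h3, h4, h5, h6, h7, h8, h9⟩ :=
    mid_abs_F (t := t) Gt R1 Hs u1 be1 P1 ptv fv pkg1 xv Dv pkgH be0 N0 f0 hbe0 hN0 1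
      (fun _ => c) (fun _ => hc0') hgen c (MvPolynomial.X 0)
      (by rw [MvPolynomial.aeval_X, sub_self]; exact Gt.annihilator.zero_mem)
      (by rw [MvPolynomial.aeval_X])
  have hfsum : f0 + Hs.card + ∑ v ∈ R1, fv v = f₂ + Hs.card + S1.card := by
    rw [hR1, Finset.sum_union hdS2]
    have e1 : ∑ v ∈ S1, fv v = S1.card := by
      rw [Finset.sum_congr rfl fun v hv => (if_neg (hneS v hv) : fv v = 1)]
      simp
    have e2 : ∑ v ∈ R2, fv v = ∑ _v ∈ R2, f2 :=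
      Finset.sum_congr rfl fun v hv => if_pos (hR2mem v hv).1
    rw [e1, e2]
    omega
  refine ⟨↥Hs, σ, inferInstance, iσ, fun r => Dv r, val, pt,
    be0 * (∏ v ∈ Hs, xv v 0) * (∏ v ∈ R1, be1 v), Pc, Pβ, h1, ?_, h2, h3, h4, h5, h6, h7, h8,
    by rw [← hfsum]; exact h9, ?_⟩
  · rw [Fintype.card_coe]
    exact Finset.card_le_card_of_injOn (fun v : Nat.Primes => (v : ℕ))
      (fun v hv => hPsub (hmemH v hv).1) (fun a _ b _ h => Subtype.ext h)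
  · intro G' hgal hx
    set β' : R := be0 * (∏ v ∈ Hs, xv v 0) * (∏ v ∈ R1, be1 v) with hβ'
    have hG'' : ∀ y ∈ (G' : Set (JZero (lvl Lc' (extP qv) t))),
        ∃ x₁ : ↥(tV p (↑(cutS T qv) : Set ℕ) W.apOfModel (lvl Lc' (extP qv) t) (K + 1)),
          ((β' • x₁ : ↥(tV p (↑(cutS T qv) : Set ℕ) W.apOfModel (lvl Lc' (extP qv) t) (K + 1))) :
            JZero (lvl Lc' (extP qv) t)) = y := fun y hy => by
      obtain ⟨x₁, -, e⟩ := hx y hy
      exact ⟨x₁, e⟩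
    have hd0 : be0 ∣ β' := Dvd.dvd.mul_right (Dvd.intro _ rfl) _
    have hdH : ∀ v ∈ Hs, xv v 0 ∣ β' := fun v hv =>
      Dvd.dvd.mul_right (Dvd.dvd.mul_left (Finset.dvd_prod_of_mem (fun v => xv v 0) hv) _) _
    have hd1 : ∀ v ∈ R1, be1 v ∣ β' := fun v hv =>
      Dvd.dvd.mul_left (Finset.dvd_prod_of_mem be1 hv) _
    have hd2 : β2 ∣ β' := hdiv2 β' hd0 fun v hv => by
      have := hd1 v (Finset.mem_union_right _ hv)
      simpa only [hbe1, if_pos (hR2mem v hv).1] using this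
    obtain ⟨o1, o2, o3⟩ := hout2 β' hd2 G' hG''
    refine ⟨fun q hq hqp => ?_, fun h1 h2 => o1 h1 (fun h => h2 (hPsub h)),
      fun h => o2 (h.imp id fun h => Finset.mem_erase.2 ⟨h2p, h⟩)⟩
    have hqP' : q ∈ P := Finset.mem_erase.2 ⟨hqp, hq⟩
    by_cases hq2 : q = 2
    · subst hq2
      exact o3 hqP'
    · have hqpr := X.prime_of_mem_Pfin hq
      have hqT : (⟨q, hqpr⟩ : Nat.Primes) ∈ toP T :=
        mem_toP.2 (X.hbadT q hqpr (X.dvd_of_mem_Pfin hq))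
      by_cases hs : FrobScalar (rbarB b) q
      · have hv : (⟨q, hqpr⟩ : Nat.Primes) ∈ Hs := Finset.mem_filter.2 ⟨hqT, hqP', hq2, hs⟩
        exact ((hxv _ hv).2.2 β' (hdH _ hv) G' hG'').1
      · have hv : (⟨q, hqpr⟩ : Nat.Primes) ∈ S1 := Finset.mem_filter.2 ⟨hqT, hqP', hq2, hs⟩
        have hd := hd1 _ (Finset.mem_union_left _ hv)
        simp only [hbe1, if_neg (hneS _ hv)] at hd
        exact ((hbS _ hv).2.2 β' hd G' hG'').1

/-- **(C-STEP-P)**. -/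
theorem stepPStmt : StepPStmt :=
  stepP_of_midPHyp fun _ _ _ _ _ _ _ _ _ X t hpP => midPHyp X hpP t

end Fermat.Agent.ML.StepP.MidF2
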