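import Fermat.Agent.ML.AtP.StepP.Gen
import Fermat.Agent.ML.Hard.Mid.Abs

/-!
# ML / AtP / StepP / MidGen : the hypothesis `hgen` of `Hard.mid_abs_F` at the step `q = p`   ([M4] of the middle block of `StepPStmt`)

Frame of `StepP.gen_cell_p` VERBATIM.   `R1` (old primes of weight `1`, variables `uv v`), `Hs` (old hard primes, weight `3`, variables
`xv v j`), the new variable `c = c_p`.

* `MidGen.hgen_p`     : from the `strict` statements;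
* `MidGen.hgen_p_pkg` : from the packages `Hard.PkgOne`, `Hard.PkgHard`.
-/

set_option autoImplicit false
set_option linter.unusedSectionVars false

noncomputable section

open AlgebraicCurve ModularCurve

namespace Fermat.Agent.ML.StepP.MidGen

open Fermat.Agent.GAL Fermat.Agent.RIB Fermat.Agent.RIB.Rho Fermat.Agent.ML.ESide Fermat.Agent.ML.Rho
  Fermat.Agent.ML.Lift Fermat.Agent.S56 Fermat.Agent.S56.Flat Fermat.Agent.S56.Gen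
  Fermat.Agent.ML.FinGen Fermat.Agent.ML.StepGen Fermat.Agent.ML.Hard

local notation "Qbar" => AlgebraicClosure ℚ
local notation "GQ" => (AlgebraicClosure ℚ ≃ₐ[ℚ] AlgebraicClosure ℚ)
local notation "M₂" => Matrix (Fin 2) (Fin 2)

variable {W : WeierstrassCurve ℤ} {p : ℕ} [Fact p.Prime] {T : Finset ℕ}
  {b : Module.Basis (Fin 2) (ZMod p) (TorsW W p)} {L₀ : ℕ} [NeZero L₀] {eps : ℕ → ℤ}
  {eP : GQ → ℤ} (X : LCtx W p T b L₀ eps eP) {t K : ℕ} {qv : Fin t → Nat.Primes}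
  {N' : ℕ} [NeZero N'] {X' : AddSubgroup (JZero N')}
  {B : Module.Basis (Fin 2) (ZMod (p ^ (K + 1))) (TorsW W (p ^ (K + 1)))}
  (C : TopCtx W p b K B N' X')
  {R : Type} [CommRing R] [Algebra (ZMod (p ^ (K + 1))) R] [Module R ↥X']
  {πE : R →ₐ[ZMod (p ^ (K + 1))] ZMod (p ^ (K + 1))} {ρ : GQ →* M₂ R}
  {Φ : M₂ R →ₐ[R] Module.End R ↥X'}
  (H : Fermat.Agent.ML.Rho.IsRhoK N' (p ^ (K + 1)) X' (rEB B) πE ρ Φ)
  {Lc : ℕ} [NeZero Lc] {a : ℕ} {P : Finset ℕ}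
  {G : AddSubgroup (JZero (lvl Lc (extP qv) t))}
  (hG : IsCell p T W.apOfModel (rbarB b) eps eP Lc qv a P G)
  (u : JZero (lvl Lc (extP qv) t) →+ JZero N') (hu : ∀ (g : GQ) v, u (g • v) = g • u v)

include X C H hG hu in
/-- **[M4]** : `hgen` of `Hard.mid_abs_F` (`wn = 1`, `yn = fun _ => c`, `Gt = Y`) at the step `q = p`. -/
theorem hgen_p [IsLocalRing R] [Finite R]
    (F : TWGenL p (two_ne_zero_kM X.C.hp2) (mapK (kM p) (rbarB b)) (toP T) t qv)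
    (hpΔ : (p : ℤ) ∣ W.Δ)
    (hlev : ∀ q : Nat.Primes, q ∉ toP T ∪ Finset.univ.image qv → ¬ (q : ℕ) ∣ N' * p)
    (hinj : ∀ v ∈ G, u v = 0 → v = 0) (hpN : ¬ p ∣ lvl Lc (extP qv) t)
    (Y : Submodule R ↥X')
    (hYG : ∀ (g : GQ), ∀ y ∈ Y, ∀ y' : ↥X', (y' : JZero N') = g • (y : JZero N') → y' ∈ Y)
    (hY0 : Y ≠ ⊥) (hYS : ∀ y ∈ Y, ∃ v ∈ G, u v = ((y : ↥X') : JZero N'))
    (R1 Hs : Finset Nat.Primes) (hdisj : Disjoint R1 Hs) (hR1T : R1 ⊆ toP T) (hHsT : Hs ⊆ toP T)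
    (hpR1 : ExtCitation.pPrime p ∉ R1) (hpHs : ExtCitation.pPrime p ∉ Hs)
    (hRs : ∀ v ∈ toP T, v ∉ R1 → v ∉ Hs → v ≠ ExtCitation.pPrime p → (v : ℕ) ∈ P →
      Ram (rbarB b) (v : ℕ))
    (hw1 : ∀ v ∈ R1, Nat.card ↥(B1loc (adRep (mapK (kM p) (rbarB b))) v) * Nat.card (kM p) ^ 1 ≤
      Nat.card (kM p) ^ 3)
    (hw3 : ∀ v ∈ Hs, Nat.card ↥(B1loc (adRep (mapK (kM p) (rbarB b))) v) * Nat.card (kM p) ^ 3 ≤
      Nat.card (kM p) ^ 3)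
    (uv : Nat.Primes → R) (xv : Nat.Primes → Fin 6 → R)
    (hst1 : ∀ v ∈ R1, ∀ I : Ideal R, uv v ∈ I → ∃ M : M₂ R, IsUnit (M.map (pi0 πE)) ∧
      ∀ σ ∈ CFT.decomp v, ConjConst ℤ (Y.annihilator ⊔ I) M (ρ σ))
    (hst3 : ∀ v ∈ Hs, ∀ I : Ideal R, (∀ j, xv v j ∈ I) → ∃ M : M₂ R, IsUnit (M.map (pi0 πE)) ∧
      ∀ σ ∈ CFT.decomp v, ConjConst ℤ (Y.annihilator ⊔ I) M (ρ σ))
    {s₁ : GQ} (hs₁ : (Ap p).IsFrobeniusAt s₁ p)
    (hdisc : (rbarB b s₁).trace ^ 2 ≠ 4 * (rbarB b s₁).det) (c : R)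
    (hctr : ∀ J : Ideal R, c ∈ J → ∃ c₀ : ℤ, (ρ s₁).trace - (c₀ : R) ∈ J) :
    ∀ I : Ideal R, (∀ a ∈ I, pi0 πE a = 0) → (∀ v ∈ R1, uv v ∈ I) →
      (∀ v ∈ Hs, ∀ j, xv v j ∈ I) → (∀ j : Fin 1, (fun _ : Fin 1 => c) j ∈ I) →
      ∃ (g : ℕ) (x : Fin g → R), R1.card + 3 * Hs.card + 1 + g ≤ t ∧ (∀ i, pi0 πE (x i) = 0) ∧
        RingHom.ker (pi0 πE) ≤
          Y.annihilator ⊔ I ⊔ Ideal.span (Set.range x) ⊔ Ideal.span {(p : R)} := by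
  classical
  intro I hI h1 h3 hc
  obtain ⟨c₀, hc₀⟩ := hctr I (hc 0)
  set w : Nat.Primes → ℕ := fun v => if v ∈ Hs then 3 else 1 with hw
  have hsum : ∑ v ∈ R1 ∪ Hs, w v = R1.card + 3 * Hs.card := by
    rw [Finset.sum_union hdisj]
    have e1 : ∑ v ∈ R1, w v = R1.card := by
      rw [Finset.card_eq_sum_ones]
      refine Finset.sum_congr rfl fun v hv => ?_
      rw [hw]
      exact if_neg (Finset.disjoint_left.1 hdisj hv)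
    have e3 : ∑ v ∈ Hs, w v = 3 * Hs.card := by
      rw [mul_comm, ← smul_eq_mul, ← Finset.sum_const]
      refine Finset.sum_congr rfl fun v hv => ?_
      rw [hw]
      exact if_pos hv
    rw [e1, e3]
  obtain ⟨hle, x, hx, hker⟩ := gen_cell_p X C H hG u hu F hpΔ hlev hinj hpN Y hYG hY0 hYS
    (R1 ∪ Hs) (Finset.union_subset hR1T hHsT)
    (fun h => (Finset.mem_union.1 h).elim hpR1 hpHs)
    (fun v hvT hv hvp hvP => hRs v hvT (fun h => hv (Finset.mem_union_left _ h))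
      (fun h => hv (Finset.mem_union_right _ h)) hvp hvP)
    w
    (fun v hv => by
      by_cases hvH : v ∈ Hs
      · rw [hw]
        simp only [if_pos hvH]
        exact hw3 v hvH
      · rw [hw]
        simp only [if_neg hvH]
        exact hw1 v ((Finset.mem_union.1 hv).resolve_right hvH))
    I hI
    (fun v hv => by
      by_cases hvH : v ∈ Hs
      · exact hst3 v hvH I (h3 v hvH)
      · have hv1 := (Finset.mem_union.1 hv).resolve_right hvH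
        exact hst1 v hv1 I (h1 v hv1))
    hs₁ hdisc c₀ hc₀
  rw [hsum] at hle
  refine ⟨t - (∑ v ∈ R1 ∪ Hs, w v + 1), x, ?_, hx, hker⟩
  rw [hsum]
  omega

include X C H hG hu in
/-- **[M4]**, from the packages of `Hard.mid_abs_F`. -/
theorem hgen_p_pkg [IsLocalRing R] [Finite R]
    (F : TWGenL p (two_ne_zero_kM X.C.hp2) (mapK (kM p) (rbarB b)) (toP T) t qv)
    (hpΔ : (p : ℤ) ∣ W.Δ)
    (hlev : ∀ q : Nat.Primes, q ∉ toP T ∪ Finset.univ.image qv → ¬ (q : ℕ) ∣ N' * p)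
    (hinj : ∀ v ∈ G, u v = 0 → v = 0) (hpN : ¬ p ∣ lvl Lc (extP qv) t)
    (Y : Submodule R ↥X')
    (hYG : ∀ (g : GQ), ∀ y ∈ Y, ∀ y' : ↥X', (y' : JZero N') = g • (y : JZero N') → y' ∈ Y)
    (hY0 : Y ≠ ⊥) (hYS : ∀ y ∈ Y, ∃ v ∈ G, u v = ((y : ↥X') : JZero N'))
    (R1 Hs : Finset Nat.Primes) (hdisj : Disjoint R1 Hs) (hR1T : R1 ⊆ toP T) (hHsT : Hs ⊆ toP T)
    (hpR1 : ExtCitation.pPrime p ∉ R1) (hpHs : ExtCitation.pPrime p ∉ Hs)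
    (hRs : ∀ v ∈ toP T, v ∉ R1 → v ∉ Hs → v ≠ ExtCitation.pPrime p → (v : ℕ) ∈ P →
      Ram (rbarB b) (v : ℕ))
    (hw1 : ∀ v ∈ R1, Nat.card ↥(B1loc (adRep (mapK (kM p) (rbarB b))) v) * Nat.card (kM p) ^ 1 ≤
      Nat.card (kM p) ^ 3)
    (hw3 : ∀ v ∈ Hs, Nat.card ↥(B1loc (adRep (mapK (kM p) (rbarB b))) v) * Nat.card (kM p) ^ 3 ≤
      Nat.card (kM p) ^ 3)
    (uv be : Nat.Primes → R) (P1 : Nat.Primes → Polynomial ℤ) (ptv : Nat.Primes → ℤ)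
    (f : Nat.Primes → ℕ)
    (pkg1 : ∀ v ∈ R1, PkgOne p (pi0 πE) ρ Y v (uv v) (be v) (P1 v) (ptv v) (f v))
    (xv : Nat.Primes → Fin 6 → R) (Dv : Nat.Primes → ℤ)
    (pkgH : ∀ v ∈ Hs, PkgHard p (pi0 πE) ρ Y v (xv v) (Dv v))
    {s₁ : GQ} (hs₁ : (Ap p).IsFrobeniusAt s₁ p)
    (hdisc : (rbarB b s₁).trace ^ 2 ≠ 4 * (rbarB b s₁).det) (c : R)
    (hctr : ∀ J : Ideal R, c ∈ J → ∃ c₀ : ℤ, (ρ s₁).trace - (c₀ : R) ∈ J) :
    ∀ I : Ideal R, (∀ a ∈ I, pi0 πE a = 0) → (∀ v ∈ R1, uv v ∈ I) →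
      (∀ v ∈ Hs, ∀ j, xv v j ∈ I) → (∀ j : Fin 1, (fun _ : Fin 1 => c) j ∈ I) →
      ∃ (g : ℕ) (x : Fin g → R), R1.card + 3 * Hs.card + 1 + g ≤ t ∧ (∀ i, pi0 πE (x i) = 0) ∧
        RingHom.ker (pi0 πE) ≤
          Y.annihilator ⊔ I ⊔ Ideal.span (Set.range x) ⊔ Ideal.span {(p : R)} :=
  hgen_p X C H hG u hu F hpΔ hlev hinj hpN Y hYG hY0 hYS R1 Hs hdisj hR1T hHsT hpR1 hpHs hRs hw1 hw3
    uv xv (fun v hv => (pkg1 v hv).strict) (fun v hv => (pkgH v hv).strict) hs₁ hdisc c hctr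

end Fermat.Agent.ML.StepP.MidGen
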