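import Fermat.Agent.ML.Hard.Mid.Abs
import Fermat.Agent.ML.Hard.Mid.Old
import Fermat.Agent.ML.Hard.PolVal
import Fermat.Agent.ML.At2.Cell2Pol

/-!
# ML / AtP / StepP / MidOld : ALL the primes raised before the current step, in ONE statement   (the new prime does not appear)

Frame of `Hard.old_hard` / `Hard.old_soft` / `StepP.gen_cell_p` : `H : Rho.IsRhoK N' (p^(K+1)) X' (rEB B) πE ρ Φ`, `G` the cell at the lower
level (state `P`, `p ∉ P`), `u : J₀(N) →+ J₀(N')` equivariant, `Y ≤ X'` the stage module, `Y ⊆ u G`.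

* `MidM.two_frame` : helper68's `exists_pkg2_pol` in this frame : either no variable (`β2 ≡ N2val` modulo `Ann Y`, `2 ∉ P`) or a `Hard.PkgOne`
  at `twoP`; (OUT) at `2`;
* `old_block` : the data `R1 Hs u1 be P1 ptv f xv Dv be0 N0 f0` of `Hard.mid_abs_F`, the bookkeeping for (GEN), and (OUT) at all the primes of `P`
  and at `2`.
-/

set_option autoImplicit false
set_option linter.unusedSectionVars false
set_option linter.unusedVariables false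

noncomputable section

open AlgebraicCurve ModularCurve

namespace Fermat.Agent.ML.StepP

open Matrix Fermat.Agent.GAL Fermat.Agent.RIB Fermat.Agent.RIB.Rho Fermat.Agent.ML.ESide
  Fermat.Agent.ML.Rho Fermat.Agent.ML.Lift Fermat.Agent.S56 Fermat.Agent.S56.Flat
  Fermat.Agent.S56.Gen Fermat.Agent.ML.FinGen Fermat.Agent.ML.StepGen Fermat.Agent.ML.Raise
  Fermat.Agent.ML.Hard Fermat.Agent.ML.At2 ExtCitation
open CFT (decomp)

local notation "Qbar" => AlgebraicClosure ℚ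
local notation "GQ" => (AlgebraicClosure ℚ ≃ₐ[ℚ] AlgebraicClosure ℚ)
local notation "M₂" => Matrix (Fin 2) (Fin 2)

namespace MidM

/-- a polynomial in the variables `Fin 1` as a polynomial in one variable. -/
def toPoly (P2 : MvPolynomial (Fin 1) ℤ) : Polynomial ℤ :=
  MvPolynomial.aeval (fun _ => (Polynomial.X : Polynomial ℤ)) P2

theorem aeval_toPoly {A : Type*} [CommRing A] (a : Fin 1 → A) (P2 : MvPolynomial (Fin 1) ℤ) :
    Polynomial.aeval (a 0) (toPoly P2) = MvPolynomial.aeval a P2 := by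
  unfold toPoly
  rw [MvPolynomial.comp_aeval_apply]
  have e : (fun _ : Fin 1 => Polynomial.aeval (a 0) (Polynomial.X : Polynomial ℤ)) = a := by
    funext i
    rw [Polynomial.aeval_X, Subsingleton.elim i 0]
  rw [e]

section VJ

variable {L m : ℕ} [NeZero L] [NeZero m] {R : Type} [CommRing R] [Algebra (ZMod m) R]
  {X : AddSubgroup (JZero L)} [Module R ↥X] {rE : GQ →* M₂ (ZMod m)}
  {πE : R →ₐ[ZMod m] ZMod m} {ρ : GQ →* M₂ R} {Φ : M₂ R →ₐ[R] Module.End R ↥X}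

theorem locUnip_sub (H : Fermat.Agent.ML.Rho.IsRhoK L m X rE πE ρ Φ) (Y : Submodule R ↥X)
    (hYG : ∀ (g : GQ), ∀ y ∈ Y, ∀ y' : ↥X, (y' : JZero L) = g • (y : JZero L) → y' ∈ Y)
    {YS : Set (JZero L)} (hYS : ∀ y ∈ Y, (y : JZero L) ∈ YS) {q : ℕ} (h : LocUnip q YS) :
    LocUnip q (subVJ rE πE ρ Φ Y : Set (VJ X rE πE ρ Φ)) :=
  locUnip_of_map (ofVJ X rE πE ρ Φ) (ofVJ_gal H) (subVJ rE πE ρ Φ Y).toAddSubgroup
    (smul_mem_subVJ H hYG) (ofVJ_inj_subVJ Y) (locUnip_mono h (image_subVJ_subset Y hYS))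

theorem subset_range {β' : R} {G' : Set (JZero L)}
    (hG' : ∀ x ∈ G', ∃ x₁ : ↥X, ((β' • x₁ : ↥X) : JZero L) = x) :
    G' ⊆ ofVJ X rE πE ρ Φ '' (Set.range fun y : VJ X rE πE ρ Φ => β' • y) := by
  intro x hx
  obtain ⟨x₁, h⟩ := hG' x hx
  exact ⟨β' • ((x₁ : XJ X ρ Φ), (0 : EMJ rE πE)), ⟨_, rfl⟩, h⟩

end VJ

variable {W : WeierstrassCurve ℤ} {p : ℕ} [Fact p.Prime] {T : Finset ℕ}
  {b : Module.Basis (Fin 2) (ZMod p) (TorsW W p)} {L₀ : ℕ} [NeZero L₀] {eps : ℕ → ℤ}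
  {eP : GQ → ℤ} (X : LCtx W p T b L₀ eps eP) {t K : ℕ} {qv : Fin t → Nat.Primes}
  {N' : ℕ} [NeZero N'] {X' : AddSubgroup (JZero N')}
  {B : Module.Basis (Fin 2) (ZMod (p ^ (K + 1))) (TorsW W (p ^ (K + 1)))}
  (C : TopCtx W p b K B N' X')
  {R : Type} [CommRing R] [Algebra (ZMod (p ^ (K + 1))) R] [Module R ↥X']
  {πE : R →ₐ[ZMod (p ^ (K + 1))] ZMod (p ^ (K + 1))} {ρ : GQ →* M₂ R}
  {Φ : M₂ R →ₐ[R] Module.End R ↥X'}
  (H : Fermat.Agent.ML.Rho.IsRhoK N' (p ^ (K + 1)) X' (rEB B) πE ρ Φ)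

include X C H in
/-- **the prime `2`** in the frame of a step. -/
theorem two_frame [IsLocalRing R] [Finite R] {P : Finset ℕ} (hP : P ⊆ Pfin W (rbarB b) L₀)
    {φ₂ : GQ} (hφ₂ : (primeLocalPlace twoP).IsFrobeniusAt φ₂ 2) {f₂ : ℕ}
    (hf₂ : ¬ (p : ℤ) ^ (f₂ + 1) ∣ N2val (rbarB b) P φ₂)
    (Y : Submodule R ↥X')
    (hYG : ∀ (g : GQ), ∀ y ∈ Y, ∀ y' : ↥X', (y' : JZero N') = g • (y : JZero N') → y' ∈ Y)
    (YS : Set (JZero N')) (hYS : ∀ y ∈ Y, ((y : ↥X') : JZero N') ∈ YS)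
    (hur : ¬ Ram (rbarB b) 2 → 2 ∉ P → LocUr 2 YS)
    (hun : Ram (rbarB b) 2 ∨ 2 ∈ P → LocUnip 2 YS) (hst : 2 ∈ P → LocSt 2 (eps 2) YS) :
    ∃ β2 : R,
      (∀ β' : R, β2 ∣ β' → ∀ G' : Set (JZero N'),
        (∀ x ∈ G', ∃ x₁ : ↥X', ((β' • x₁ : ↥X') : JZero N') = x) →
        (2 ∈ P → LocSt 2 (eps 2) G') ∧ (Ram (rbarB b) 2 ∨ 2 ∈ P → LocUnip 2 G') ∧
        (¬ Ram (rbarB b) 2 → 2 ∉ P → LocUr 2 G')) ∧
      ((2 ∉ P ∧ β2 - ((N2val (rbarB b) P φ₂ : ℤ) : R) ∈ Y.annihilator) ∨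
       (Nat.card ↥(B1loc (adRep (mapK (kM p) (rbarB b))) twoP) * Nat.card (kM p) ^ 1 ≤
          Nat.card (kM p) ^ 3 ∧
        ∃ (u2 : R) (P1 : Polynomial ℤ) (pt : ℤ), PkgOne p (pi0 πE) ρ Y twoP u2 β2 P1 pt f₂)) := by
  classical
  have hp2 : (2 : ℕ) ≠ p := Ne.symm X.C.hp2
  have hA := liesOverPrime_primeLocalPlace twoP
  obtain ⟨ε₂, hε₂, hε₂'⟩ : ∃ ε₂ : ℤ, ε₂ * ε₂ = 1 ∧ (2 ∈ P → ε₂ = eps 2) := by
    by_cases h : 2 ∈ P
    · refine ⟨eps 2, ?_, fun _ => rfl⟩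
      rcases (X.sgn 2 Nat.prime_two hp2 (X.dvd_of_mem_Pfin (hP h))).1 with e | e <;> rw [e] <;>
        norm_num
    · exact ⟨1, one_mul 1, fun h' => absurd h' h⟩
  obtain ⟨n, hn⟩ := exists_pow_eq_bot (RingHom.ker (pi0 πE))
    (fun x hx => TopCtx.isNilpotent_of_pi0 H ((RingHom.mem_ker).1 hx))
  have hdetF : (ρ φ₂).det = 2 := by
    have := C.det_frob H Nat.prime_two hp2 hA hφ₂
    rw [this]
    norm_num
  have htr : pi0 πE (ρ φ₂).trace = (rbarB b φ₂).trace := by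
    rw [← C.lift H φ₂, Matrix.trace_fin_two, Matrix.trace_fin_two, map_add]
    rfl
  obtain ⟨k2, u, dl, β2, hPk, hk2, hpol⟩ := exists_pkg2_pol (V := VJ X' (rEB B) πE ρ Φ) X.C H.rhoAct
    (X.C.adjoin_range_rho' (C.lift H)) (C.cont H) (C.lift H)
    (fun a h => TopCtx.isUnit_of_pi0 H h) hn
    (fun σ hσ => C.det_inertia H Nat.prime_two hp2 hA hσ) hφ₂ hdetF P ε₂ hε₂ (fun h2 => by
      refine ⟨X.not_ram_of_mem_Pfin (hP h2) hp2, ?_⟩
      have h := pi0_c_top C H Nat.prime_two hp2 hε₂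
        (by rw [hε₂' h2]; exact locSt_EM B X.sgn Nat.prime_two hp2 (X.dvd_of_mem_Pfin (hP h2)))
        hA hφ₂
      rw [map_sub, htr, sub_eq_zero] at h
      rw [h, map_mul, map_add, map_one, map_natCast, map_intCast]
      push_cast
      ring)
  set Yt : Submodule R (VJ X' (rEB B) πE ρ Φ) := subVJ (rEB B) πE ρ Φ Y with hYt
  have hYtG : ∀ g : GQ, ∀ x ∈ Yt, g • x ∈ Yt := fun g x hx => smul_mem_subVJ H hYG g x hx
  have hann : Yt.annihilator = Y.annihilator := annihilator_subVJ Y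
  have i1 : ¬ Ram (rbarB b) 2 → 2 ∉ P → LocUr 2 (Yt : Set (VJ X' (rEB B) πE ρ Φ)) :=
    fun h1 h2 => locUr_subVJ H Y hYG hYS (hur h1 h2)
  have i2 : Ram (rbarB b) 2 ∨ 2 ∈ P → LocUnip 2 (Yt : Set (VJ X' (rEB B) πE ρ Φ)) :=
    fun h => locUnip_sub H Y hYG hYS (hun h)
  have i3 : 2 ∈ P → LocSt 2 ε₂ (Yt : Set (VJ X' (rEB B) πE ρ Φ)) :=
    fun h => by rw [hε₂' h]; exact locSt_subVJ H Y hYG hYS (hst h)
  obtain ⟨P2, pt, hpt, hβ2, hN2⟩ := hpol.cell Yt hYtG i1 i2 i3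
  rw [hann] at hβ2
  refine ⟨β2, fun β' hβ G' hG' => ⟨fun h => ?_, fun h => ?_, fun h1 h2 => ?_⟩, ?_⟩
  · rw [← hε₂' h]
    exact locSt_mono (locSt_map (ofVJ X' (rEB B) πE ρ Φ) (ofVJ_gal H) (hPk.out_st h β' hβ))
      (subset_range hG')
  · exact locUnip_mono (locUnip_map (ofVJ X' (rEB B) πE ρ Φ) (ofVJ_gal H) (hPk.out_unip h β' hβ))
      (subset_range hG')
  · exact locUr_mono (locUr_map (ofVJ X' (rEB B) πE ρ Φ) (ofVJ_gal H) (hPk.out_ur h1 h2 β' hβ))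
      (subset_range hG')
  · rcases Nat.le_one_iff_eq_zero_or_eq_one.1 hPk.k2_le with h0 | h1
    · subst h0
      refine Or.inl ⟨fun h2 => ?_, ?_⟩
      · exact absurd (hk2.2 ⟨X.not_ram_of_mem_Pfin (hP h2) hp2, Or.inl h2⟩) (by norm_num)
      · have h1 := aeval_sub_mem Y.annihilator u pt (fun j => j.elim0) P2
        rw [hN2] at h1
        have e : β2 - ((N2val (rbarB b) P φ₂ : ℤ) : R) = (β2 - MvPolynomial.aeval u P2) +
            (MvPolynomial.aeval u P2 - ((N2val (rbarB b) P φ₂ : ℤ) : R)) := by ring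
        rw [e]
        exact Y.annihilator.add_mem hβ2 h1
    · subst h1
      rcases hPk.gen Yt hYtG i1 i2 i3 with ⟨h0, -⟩ | ⟨-, hw, hstr⟩
      · exact absurd h0 (by norm_num)
      · refine Or.inr ⟨hw, u 0, toPoly P2, pt 0, ⟨hPk.pi0_u 0, fun I hI => ?_, ?_, hpt 0, ?_⟩⟩
        · have := hstr I (fun j => by rw [Subsingleton.elim j 0]; exact hI)
          rwa [hann] at this
        · rw [aeval_toPoly]
          exact hβ2
        · have e : (toPoly P2).eval (pt 0) = N2val (rbarB b) P φ₂ := by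
            rw [← hN2, ← aeval_toPoly pt P2, Polynomial.coe_aeval_eq_eval]
          rw [e]
          exact hf₂

theorem not_sq_dvd_self (hp : p.Prime) : ¬ (p : ℤ) ^ (1 + 1) ∣ (Polynomial.X : Polynomial ℤ).eval (p : ℤ) := by
  rw [Polynomial.eval_X]
  have := mid_not_pow_succ_dvd hp 1
  rwa [pow_one] at this

end MidM

open MidM

variable {W : WeierstrassCurve ℤ} {p : ℕ} [Fact p.Prime] {T : Finset ℕ}
  {b : Module.Basis (Fin 2) (ZMod p) (TorsW W p)} {L₀ : ℕ} [NeZero L₀] {eps : ℕ → ℤ}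
  {eP : GQ → ℤ} (X : LCtx W p T b L₀ eps eP) {t K : ℕ} {qv : Fin t → Nat.Primes}
  {N' : ℕ} [NeZero N'] {X' : AddSubgroup (JZero N')}
  {B : Module.Basis (Fin 2) (ZMod (p ^ (K + 1))) (TorsW W (p ^ (K + 1)))}
  (C : TopCtx W p b K B N' X')
  {R : Type} [CommRing R] [Algebra (ZMod (p ^ (K + 1))) R] [Module R ↥X']
  {πE : R →ₐ[ZMod (p ^ (K + 1))] ZMod (p ^ (K + 1))} {ρ : GQ →* M₂ R}
  {Φ : M₂ R →ₐ[R] Module.End R ↥X'}
  (H : Fermat.Agent.ML.Rho.IsRhoK N' (p ^ (K + 1)) X' (rEB B) πE ρ Φ)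
  {Lc : ℕ} [NeZero Lc] {a : ℕ} {P : Finset ℕ}
  {G : AddSubgroup (JZero (lvl Lc (extP qv) t))}
  (hG : IsCell p T W.apOfModel (rbarB b) eps eP Lc qv a P G)
  (u : JZero (lvl Lc (extP qv) t) →+ JZero N') (hu : ∀ (g : GQ) v, u (g • v) = g • u v)

include X C H hG hu in
/-- **all the primes raised before the current step** : the input of `Hard.mid_abs_F`, the bookkeeping of (GEN), and (OUT). -/
theorem old_block [IsLocalRing R] [Finite R] (hP : P ⊆ Pfin W (rbarB b) L₀) (hpP : p ∉ P)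
    (hlevel : ∀ v ∈ P, v ≠ 2 →
      (∃ M : ℕ, N' = M * v ∧ ¬ v ∣ M ∧ (4 ∣ M ∨ 9 ∣ M)) ∧ ¬ v ^ 2 ∣ N')
    (Y : Submodule R ↥X')
    (hYG : ∀ (g : GQ), ∀ y ∈ Y, ∀ y' : ↥X', (y' : JZero N') = g • (y : JZero N') → y' ∈ Y)
    (hYS : ∀ y ∈ Y, ∃ v ∈ G, u v = ((y : ↥X') : JZero N'))
    {φ₂ : GQ} (hφ₂ : (primeLocalPlace twoP).IsFrobeniusAt φ₂ 2) {f₂ : ℕ}
    (hf₂ : ¬ (p : ℤ) ^ (f₂ + 1) ∣ N2val (rbarB b) P φ₂) :
    ∃ (R1 Hs : Finset Nat.Primes) (u1 be : Nat.Primes → R) (P1 : Nat.Primes → Polynomial ℤ)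
      (ptv : Nat.Primes → ℤ) (f : Nat.Primes → ℕ) (xv : Nat.Primes → Fin 6 → R)
      (Dv : Nat.Primes → ℤ) (be0 : R) (N0 : ℤ) (f0 : ℕ),
      (∀ v ∈ R1, PkgOne p (pi0 πE) ρ Y v (u1 v) (be v) (P1 v) (ptv v) (f v)) ∧
      (∀ v ∈ Hs, PkgHard p (pi0 πE) ρ Y v (xv v) (Dv v)) ∧
      be0 - (N0 : R) ∈ Y.annihilator ∧ ¬ (p : ℤ) ^ (f0 + 1) ∣ N0 ∧
      f0 + Hs.card + ∑ v ∈ R1, f v ≤ f₂ + P.card ∧ Hs.card ≤ P.card ∧
      Disjoint R1 Hs ∧ R1 ⊆ toP T ∧ Hs ⊆ toP T ∧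
      (∀ v ∈ R1, (v : ℕ) ∈ P ∨ v = twoP) ∧ (∀ v ∈ Hs, (v : ℕ) ∈ P) ∧
      (∀ v : Nat.Primes, (v : ℕ) ∈ P → v ∈ R1 ∨ v ∈ Hs) ∧
      (∀ v ∈ R1, Nat.card ↥(B1loc (adRep (mapK (kM p) (rbarB b))) v) * Nat.card (kM p) ^ 1 ≤
        Nat.card (kM p) ^ 3) ∧
      (∀ v ∈ Hs, Nat.card ↥(B1loc (adRep (mapK (kM p) (rbarB b))) v) * Nat.card (kM p) ^ 3 ≤
        Nat.card (kM p) ^ 3) ∧
      ∀ β' : R, be0 * (∏ v ∈ Hs, xv v 0) * (∏ v ∈ R1, be v) ∣ β' → ∀ G' : Set (JZero N'),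
        (∀ y ∈ G', ∃ x₁ : ↥X', ((β' • x₁ : ↥X') : JZero N') = y) →
        (∀ v ∈ P, LocSt v (eps v) G' ∧ LocUnip v G') ∧
        (¬ Ram (rbarB b) 2 → 2 ∉ P → LocUr 2 G') ∧ (Ram (rbarB b) 2 → LocUnip 2 G') := by
  classical
  have hp : p.Prime := Fact.out
  have hp2 : (2 : ℕ) ≠ p := Ne.symm X.C.hp2
  have h2T : (2 : ℕ) ∈ T := X.BP.levT 2 Nat.prime_two (Dvd.dvd.mul_right X.two_dvd p)
  have hPT : ∀ v ∈ P, v ∈ T := fun v hv =>
    X.hbadT v (X.prime_of_mem_Pfin (hP hv)) (X.dvd_of_mem_Pfin (hP hv))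
  have hPp : ∀ v ∈ P, v ≠ p := fun v hv e => hpP (e ▸ hv)
  -- the odd primes
  set So : Finset Nat.Primes := (toP T).filter fun v =>
    (v : ℕ) ∈ P ∧ (v : ℕ) ≠ 2 ∧ ¬ FrobScalar (rbarB b) (v : ℕ) with hSo
  set Hs : Finset Nat.Primes := (toP T).filter fun v =>
    (v : ℕ) ∈ P ∧ (v : ℕ) ≠ 2 ∧ FrobScalar (rbarB b) (v : ℕ) with hHs
  have mSo : ∀ v ∈ So, (v : ℕ) ∈ P ∧ (v : ℕ) ≠ 2 ∧ ¬ FrobScalar (rbarB b) (v : ℕ) := fun v hv =>
    (Finset.mem_filter.1 hv).2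
  have mHs : ∀ v ∈ Hs, (v : ℕ) ∈ P ∧ (v : ℕ) ≠ 2 ∧ FrobScalar (rbarB b) (v : ℕ) := fun v hv =>
    (Finset.mem_filter.1 hv).2
  have hdisj : Disjoint So Hs := Finset.disjoint_left.2 fun v h1 h2 => (mSo v h1).2.2 (mHs v h2).2.2
  have h2So : twoP ∉ So := fun h => (mSo _ h).2.1 rfl
  have h2Hs : twoP ∉ Hs := fun h => (mHs _ h).2.1 rfl
  have hcov : ∀ v : Nat.Primes, (v : ℕ) ∈ P → (v : ℕ) ≠ 2 → v ∈ So ∨ v ∈ Hs := by
    intro v hv hv2
    by_cases hs : FrobScalar (rbarB b) (v : ℕ)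
    · exact Or.inr (Finset.mem_filter.2 ⟨mem_toP'.2 (hPT v hv), hv, hv2, hs⟩)
    · exact Or.inl (Finset.mem_filter.2 ⟨mem_toP'.2 (hPT v hv), hv, hv2, hs⟩)
  have hcard : Hs.card + So.card ≤ P.card := by
    rw [← Finset.card_union_of_disjoint hdisj.symm]
    refine Finset.card_le_card_of_injOn (fun v : Nat.Primes => (v : ℕ)) (fun v hv => ?_)
      (fun a _ b _ h => Subtype.ext h)
    rcases Finset.mem_union.1 (Finset.mem_coe.1 hv) with h | h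
    · exact (mHs v h).1
    · exact (mSo v h).1
  have hsoft : ∀ v ∈ So, ∃ bv : R, pi0 πE bv = 0 ∧
      (∀ I : Ideal R, bv ∈ I → ∃ M : M₂ R, IsUnit (M.map (pi0 πE)) ∧
        ∀ s ∈ decomp v, ConjConst ℤ (Y.annihilator ⊔ I) M (ρ s)) ∧
      Nat.card ↥(B1loc (adRep (mapK (kM p) (rbarB b))) v) * Nat.card (kM p) ^ 1 ≤
        Nat.card (kM p) ^ 3 ∧
      ∀ β' : R, bv ∣ β' → ∀ G' : Set (JZero N'),
        (∀ y ∈ G', ∃ x₁ : ↥X', ((β' • x₁ : ↥X') : JZero N') = y) →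
        LocSt (v : ℕ) (eps (v : ℕ)) G' ∧ LocUnip (v : ℕ) G' := fun v hv =>
    old_soft X C H hG u hu Y hYG hYS v (mSo v hv).1 (hP (mSo v hv).1) (hPp _ (mSo v hv).1)
      (frobNonScalar_of_not v.2 (X.not_ram_of_mem_Pfin (hP (mSo v hv).1) (hPp _ (mSo v hv).1))
        (mSo v hv).2.2) (hlevel _ (mSo v hv).1 (mSo v hv).2.1).2
  have hhard : ∀ v ∈ Hs, ∃ (x : Fin 6 → R) (D : ℤ), (∀ j, pi0 πE (x j) = 0) ∧
      Scroll (fun j => Ideal.Quotient.mk Y.annihilator (x j))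
        ((((p : ℤ) * D : ℤ)) : R ⧸ Y.annihilator) ∧
      (∀ I : Ideal R, (∀ j, x j ∈ I) → ∃ M : M₂ R, IsUnit (M.map (pi0 πE)) ∧
        ∀ s ∈ decomp v, ConjConst ℤ (Y.annihilator ⊔ I) M (ρ s)) ∧
      Nat.card ↥(B1loc (adRep (mapK (kM p) (rbarB b))) v) * Nat.card (kM p) ^ 3 ≤
        Nat.card (kM p) ^ 3 ∧
      ∀ β' : R, x 0 ∣ β' → ∀ G' : Set (JZero N'),
        (∀ y ∈ G', ∃ x₁ : ↥X', ((β' • x₁ : ↥X') : JZero N') = y) →
        LocSt (v : ℕ) (eps (v : ℕ)) G' ∧ LocUnip (v : ℕ) G' := fun v hv => by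
    obtain ⟨⟨M, hN, hvM, h49⟩, -⟩ := hlevel _ (mHs v hv).1 (mHs v hv).2.1
    exact old_hard X C H hG u hu Y hYG hYS v (mHs v hv).1 (hP (mHs v hv).1) (hPp _ (mHs v hv).1)
      (mHs v hv).2.2 hN hvM h49
  choose! bS hbS0 hbSs hbSw hbSo using hsoft
  choose! xv Dv hx0 hxscr hxs hxw hxo using hhard
  have pkS : ∀ v ∈ So, PkgOne p (pi0 πE) ρ Y v (bS v) (bS v) Polynomial.X (p : ℤ) 1 := fun v hv =>
    ⟨hbS0 v hv, hbSs v hv, by rw [Polynomial.aeval_X, sub_self]; exact Y.annihilator.zero_mem,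
      dvd_refl _, not_sq_dvd_self hp⟩
  have pkH : ∀ v ∈ Hs, PkgHard p (pi0 πE) ρ Y v (xv v) (Dv v) := fun v hv =>
    ⟨hx0 v hv, hxscr v hv, hxs v hv⟩
  -- the prime `2`
  have hYS' : ∀ y ∈ Y, ((y : ↥X') : JZero N') ∈ u '' (G : Set (JZero (lvl Lc (extP qv) t))) :=
    fun y hy => by
      obtain ⟨w, hw, e⟩ := hYS y hy
      exact ⟨w, hw, e⟩
  obtain ⟨β2, hout2, hcase⟩ := two_frame X C H hP hφ₂ hf₂ Y hYG _ hYS'
    (fun h1 h2 => (hG.ur 2 Nat.prime_two h2T h2 hp2 h1).image u hu)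
    (fun h => h.elim (fun h => (hG.unip 2 Nat.prime_two hp2 h).image u hu)
      (fun h => (hG.st 2 h hp2).2.image u hu))
    (fun h => (hG.st 2 h hp2).1.image u hu)
  -- (OUT) at the odd primes
  have hoddOut : ∀ (β' : R), (∀ v ∈ So, bS v ∣ β') → (∀ v ∈ Hs, xv v 0 ∣ β') →
      ∀ G' : Set (JZero N'), (∀ y ∈ G', ∃ x₁ : ↥X', ((β' • x₁ : ↥X') : JZero N') = y) →
      ∀ v ∈ P, v ≠ 2 → LocSt v (eps v) G' ∧ LocUnip v G' := by
    intro β' h1 h2 G' hG' v hv hv2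
    rcases hcov ⟨v, X.prime_of_mem_Pfin (hP hv)⟩ hv hv2 with h | h
    · exact hbSo _ h β' (h1 _ h) G' hG'
    · exact hxo _ h β' (h2 _ h) G' hG'
  rcases hcase with ⟨h2P, hβ2⟩ | ⟨hw2, u2, P12, pt2, pk2⟩
  · -- no variable at `2`
    refine ⟨So, Hs, bS, bS, fun _ => Polynomial.X, fun _ => (p : ℤ), fun _ => 1, xv, Dv, β2,
      N2val (rbarB b) P φ₂, f₂, pkS, pkH, hβ2, hf₂, ?_, by omega, hdisj,
      Finset.filter_subset _ _, Finset.filter_subset _ _, fun v hv => Or.inl (mSo v hv).1,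
      fun v hv => (mHs v hv).1, fun v hv => hcov v hv (fun e => h2P (e ▸ hv)), hbSw, hxw,
      fun β' hβ G' hG' => ?_⟩
    · rw [Finset.sum_const, smul_eq_mul, mul_one]
      omega
    · have d0 : β2 ∣ β' := Dvd.dvd.trans (Dvd.dvd.mul_right (Dvd.intro _ rfl) _) hβ
      have d1 : ∀ v ∈ So, bS v ∣ β' := fun v hv =>
        Dvd.dvd.trans (Dvd.dvd.mul_left (Finset.dvd_prod_of_mem bS hv) _) hβ
      have d2 : ∀ v ∈ Hs, xv v 0 ∣ β' := fun v hv =>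
        Dvd.dvd.trans (Dvd.dvd.mul_right (Dvd.dvd.mul_left
          (Finset.dvd_prod_of_mem (fun v => xv v 0) hv) _) _) hβ
      obtain ⟨o1, o2, o3⟩ := hout2 β' d0 G' hG'
      exact ⟨fun v hv => hoddOut β' d1 d2 G' hG' v hv (fun e => h2P (e ▸ hv)), o3,
        fun h => o2 (Or.inl h)⟩
  · -- one variable at `2`
    have hne : ∀ v ∈ So, v ≠ twoP := fun v hv e => h2So (e ▸ hv)
    refine ⟨insert twoP So, Hs, Function.update bS twoP u2, Function.update bS twoP β2,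
      Function.update (fun _ => Polynomial.X) twoP P12, Function.update (fun _ => (p : ℤ)) twoP pt2,
      Function.update (fun _ => 1) twoP f₂, xv, Dv, 1, 1, 0, ?_, pkH, ?_, ?_, ?_, by omega, ?_, ?_,
      Finset.filter_subset _ _, ?_, fun v hv => (mHs v hv).1, ?_, ?_, hxw,
      fun β' hβ G' hG' => ?_⟩
    · intro v hv
      rcases Finset.mem_insert.1 hv with rfl | hv
      · simp only [Function.update_self]
        exact pk2
      · simp only [Function.update_of_ne (hne v hv)]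
        exact pkS v hv
    · rw [Int.cast_one, sub_self]
      exact Y.annihilator.zero_mem
    · rw [zero_add, pow_one]
      intro h
      have := Int.eq_one_of_dvd_one (by positivity) h
      have h2 : p = 1 := by exact_mod_cast this
      exact hp.one_lt.ne' h2
    · rw [Finset.sum_insert h2So, Function.update_self,
        Finset.sum_congr rfl fun v hv => Function.update_of_ne (hne v hv) _ _, Finset.sum_const,
        smul_eq_mul, mul_one]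
      omega
    · exact Finset.disjoint_insert_left.2 ⟨h2Hs, hdisj⟩
    · exact Finset.insert_subset (mem_toP'.2 h2T) (Finset.filter_subset _ _)
    · intro v hv
      rcases Finset.mem_insert.1 hv with rfl | hv
      · exact Or.inr rfl
      · exact Or.inl (mSo v hv).1
    · intro v hv
      by_cases hv2 : (v : ℕ) = 2
      · exact Or.inl (Finset.mem_insert.2 (Or.inl (Subtype.ext hv2)))
      · exact (hcov v hv hv2).imp (fun h => Finset.mem_insert_of_mem h) id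
    · intro v hv
      rcases Finset.mem_insert.1 hv with rfl | hv
      · exact hw2
      · exact hbSw v hv
    · have d0 : β2 ∣ β' := by
        refine Dvd.dvd.trans (Dvd.dvd.mul_left ?_ _) hβ
        have := Finset.dvd_prod_of_mem (Function.update bS twoP β2) (Finset.mem_insert_self twoP So)
        rwa [Function.update_self] at this
      have d1 : ∀ v ∈ So, bS v ∣ β' := fun v hv => by
        refine Dvd.dvd.trans (Dvd.dvd.mul_left ?_ _) hβ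
        have := Finset.dvd_prod_of_mem (Function.update bS twoP β2)
          (Finset.mem_insert_of_mem (a := v) (b := twoP) hv)
        rwa [Function.update_of_ne (hne v hv)] at this
      have d2 : ∀ v ∈ Hs, xv v 0 ∣ β' := fun v hv =>
        Dvd.dvd.trans (Dvd.dvd.mul_right (Dvd.dvd.mul_left
          (Finset.dvd_prod_of_mem (fun v => xv v 0) hv) _) _) hβ
      obtain ⟨o1, o2, o3⟩ := hout2 β' d0 G' hG'
      refine ⟨fun v hv => ?_, o3, fun h => o2 (Or.inl h)⟩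
      by_cases hv2 : v = 2
      · subst hv2
        exact ⟨o1 hv, o2 (Or.inr hv)⟩
      · exact hoddOut β' d1 d2 G' hG' v hv hv2

end Fermat.Agent.ML.StepP
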