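import Fermat.Agent.ML.AtP.StepP.Main
import Fermat.Agent.ML.AtP.StepP.MidOld
import Fermat.Agent.ML.AtP.StepP.MidGen
import Fermat.Agent.ML.Hard.Mid.Out
import Fermat.Agent.ML.Lift.Inst.GenFrame

/-!
# ML / AtP / StepP / MidFinal : the contract `MidPStmt` of the middle block of the step at `p` is a THEOREM

`midPStmt : MidPStmt` = `StepP.old_block` (all the primes raised before) + `MidGen.hgen_p_pkg` ((GEN) with the new variable `c_p`)
+ `Hard.mid_abs_F` (the bookkeeping of the variables) + `StepGen.Frame.*`, `Hard.old_level` (the frame).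
-/

set_option autoImplicit false
set_option linter.unusedSectionVars false
set_option linter.unusedVariables false

noncomputable section

open AlgebraicCurve ModularCurve

namespace Fermat.Agent.ML.StepP.MidFinal

open Fermat.Agent.RIB Fermat.Agent.RIB.Rho Fermat.Agent.GAL Fermat.Agent.ML.ESide Fermat.Agent.S56
  Fermat.Agent.S56.Flat Fermat.Agent.ML.TWFree Fermat.Agent.ML.Lift Fermat.Agent.ML.Hard
  Fermat.Agent.ML.At2 Fermat.Agent.ML.FinGen Fermat.Agent.S56.Gen ExtCitation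

local notation "Qbar" => AlgebraicClosure ℚ
local notation "GQ" => (AlgebraicClosure ℚ ≃ₐ[ℚ] AlgebraicClosure ℚ)
local notation "M₂" => Matrix (Fin 2) (Fin 2)

set_option maxHeartbeats 4000000 in
/-- **the middle block of the step at `p`.** -/
theorem midPStmt : MidPStmt := by
  classical
  intro W p _ T b L₀ _ eps eP X t hpP
  have hp : p.Prime := Fact.out
  have h2p : (2 : ℕ) ≠ p := Ne.symm X.C.hp2
  have hq2 : p ≠ 2 := X.C.hp2
  have hpΔ : (p : ℤ) ∣ W.Δ := X.dvd_of_mem_Pfin hpP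
  have hP : (Pfin W (rbarB b) L₀).erase p ⊆ Pfin W (rbarB b) L₀ := Finset.erase_subset _ _
  have hpnP : p ∉ (Pfin W (rbarB b) L₀).erase p := Finset.notMem_erase _ _
  obtain ⟨φ2, hφ2⟩ := S56.exists_isFrobeniusAt Nat.prime_two (liesOverPrime_primeLocalPlace twoP)
  obtain ⟨f2, hf2⟩ := exists_not_dvd p hp (N2val (rbarB b) ((Pfin W (rbarB b) L₀).erase p) φ2)
    (N2val_ne_zero _ φ2)
  refine ⟨f2 + ((Pfin W (rbarB b) L₀).erase p).card, ?_⟩
  intro F C₀ a m n K qv hF ha Lc Lc' _ _ hLc hL G hG hG0 B C hEK R _ _ _ _ _ πE ρ Φ H Gt hGt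
    s₁ hs₁ hdisc c hc0 hctr
  -- the frame
  have hYG := StepGen.Frame.hYG hL hG Gt hGt
  have hGV := StepGen.Frame.hGV X hP hpP hpnP hq2 hF hLc hL hG
    (V := tV p (↑(cutS T qv) : Set ℕ) W.apOfModel (lvl Lc' (extP qv) t) (K + 1))
    (fun _ => Iff.rfl)
  have hY0 := StepGen.Frame.ne_bot X hP hpP hpnP hq2 hF hLc hL hG Gt hGt hG0 hGV
  have hYS : ∀ y ∈ Gt, ∃ v ∈ G, upE (lvl_mul_q hL qv) 0 v = (y : JZero (lvl Lc' (extP qv) t)) :=
    fun y hy => (hGt y).1 hy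
  have hu : ∀ (g : GQ) v, upE (lvl_mul_q hL qv) 0 (g • v) = g • upE (lvl_mul_q hL qv) 0 v :=
    fun g v => upE_smul _ 0 g v
  have hLc' : Lc' = cellLevel L₀ (insert p ((Pfin W (rbarB b) L₀).erase p)) := by
    rw [hL, hLc, Lift.cellLevel_insert L₀ hpnP hq2]
  have hnotT := Mid.frame_notT X hF
  have hP' : insert p ((Pfin W (rbarB b) L₀).erase p) ⊆ Pfin W (rbarB b) L₀ :=
    Finset.insert_subset hpP hP
  have hpN := StepGen.Frame.hqN X hP hpP hpnP hq2 hF hLc (qv := qv)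
  have hlevel : ∀ v ∈ (Pfin W (rbarB b) L₀).erase p, v ≠ 2 →
      (∃ M : ℕ, lvl Lc' (extP qv) t = M * v ∧ ¬ v ∣ M ∧ (4 ∣ M ∨ 9 ∣ M)) ∧
        ¬ v ^ 2 ∣ lvl Lc' (extP qv) t := fun v hv hv2 =>
    old_level X hP' hnotT (Finset.mem_insert_of_mem hv) hv2 hLc'
  -- the old primes
  obtain ⟨R1, Hs, u1, be, P1, ptv, f, xv, Dv, be0, N0, f0, pkg1, pkgH, hbe0, hN0, hfsum, hHcard,
    hdisj, hR1T, hHsT, hR1P, hHsP, hcov, hw1, hw3, hout⟩ :=
    old_block X C H hG _ hu hP hpnP hlevel Gt hYG hYS hφ2 hf2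
  have hpi0c : pi0 πE c = 0 := by
    rw [pi0_apply, hc0, map_zero]
  have hgen := MidGen.hgen_p_pkg X C H hG _ hu hF.gen hpΔ
    (StepGen.Frame.hlev X hP hpP hpnP hq2 hF hLc hL)
    (fun v hv h0 => StepGen.Frame.hinj X hP hpP hpnP hq2 hF hLc hL v (hG.le hv) h0)
    hpN Gt hYG hY0 hYS R1 Hs hdisj hR1T hHsT
    (fun h => by
      rcases hR1P _ h with h | h
      · exact hpnP h
      · exact h2p (congrArg Subtype.val h).symm)
    (fun h => hpnP (hHsP _ h))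
    (fun v _ h1 h2 _ hvP => by
      rcases hcov v hvP with h | h
      · exact absurd h h1
      · exact absurd h h2)
    hw1 hw3 u1 be P1 ptv f pkg1 xv Dv pkgH hs₁ hdisc c hctr
  obtain ⟨σ, iσ, val, pt, Pc, Pβ, h1, h2, h3, h4, h5, h6, h7, h8, h9⟩ :=
    mid_abs_F (t := t) Gt R1 Hs u1 be P1 ptv f pkg1 xv Dv pkgH be0 N0 f0 hbe0 hN0 1
      (fun _ => c) (fun _ => hpi0c) hgen c (MvPolynomial.X 0) (by simp) (by simp)
  refine ⟨↥Hs, σ, inferInstance, iσ, fun r => Dv r, val, pt,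
    be0 * (∏ v ∈ Hs, xv v 0) * (∏ v ∈ R1, be v), Pc, Pβ, h1, ?_, h2, h3, h4, h5, h6, h7, h8, ?_, ?_⟩
  · rw [Fintype.card_coe]
    exact hHcard.trans (Finset.card_le_card hP)
  · intro hd
    exact h9 ((pow_dvd_pow (p : ℤ) (by omega)).trans hd)
  · intro G' hG'gal hG'
    obtain ⟨o1, o2, o3⟩ := hout _ dvd_rfl (G' : Set (JZero (lvl Lc' (extP qv) t)))
      (fun y hy => by
        obtain ⟨x₁, -, e⟩ := hG' y hy
        exact ⟨x₁, e⟩)
    refine ⟨fun q hq hqp => (o1 q (Finset.mem_erase.2 ⟨hqp, hq⟩)).1,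
      fun hr h2 => o2 hr (fun h => h2 (hP h)), fun h => ?_⟩
    rcases h with h | h
    · exact o3 h
    · exact (o1 2 (Finset.mem_erase.2 ⟨h2p, h⟩)).2

/-- **(C-STEP-P)** : the step at `p`. -/
theorem stepPStmt : StepPStmt := stepP_of_mid midPStmt

end Fermat.Agent.ML.StepP.MidFinal
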