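import Fermat.Agent.ML.AtP.StepP.MidOld
import Fermat.Agent.ML.AtP.StepP.Bridge
import Fermat.Agent.ML.AtP.StepP.Gen
import Fermat.Agent.ML.Lift.Inst.GenFrame

/-!
# ML / AtP / StepP / MidM : the middle block of (C-STEP-P)

`midPHyp : p ∈ Pfin → MidPHyp X t`   (the contract of `ML/AtP/StepP/Bridge.lean`)
= `old_block` (all the primes raised before) + `Hard.mid_abs_F` (`wn = 1`, `yn = c`, `Pc0 = X 0`) + `gen_cell_p` ((GEN), saving `1` at `p`).
-/

set_option autoImplicit false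
set_option linter.unusedSectionVars false
set_option linter.unusedVariables false

noncomputable section

open AlgebraicCurve ModularCurve MvPolynomial

namespace Fermat.Agent.ML.StepP

open Fermat.Agent.RIB Fermat.Agent.RIB.Rho Fermat.Agent.GAL Fermat.Agent.ML.ESide Fermat.Agent.S56
  Fermat.Agent.S56.Flat Fermat.Agent.S56.Gen Fermat.Agent.ML.TWFree Fermat.Agent.ML.Lift
  Fermat.Agent.ML.Hard Fermat.Agent.ML.StepGen Fermat.Agent.ML.At2 ExtCitation

local notation "Qbar" => AlgebraicClosure ℚ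
local notation "GQ" => (AlgebraicClosure ℚ ≃ₐ[ℚ] AlgebraicClosure ℚ)
local notation "M₂" => Matrix (Fin 2) (Fin 2)

variable {W : WeierstrassCurve ℤ} {p : ℕ} [Fact p.Prime] {T : Finset ℕ}
  {b : Module.Basis (Fin 2) (ZMod p) (TorsW W p)} {L₀ : ℕ} [NeZero L₀] {eps : ℕ → ℤ} {eP : GQ → ℤ}

set_option maxHeartbeats 4000000 in
/-- **the middle block of (C-STEP-P).** -/
theorem midPHyp (X : LCtx W p T b L₀ eps eP) (hpP : p ∈ Pfin W (rbarB b) L₀) (t : ℕ) :
    MidPHyp X t := by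
  classical
  unfold MidPHyp
  have hp : p.Prime := Fact.out
  have hq2 : p ≠ 2 := X.C.hp2
  have hpΔ : (p : ℤ) ∣ W.Δ := X.dvd_of_mem_Pfin hpP
  obtain ⟨P, hPdef⟩ : ∃ P, P = (Pfin W (rbarB b) L₀).erase p := ⟨_, rfl⟩
  rw [← hPdef]
  have hP : P ⊆ Pfin W (rbarB b) L₀ := hPdef ▸ Finset.erase_subset _ _
  have hpnP : p ∉ P := hPdef ▸ Finset.notMem_erase _ _
  have hins : insert p P ⊆ Pfin W (rbarB b) L₀ := Finset.insert_subset hpP hP
  obtain ⟨φ₂, hφ₂⟩ := S54.exists_isFrobeniusAt_of_liesOverPrime Nat.prime_two _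
    (liesOverPrime_primeLocalPlace twoP)
  obtain ⟨f₂, hf₂⟩ := Hard.exists_not_dvd p hp (N2val (rbarB b) P φ₂) (N2val_ne_zero P φ₂)
  refine ⟨f₂ + P.card, fun F C₀ a m n K qv hF ha Lc Lc' _ _ hLc hL G hG hG0 B hTop E R _ _ _ _ _
    πE ρ Φ H Gt hGt s₁ hs₁ hdisc c hc0 hctr => ?_⟩
  -- the frame
  have hnotT : ∀ i, ((qv i : Nat.Primes) : ℕ) ∉ T := (Frame.mtw X hP hF hLc).notT
  have hLc' : Lc' = cellLevel L₀ (insert p P) := by
    rw [Fermat.Agent.ML.cellLevel_insert L₀ hq2 hpnP, hL, hLc]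
  have hlevel : ∀ v ∈ P, v ≠ 2 →
      (∃ M : ℕ, lvl Lc' (extP qv) t = M * v ∧ ¬ v ∣ M ∧ (4 ∣ M ∨ 9 ∣ M)) ∧
        ¬ v ^ 2 ∣ lvl Lc' (extP qv) t := fun v hv hv2 =>
    old_level X hins hnotT (Finset.mem_insert_of_mem hv) hv2 hLc'
  have hu : ∀ (g : GQ) v, upE (lvl_mul_q hL qv) 0 (g • v) = g • upE (lvl_mul_q hL qv) 0 v :=
    fun g v => upE_smul _ 0 g v
  have hYG := Frame.hYG hL hG Gt hGt
  have hYS : ∀ y ∈ Gt, ∃ v ∈ G, upE (lvl_mul_q hL qv) 0 v = (y : JZero (lvl Lc' (extP qv) t)) :=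
    fun y hy => (hGt y).1 hy
  have hGV := Frame.hGV X hP hpP hpnP hq2 hF hLc hL hG
    (V := tV p (↑(cutS T qv) : Set ℕ) W.apOfModel (lvl Lc' (extP qv) t) (K + 1)) (fun _ => Iff.rfl)
  have hY0 : Gt ≠ ⊥ := Frame.ne_bot X hP hpP hpnP hq2 hF hLc hL hG Gt hGt hG0 hGV
  have hc0' : pi0 πE c = 0 := by rw [pi0_apply, hc0, map_zero]
  -- the primes raised before
  obtain ⟨R1, Hs, u1, be, P1, ptv, f, xv, Dv, be0, N0, f0, pk1, pkH, hbe0, hN0, hfsum, hHc, hd, h1T,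
    hHT, h1P, hHP, hcov, hw1, hw3, hout⟩ := old_block X hTop H hG (upE (lvl_mul_q hL qv) 0) hu hP hpnP
      hlevel Gt hYG hYS hφ₂ hf₂
  -- (GEN)
  have hgen : ∀ I : Ideal R, (∀ a ∈ I, pi0 πE a = 0) → (∀ v ∈ R1, u1 v ∈ I) →
      (∀ v ∈ Hs, ∀ j, xv v j ∈ I) → (∀ j : Fin 1, (fun _ : Fin 1 => c) j ∈ I) →
      ∃ (g : ℕ) (x : Fin g → R), R1.card + 3 * Hs.card + 1 + g ≤ t ∧ (∀ i, pi0 πE (x i) = 0) ∧
        RingHom.ker (pi0 πE) ≤
          Gt.annihilator ⊔ I ⊔ Ideal.span (Set.range x) ⊔ Ideal.span {(p : R)} := by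
    intro I hI h1 hH hc
    obtain ⟨c₀, hc₀⟩ := hctr I (hc 0)
    set w : Nat.Primes → ℕ := fun v => if v ∈ R1 then 1 else 3 with hwdef
    have hsum : ∑ v ∈ R1 ∪ Hs, w v = R1.card + 3 * Hs.card := by
      rw [Finset.sum_union hd]
      have e1 : ∑ v ∈ R1, w v = R1.card := by
        rw [Finset.sum_congr rfl fun v hv => (if_pos hv : w v = 1)]
        simp
      have e2 : ∑ v ∈ Hs, w v = 3 * Hs.card := by
        rw [Finset.sum_congr rfl fun v hv =>
          (if_neg (fun h => (Finset.disjoint_left.1 hd) h hv) : w v = 3)]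
        simp [mul_comm]
      rw [e1, e2]
    obtain ⟨hle, x, hx, hg⟩ := gen_cell_p X hTop H hG (upE (lvl_mul_q hL qv) 0) hu hF.gen hpΔ
      (Frame.hlev X hP hpP hpnP hq2 hF hLc hL)
      (fun v hv h0 => Frame.hinj X hP hpP hpnP hq2 hF hLc hL v (hG.le hv) h0)
      (Frame.hqN X hP hpP hpnP hq2 hF hLc) Gt hYG hY0 hYS (R1 ∪ Hs) (Finset.union_subset h1T hHT)
      (by
        intro hv
        rcases Finset.mem_union.1 hv with hv | hv
        · rcases h1P _ hv with h | h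
          · exact hpnP h
          · exact hq2 (congrArg Subtype.val h)
        · exact hpnP (hHP _ hv))
      (by
        intro v _ hvR _ hvP
        exact absurd (Finset.mem_union.2 (hcov v hvP)) hvR)
      w
      (by
        intro v hv
        by_cases hv1 : v ∈ R1
        · rw [show w v = 1 from if_pos hv1]; exact hw1 v hv1
        · rw [show w v = 3 from if_neg hv1]
          rcases Finset.mem_union.1 hv with hv | hv
          · exact absurd hv hv1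
          · exact hw3 v hv)
      I hI
      (by
        intro v hv
        rcases Finset.mem_union.1 hv with hv | hv
        · exact (pk1 v hv).strict I (h1 v hv)
        · exact (pkH v hv).strict I (hH v hv))
      hs₁ hdisc c₀ hc₀
    refine ⟨_, x, ?_, hx, hg⟩
    rw [hsum] at hle ⊢
    omega
  obtain ⟨σ, iσ, val, pt, Pc, Pβ, c1, c2, c3, c4, c5, c6, c7, c8, c9⟩ := mid_abs_F (t := t) Gt R1 Hs
    u1 be P1 ptv f pk1 xv Dv pkH be0 N0 f0 hbe0 hN0 1 (fun _ => c) (fun _ => hc0') hgen c (MvPolynomial.X 0)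
    (by rw [aeval_X, sub_self]; exact Gt.annihilator.zero_mem) (by rw [aeval_X])
  refine ⟨↥Hs, σ, inferInstance, iσ, fun r => Dv r, val, pt,
    be0 * (∏ v ∈ Hs, xv v 0) * ∏ v ∈ R1, be v, Pc, Pβ, c1, ?_, c2, c3, c4, c5, c6, c7, c8, ?_,
    fun G' hgal hx => ?_⟩
  · rw [Fintype.card_coe]
    exact hHc.trans (Finset.card_le_card hP)
  · exact fun h => c9 (Dvd.dvd.trans (pow_dvd_pow _ (by omega)) h)
  · obtain ⟨o1, o2, o3⟩ := hout _ (dvd_refl _) (G' : Set (JZero (lvl Lc' (extP qv) t)))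
      (fun y hy => by
        obtain ⟨x₁, -, e⟩ := hx y hy
        exact ⟨x₁, e⟩)
    have hmem : ∀ q ∈ Pfin W (rbarB b) L₀, q ≠ p → q ∈ P := fun q hq hqp => by
      rw [hPdef]; exact Finset.mem_erase.2 ⟨hqp, hq⟩
    refine ⟨fun q hq hqp => (o1 q (hmem q hq hqp)).1, fun h1 h2 => o2 h1 fun h => h2 (hP h),
      fun h => ?_⟩
    rcases h with h | h
    · exact o3 h
    · exact (o1 2 (hmem 2 h (Ne.symm hq2))).2

end Fermat.Agent.ML.StepP
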