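import Fermat.Agent.ML.AtP.StepP.Main
import Fermat.Agent.ML.AtP.StepP.MidOld
import Fermat.Agent.ML.AtP.StepP.MidGen
import Fermat.Agent.ML.Lift.Inst.GenFrame

/-!
# ML / AtP / StepP / MidP2 : the contract `MidPStmt` of the middle block of the step at `p`

`old_block` (all the primes raised before) + `MidGen.hgen_p_pkg` (GEN) + `Hard.mid_abs_F` + the frame lemmas of `Lift/Inst/GenFrame`.
-/

set_option autoImplicit false
set_option linter.unusedSectionVars false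
set_option linter.unusedVariables false

noncomputable section

open AlgebraicCurve ModularCurve MvPolynomial

namespace Fermat.Agent.ML.StepP.MidP2

open Fermat.Agent.RIB Fermat.Agent.RIB.Rho Fermat.Agent.GAL Fermat.Agent.ML.ESide Fermat.Agent.S56
  Fermat.Agent.S56.Flat Fermat.Agent.ML.TWFree Fermat.Agent.ML.Lift Fermat.Agent.ML.Hard
  Fermat.Agent.ML.StepGen ExtCitation

local notation "Qbar" => AlgebraicClosure ℚ
local notation "GQ" => (AlgebraicClosure ℚ ≃ₐ[ℚ] AlgebraicClosure ℚ)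
local notation "M₂" => Matrix (Fin 2) (Fin 2)

theorem not_dvd_natAbs {p : ℕ} (hp : 1 < p) {N : ℤ} (hN : N ≠ 0) :
    ¬ (p : ℤ) ^ (N.natAbs + 1) ∣ N := by
  intro hd
  have h1 : p ^ (N.natAbs + 1) ∣ N.natAbs := Int.natCast_dvd.1 (by exact_mod_cast hd)
  have h2 := Nat.le_of_dvd (Int.natAbs_pos.2 hN) h1
  have h3 : N.natAbs + 1 < p ^ (N.natAbs + 1) := Nat.lt_pow_self hp
  omega

set_option maxHeartbeats 3200000 in
/-- **the contract of the middle block of the step at `p`.** -/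
theorem midPStmt : MidPStmt := by
  classical
  intro W p _ T b L₀ _ eps eP X t hpF
  have hp : p.Prime := Fact.out
  obtain ⟨φ₂, hφ₂⟩ := S54.exists_isFrobeniusAt_of_liesOverPrime twoP.2 _
    (CFT.LS.liesOverPrime_primeLocalPlace twoP)
  obtain ⟨P, hPdef⟩ : ∃ P : Finset ℕ, P = (Pfin W (rbarB b) L₀).erase p := ⟨_, rfl⟩
  rw [← hPdef]
  have hP : P ⊆ Pfin W (rbarB b) L₀ := hPdef ▸ Finset.erase_subset _ _
  have hpP : p ∉ P := hPdef ▸ Finset.notMem_erase _ _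
  have hf₂ := not_dvd_natAbs hp.one_lt (At2.N2val_ne_zero (rbar0 := rbarB b) P φ₂)
  refine ⟨(At2.N2val (rbarB b) P φ₂).natAbs + P.card, ?_⟩
  intro F C₀ a m n K qv hF ha Lc Lc' _ _ hLc hL G hG hG0 B C hEK R _ _ _ _ _ πE ρ Φ H Y hY s₁ hs₁
    hdisc c hc hctr
  have hp2 : p ≠ 2 := X.C.hp2
  have hpΔ : (p : ℤ) ∣ W.Δ := X.dvd_of_mem_Pfin hpF
  have hGV := Frame.hGV X hP hpF hpP hp2 hF hLc hL hG (V := tV p (↑(cutS T qv) : Set ℕ)
    W.apOfModel (lvl Lc' (extP qv) t) (K + 1)) (fun _ => Iff.rfl)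
  have hYG := Frame.hYG hL hG Y hY
  have hY0 := Frame.ne_bot X hP hpF hpP hp2 hF hLc hL hG Y hY hG0 hGV
  have hnotT := (Frame.mtw' X hP hpF hpP hp2 hF hLc hL).notT
  have huAg : ∀ (g : GQ) v, upE (lvl_mul_q hL qv) 0 (g • v) = g • upE (lvl_mul_q hL qv) 0 v :=
    fun g v => upE_smul _ 0 g v
  have hYS : ∀ y ∈ Y, ∃ v ∈ G, upE (lvl_mul_q hL qv) 0 v = (y : JZero (lvl Lc' (extP qv) t)) :=
    fun y hy => (hY y).1 hy
  have hP' : insert p P ⊆ Pfin W (rbarB b) L₀ := Finset.insert_subset hpF hP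
  have hLc' : Lc' = cellLevel L₀ (insert p P) := by
    rw [hL, hLc, Lift.cellLevel_insert L₀ hpP hp2]
  have hc0 : pi0 πE c = 0 := by rw [pi0_apply, hc, map_zero]
  obtain ⟨R1, Hs, u1, be, P1, ptv, f, xv, Dv, be0, N0, f0, pkg1, pkgH, hbe0, hN0, hfle, hHc, hdisj,
    hR1T, hHsT, hR1P, hHsP, hcov, hw1, hw3, hout⟩ := old_block X C H hG (upE (lvl_mul_q hL qv) 0)
      huAg hP hpP (fun v hv hv2 => Hard.old_level X hP' hnotT (Finset.mem_insert_of_mem hv) hv2 hLc')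
      Y hYG hYS hφ₂ hf₂
  have hpR1 : pPrime p ∉ R1 := fun h => by
    rcases hR1P _ h with h' | h'
    · exact hpP h'
    · exact hp2 (congrArg Subtype.val h')
  have hpHs : pPrime p ∉ Hs := fun h => hpP (hHsP _ h)
  have hgen := MidGen.hgen_p_pkg X C H hG (upE (lvl_mul_q hL qv) 0) huAg hF.gen hpΔ
    (Frame.hlev X hP hpF hpP hp2 hF hLc hL)
    (fun v hv h0 => Frame.hinj X hP hpF hpP hp2 hF hLc hL v (hG.le hv) h0)
    (Frame.hqN X hP hpF hpP hp2 hF hLc) Y hYG hY0 hYS R1 Hs hdisj hR1T hHsT hpR1 hpHs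
    (fun v _ h1 h3 _ hvP => absurd (hcov v hvP) (by tauto)) hw1 hw3 u1 be P1 ptv f pkg1 xv Dv pkgH
    hs₁ hdisc c hctr
  obtain ⟨σ, _, val, pt, Pc, Pβ, h1, h2, h3, h4, h5, h6, h7, h8, h9⟩ :=
    mid_abs_F (t := t) Y R1 Hs u1 be P1 ptv f pkg1 xv Dv pkgH be0 N0 f0 hbe0 hN0 1 (fun _ => c)
      (fun _ => hc0) hgen c (MvPolynomial.X 0) (by simp) (by simp)
  refine ⟨↥Hs, σ, inferInstance, inferInstance, fun r => Dv r, val, pt,
    be0 * (∏ v ∈ Hs, xv v 0) * (∏ v ∈ R1, be v), Pc, Pβ, h1, ?_, h2, h3, h4, h5, h6, h7, h8, ?_, ?_⟩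
  · rw [Fintype.card_coe]
    exact hHc.trans (Finset.card_le_card hP)
  · exact fun hd => h9 (Dvd.dvd.trans (pow_dvd_pow _ (Nat.succ_le_succ hfle)) hd)
  · intro G' _ hG'
    obtain ⟨o1, o2, o3⟩ := hout _ dvd_rfl (G' : Set (JZero (lvl Lc' (extP qv) t))) (fun y hy => by
      obtain ⟨x₁, -, e⟩ := hG' y hy
      exact ⟨x₁, e⟩)
    have hmem : ∀ q ∈ Pfin W (rbarB b) L₀, q ≠ p → q ∈ P := fun q hq hqp => by
      rw [hPdef]
      exact Finset.mem_erase.2 ⟨hqp, hq⟩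
    refine ⟨fun q hq hqp => (o1 q (hmem q hq hqp)).1, fun hr h2 => o2 hr (fun h => h2 (hP h)),
      fun h => ?_⟩
    rcases h with h | h
    · exact o3 h
    · exact (o1 2 (hmem 2 h (Ne.symm hp2))).2

end Fermat.Agent.ML.StepP.MidP2
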