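import Fermat.Agent.ML.AtP.StepP.Two
import Fermat.Agent.ML.Hard.Mid.TwoSpec

/-!
# ML / AtP / StepP / TwoFPf : the contract `Hard.TwoFStmt` (the prime `2` in the middle block of the F-steps) is a theorem

`TwoF.twoFStmt : Hard.TwoFStmt`, from `TwoF.two_sub`;   `N2 := At2.N2val (rbarB b) P φ`, `φ` a Frobenius at `primeLocalPlace twoP`.
-/

set_option autoImplicit false
set_option linter.unusedSectionVars false
set_option linter.unusedVariables false

noncomputable section

open AlgebraicCurve ModularCurve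

namespace Fermat.Agent.ML.StepP.TwoF

open Matrix Fermat.Agent.GAL Fermat.Agent.RIB Fermat.Agent.RIB.Rho Fermat.Agent.ML.ESide
  Fermat.Agent.ML.Rho Fermat.Agent.ML.Lift Fermat.Agent.S56 Fermat.Agent.S56.Flat
  Fermat.Agent.S56.Gen Fermat.Agent.ML.StepGen Fermat.Agent.ML.At2 Fermat.Agent.ML.Hard
  ExtCitation
open CFT (decomp)

local notation "GQ" => (AlgebraicClosure ℚ ≃ₐ[ℚ] AlgebraicClosure ℚ)
local notation "M₂" => Matrix (Fin 2) (Fin 2)

/-- **the contract at the prime `2`, F-form.** -/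
theorem twoFStmt : Hard.TwoFStmt := by
  intro W p _ T b L₀ _ eps eP X P hP
  obtain ⟨φ, hφ⟩ := S54.exists_isFrobeniusAt_of_liesOverPrime twoP.2 _
    (liesOverPrime_primeLocalPlace twoP)
  refine ⟨N2val (rbarB b) P φ, N2val_ne_zero P φ, ?_⟩
  intro K N' _ V B C R _ _ _ _ _ πE ρ Φ H Y hYG YS hYS hur hun hst
  obtain ⟨k2, u2, β2, P2, pt, hk, hle, hu, hpt, hval, hpol, hgen, hout⟩ :=
    two_sub X C H P (fun h => hP h) Y hYG YS hYS hur hun hst hφ
  have hO : Out2 V (rbarB b) P (eps 2) β2 := by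
    intro β' hβ S hS
    obtain ⟨o1, o2, o3⟩ := hout β' hβ S hS
    exact ⟨fun h => ⟨o3 h, o2 (Or.inr h)⟩, fun h1 h2 => o1 h2 h1, fun h => o2 (Or.inl h)⟩
  by_cases h1 : k2 = 1
  · subst h1
    obtain ⟨hw, hs⟩ := hgen rfl
    have eu : (fun _ : Fin 1 => u2 0) = u2 := funext fun j => by rw [Subsingleton.elim j 0]
    have ept : (fun _ : Fin 1 => pt 0) = pt := funext fun j => by rw [Subsingleton.elim j 0]
    refine Or.inr ⟨u2 0, β2,
      MvPolynomial.aeval (fun _ : Fin 1 => (Polynomial.X : Polynomial ℤ)) P2, pt 0, hu 0,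
      fun I hI => hs I fun j => by rw [Subsingleton.elim j 0]; exact hI, ?_, hpt 0, ?_, hw, hO⟩
    · rw [MvPolynomial.comp_aeval_apply]
      simp only [Polynomial.aeval_X]
      rw [eu]
      exact hpol
    · rw [← Polynomial.coe_aeval_eq_eval, MvPolynomial.comp_aeval_apply]
      simp only [Polynomial.aeval_X]
      rw [ept, hval]
  · have h0 : k2 = 0 := by omega
    subst h0
    refine Or.inl ⟨β2, ?_, fun h2 => ?_, hO⟩
    · have h2 := aeval_sub_mem Y.annihilator u2 pt (fun j => j.elim0) P2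
      rw [hval] at h2
      have := Y.annihilator.add_mem hpol h2
      rwa [sub_add_sub_cancel] at this
    · by_contra hram
      exact h1 (hk.2 ⟨hram, Or.inl h2⟩)

end Fermat.Agent.ML.StepP.TwoF
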